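import Mathlib
import Fermat.Prelude.Def_ModularForm_HeckeOperator

/-!
# The form `Δ(Nz)` and its stabiliser in `SL(2, ℤ)`  (package P2 of the S23 plan)

`deltaNFun N = Δ ∣[12] diag(N, 1)`, i.e. `z ↦ N ^ 11 * Δ (N z)`.
Main results:
* `hermite_decomp`: `diag(N,1) * h = h' * [[A, B], [0, D]]` with `A = gcd (N, h₁₀)`, `A * D = N`.
* `mem_Gamma0_of_slash_deltaNFun_eq`: if `deltaNFun N ∣[12] h = deltaNFun N` for `h : SL(2, ℤ)`
  then `h ∈ Γ₀(N)`.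
-/

set_option autoImplicit false

namespace Fermat.Agent.S23

open UpperHalfPlane ModularForm Matrix MatrixGroups Matrix.SpecialLinearGroup Filter Topology
open scoped ModularForm Real

noncomputable section

/-! ### Hermite normal form of `diag(N,1) * h` -/

/-- Integer Hermite decomposition data. -/
theorem hermite_int (N : ℕ) (hN : N ≠ 0) (h : SL(2, ℤ)) :
    ∃ (h' : SL(2, ℤ)) (A D : ℕ) (B : ℤ), 0 < A ∧ 0 < D ∧ A * D = N ∧
      A = Nat.gcd N (h 1 0).natAbs ∧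
      (D : ℤ) * h 0 0 = h' 0 0 ∧ h 1 0 = h' 1 0 * A ∧
      (N : ℤ) * h 0 1 = h' 0 0 * B + h' 0 1 * D ∧ h 1 1 = h' 1 0 * B + h' 1 1 * D := by
  set a := h 0 0 with ha
  set b := h 0 1 with hb
  set c := h 1 0 with hc
  set d := h 1 1 with hd
  have hdet : a * d - b * c = 1 := by
    have := h.det_coe
    rw [Matrix.det_fin_two] at this
    exact this
  set A := Nat.gcd N c.natAbs with hA
  have hApos : 0 < A := Nat.gcd_pos_of_pos_left _ (Nat.pos_of_ne_zero hN)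
  obtain ⟨D, hD⟩ : A ∣ N := Nat.gcd_dvd_left _ _
  have hDpos : 0 < D := by
    rcases Nat.eq_zero_or_pos D with h0 | h0
    · rw [h0, mul_zero] at hD; exact absurd hD hN
    · exact h0
  obtain ⟨c', hc'⟩ : (A : ℤ) ∣ c := by
    have : A ∣ c.natAbs := Nat.gcd_dvd_right _ _
    exact Int.natCast_dvd.mpr this
  -- coprimality of `D * a` and `c'`
  have hcop : IsCoprime ((D : ℤ) * a) c' := by
    have h1 : IsCoprime a c' := by
      have : IsCoprime a c := ⟨d, -b, by linarith⟩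
      rw [hc'] at this
      exact this.of_mul_right_right
    have h2 : IsCoprime (D : ℤ) c' := by
      -- gcd (N, c) = A, N = A * D, c = A * c'
      have hg : Int.gcd (N : ℤ) c = A := by
        rw [Int.gcd_def]; simp [hA]
      rw [hD, hc'] at hg
      push_cast at hg
      rw [Int.gcd_mul_left] at hg
      have hA' : (A : ℤ).natAbs = A := Int.natAbs_natCast A
      rw [hA'] at hg
      have : Int.gcd (D : ℤ) c' = 1 := by
        have := Nat.eq_of_mul_eq_mul_left hApos (by rw [hg, mul_one] : A * Int.gcd (D : ℤ) c' = A * 1)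
        exact this
      exact Int.isCoprime_iff_gcd_eq_one.mpr this
    exact IsCoprime.mul_left h2 h1
  obtain ⟨u, v, huv⟩ := hcop
  -- u * (D * a) + v * c' = 1
  refine ⟨⟨!![(D : ℤ) * a, -v; c', u], ?_⟩, A, D, u * N * b + v * d, hApos, hDpos, hD.symm, rfl,
    ?_, ?_, ?_, ?_⟩
  · rw [Matrix.det_fin_two_of]; linarith
  · simp
  · simp [hc', mul_comm]
  · have h1 : (A : ℤ) * D = N := by exact_mod_cast hD.symm
    simp only [Matrix.of_apply, Matrix.cons_val', Matrix.cons_val_zero,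
      Matrix.cons_val_one, Matrix.empty_val', Matrix.cons_val_fin_one]
    linear_combination (-(D : ℤ) * v) * hdet - ((D : ℤ) * v * b) * hc' - (v * b * c') * h1
      - (b * N) * huv
  · have h1 : (A : ℤ) * D = N := by exact_mod_cast hD.symm
    simp only [Matrix.of_apply, Matrix.cons_val', Matrix.cons_val_zero,
      Matrix.cons_val_one, Matrix.empty_val', Matrix.cons_val_fin_one]
    linear_combination (u * (D : ℤ)) * hdet + (u * (D : ℤ) * b) * hc' + (u * c' * b) * h1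
      - d * huv

/-- Upper triangular matrix `[[A, B], [0, D]]` with positive natural diagonal entries. -/
def utGL (A D : ℕ) (B : ℤ) (hA : 0 < A) (hD : 0 < D) : GL (Fin 2) ℝ :=
  upperTriangularGL (A : ℝ) (B : ℝ) (D : ℝ)
    (mul_ne_zero (Nat.cast_ne_zero.mpr hA.ne') (Nat.cast_ne_zero.mpr hD.ne'))

@[simp] theorem val_utGL (A D : ℕ) (B : ℤ) (hA : 0 < A) (hD : 0 < D) :
    ((utGL A D B hA hD : GL (Fin 2) ℝ) : Matrix (Fin 2) (Fin 2) ℝ) =
      !![(A : ℝ), (B : ℝ); 0, (D : ℝ)] := rfl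

theorem heckeDiagMatrix_eq_utGL {N : ℕ} (hN : 0 < N) :
    heckeDiagMatrix N = utGL N 1 0 hN one_pos := by
  apply Units.ext
  rw [val_heckeDiagMatrix hN.ne', val_utGL]
  simp

/-- Hermite decomposition in `GL (Fin 2) ℝ`. -/
theorem hermite_decomp (N : ℕ) (hN : N ≠ 0) (h : SL(2, ℤ)) :
    ∃ (h' : SL(2, ℤ)) (A D : ℕ) (B : ℤ) (hA : 0 < A) (hD : 0 < D), A * D = N ∧
      A = Nat.gcd N (h 1 0).natAbs ∧
      heckeDiagMatrix N * (h : GL (Fin 2) ℝ) = (h' : GL (Fin 2) ℝ) * utGL A D B hA hD := by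
  obtain ⟨h', A, D, B, hA, hD, hAD, hgcd, e00, e10, e01, e11⟩ := hermite_int N hN h
  refine ⟨h', A, D, B, hA, hD, hAD, hgcd, ?_⟩
  apply Units.ext
  rw [Units.val_mul, Units.val_mul, val_heckeDiagMatrix hN, val_utGL]
  have hAD' : (A : ℤ) * D = N := by exact_mod_cast hAD
  ext i j
  fin_cases i <;> fin_cases j
  · simp [Matrix.mul_apply, Fin.sum_univ_two]
    have : (N : ℤ) * h 0 0 = h' 0 0 * A := by rw [← e00, ← hAD']; ring
    exact_mod_cast this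
  · simp [Matrix.mul_apply, Fin.sum_univ_two]
    exact_mod_cast e01
  · simp [Matrix.mul_apply, Fin.sum_univ_two]
    exact_mod_cast e10
  · simp [Matrix.mul_apply, Fin.sum_univ_two]
    exact_mod_cast e11

/-! ### Slash action of upper triangular matrices -/

theorem det_utGL (A D : ℕ) (B : ℤ) (hA : 0 < A) (hD : 0 < D) :
    ((utGL A D B hA hD).det : ℝ) = (A : ℝ) * D := by
  rw [Matrix.GeneralLinearGroup.val_det_apply, val_utGL, Matrix.det_fin_two_of]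
  ring

theorem det_utGL_pos (A D : ℕ) (B : ℤ) (hA : 0 < A) (hD : 0 < D) :
    0 < ((utGL A D B hA hD).det : ℝ) := by
  rw [det_utGL]; positivity

theorem denom_utGL (A D : ℕ) (B : ℤ) (hA : 0 < A) (hD : 0 < D) (τ : ℍ) :
    UpperHalfPlane.denom (utGL A D B hA hD) τ = D := by
  simp [UpperHalfPlane.denom]

theorem coe_utGL_smul (A D : ℕ) (B : ℤ) (hA : 0 < A) (hD : 0 < D) (τ : ℍ) :
    ((utGL A D B hA hD • τ : ℍ) : ℂ) = ((A : ℂ) * τ + B) / D := by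
  rw [UpperHalfPlane.coe_smul_of_det_pos (det_utGL_pos A D B hA hD)]
  simp [UpperHalfPlane.num, UpperHalfPlane.denom]

theorem im_utGL_smul (A D : ℕ) (B : ℤ) (hA : 0 < A) (hD : 0 < D) (τ : ℍ) :
    (utGL A D B hA hD • τ : ℍ).im = (A : ℝ) / D * τ.im := by
  have h := coe_utGL_smul A D B hA hD τ
  have h2 : (utGL A D B hA hD • τ : ℍ).im = (((A : ℂ) * τ + B) / D).im := by
    rw [← h]; rfl
  rw [h2]
  have hD' : (D : ℂ) = ((D : ℝ) : ℂ) := by simp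
  have hA' : (A : ℂ) = ((A : ℝ) : ℂ) := by simp
  have hB' : (B : ℂ) = ((B : ℝ) : ℂ) := by simp
  rw [hD', hA', hB', Complex.div_ofReal_im]
  simp
  ring

theorem σ_utGL (A D : ℕ) (B : ℤ) (hA : 0 < A) (hD : 0 < D) :
    UpperHalfPlane.σ (utGL A D B hA hD) = .refl ℝ ℂ := by
  rw [UpperHalfPlane.σ, if_pos (det_utGL_pos A D B hA hD)]

theorem slash_utGL_apply (k : ℤ) (A D : ℕ) (B : ℤ) (hA : 0 < A) (hD : 0 < D) (f : ℍ → ℂ)
    (τ : ℍ) :
    (f ∣[k] utGL A D B hA hD) τ =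
      ((A : ℂ) * D) ^ (k - 1) * (D : ℂ) ^ (-k) * f (utGL A D B hA hD • τ) := by
  rw [ModularForm.slash_apply, σ_utGL, det_utGL, denom_utGL]
  have : |(A : ℝ) * D| = (A : ℝ) * D := abs_of_pos (by positivity)
  rw [this]
  simp only [ContinuousAlgEquiv.refl_apply, Complex.ofReal_mul, Complex.ofReal_natCast]
  ring

/-! ### Asymptotics of `Δ` along upper triangular translates -/

local notation "Δ" => ModularForm.discriminant

/-- The infinite product factor of `Δ`. -/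
def prodFactor (x : ℍ) : ℂ := ∏' n : ℕ, (1 - eta_q n x) ^ 24

theorem discriminant_eq_qParam_mul_prodFactor (x : ℍ) :
    Δ x = Function.Periodic.qParam 1 x * prodFactor x :=
  discriminant_eq_q_prod x

theorem prodFactor_ne_zero (x : ℍ) : prodFactor x ≠ 0 := by
  intro h
  have := discriminant_ne_zero x
  rw [discriminant_eq_qParam_mul_prodFactor, h, mul_zero] at this
  exact this rfl

theorem tendsto_prodFactor : Tendsto prodFactor atImInfty (𝓝 1) :=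
  tendsto_atImInfty_tprod_one_sub_eta_q_pow

theorem utGL_one_zero (A D : ℕ) (B : ℤ) (hA : 0 < A) (hD : 0 < D) :
    (utGL A D B hA hD) 1 0 = 0 := rfl

theorem tendsto_prodFactor_utGL (A D : ℕ) (B : ℤ) (hA : 0 < A) (hD : 0 < D) :
    Tendsto (fun x : ℍ => prodFactor (utGL A D B hA hD • x)) atImInfty (𝓝 1) :=
  tendsto_prodFactor.comp (tendsto_smul_atImInfty (utGL_one_zero A D B hA hD))

theorem norm_qParam_utGL_smul (A D : ℕ) (B : ℤ) (hA : 0 < A) (hD : 0 < D) (x : ℍ) :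
    ‖Function.Periodic.qParam 1 ((utGL A D B hA hD • x : ℍ) : ℂ)‖ =
      Real.exp (-2 * π * ((A : ℝ) / D) * x.im) := by
  rw [Function.Periodic.norm_qParam]
  have : ((utGL A D B hA hD • x : ℍ) : ℂ).im = (A : ℝ) / D * x.im := im_utGL_smul A D B hA hD x
  rw [this]
  congr 1
  ring

/-- Key asymptotic comparison: a nontrivial linear relation between two upper triangular
translates of `Δ` forces the ratios `A / D` not to be strictly ordered. -/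
theorem not_lt_of_discriminant_utGL_eq {A₁ D₁ A₂ D₂ : ℕ} {B₁ B₂ : ℤ}
    (hA₁ : 0 < A₁) (hD₁ : 0 < D₁) (hA₂ : 0 < A₂) (hD₂ : 0 < D₂) {c₁ c₂ : ℂ} (hc₁ : c₁ ≠ 0)
    (hc₂ : c₂ ≠ 0)
    (h : ∀ x : ℍ, c₁ * Δ (utGL A₁ D₁ B₁ hA₁ hD₁ • x) = c₂ * Δ (utGL A₂ D₂ B₂ hA₂ hD₂ • x)) :
    ¬ ((A₁ : ℝ) / D₁ < (A₂ : ℝ) / D₂) := by
  intro hlt
  set β₁ := utGL A₁ D₁ B₁ hA₁ hD₁ with hβ₁
  set β₂ := utGL A₂ D₂ B₂ hA₂ hD₂ with hβ₂
  set q : ℂ → ℂ := Function.Periodic.qParam 1 with hq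
  -- the ratio of the `q`-parameters tends to `0`
  have h0 : Tendsto (fun x : ℍ => q (β₂ • x : ℍ) / q (β₁ • x : ℍ)) atImInfty (𝓝 0) := by
    rw [tendsto_zero_iff_norm_tendsto_zero]
    have hnorm : ∀ x : ℍ, ‖q (β₂ • x : ℍ) / q (β₁ • x : ℍ)‖ =
        Real.exp (-(2 * π * ((A₂ : ℝ) / D₂ - (A₁ : ℝ) / D₁)) * x.im) := by
      intro x
      rw [norm_div, hq, hβ₁, hβ₂, norm_qParam_utGL_smul, norm_qParam_utGL_smul, ← Real.exp_sub]
      congr 1
      ring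
    simp_rw [hnorm]
    have hpos : 0 < 2 * π * ((A₂ : ℝ) / D₂ - (A₁ : ℝ) / D₁) := by
      have := Real.pi_pos
      have : 0 < (A₂ : ℝ) / D₂ - (A₁ : ℝ) / D₁ := sub_pos.mpr hlt
      positivity
    have him : Tendsto (fun x : ℍ => x.im) atImInfty atTop := tendsto_comap
    have := (tendsto_neg_atTop_atBot.comp (him.const_mul_atTop hpos))
    refine Real.tendsto_exp_atBot.comp (this.congr fun x => ?_)
    simp [Function.comp]
  -- but it also tends to `c₁ / c₂`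
  have h1 : Tendsto (fun x : ℍ => (c₁ * prodFactor (β₁ • x)) / (c₂ * prodFactor (β₂ • x)))
      atImInfty (𝓝 ((c₁ * 1) / (c₂ * 1))) := by
    refine Tendsto.div ((tendsto_prodFactor_utGL A₁ D₁ B₁ hA₁ hD₁).const_mul c₁)
      ((tendsto_prodFactor_utGL A₂ D₂ B₂ hA₂ hD₂).const_mul c₂) ?_
    simpa using hc₂
  have heq : ∀ x : ℍ, q (β₂ • x : ℍ) / q (β₁ • x : ℍ) =
      (c₁ * prodFactor (β₁ • x)) / (c₂ * prodFactor (β₂ • x)) := by
    intro x
    have hx := h x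
    rw [discriminant_eq_qParam_mul_prodFactor, discriminant_eq_qParam_mul_prodFactor] at hx
    have hq1 : q (β₁ • x : ℍ) ≠ 0 := Function.Periodic.qParam_ne_zero _
    have hp2 : prodFactor (β₂ • x) ≠ 0 := prodFactor_ne_zero _
    rw [div_eq_div_iff hq1 (mul_ne_zero hc₂ hp2)]
    linear_combination -hx
  have h2 : Tendsto (fun x : ℍ => q (β₂ • x : ℍ) / q (β₁ • x : ℍ)) atImInfty
      (𝓝 ((c₁ * 1) / (c₂ * 1))) := h1.congr fun x => (heq x).symm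
  have := tendsto_nhds_unique h0 h2
  rw [mul_one, mul_one, eq_comm, div_eq_zero_iff] at this
  rcases this with h | h
  · exact hc₁ h
  · exact hc₂ h

theorem ratio_eq_of_discriminant_utGL_eq {A₁ D₁ A₂ D₂ : ℕ} {B₁ B₂ : ℤ}
    (hA₁ : 0 < A₁) (hD₁ : 0 < D₁) (hA₂ : 0 < A₂) (hD₂ : 0 < D₂) {c₁ c₂ : ℂ} (hc₁ : c₁ ≠ 0)
    (hc₂ : c₂ ≠ 0)
    (h : ∀ x : ℍ, c₁ * Δ (utGL A₁ D₁ B₁ hA₁ hD₁ • x) = c₂ * Δ (utGL A₂ D₂ B₂ hA₂ hD₂ • x)) :
    (A₁ : ℝ) / D₁ = (A₂ : ℝ) / D₂ :=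
  le_antisymm
    (not_lt.mp (not_lt_of_discriminant_utGL_eq hA₂ hD₂ hA₁ hD₁ hc₂ hc₁ fun x => (h x).symm))
    (not_lt.mp (not_lt_of_discriminant_utGL_eq hA₁ hD₁ hA₂ hD₂ hc₁ hc₂ h))

/-! ### The function `Δ(N z)` (normalised as `Δ ∣[12] diag(N,1) = N ^ 11 * Δ (N z)`) -/

/-- `deltaNFun N = Δ ∣[12] diag(N, 1)`, i.e. `z ↦ N ^ 11 * Δ (N z)`. -/
def deltaNFun (N : ℕ) : ℍ → ℂ := Δ ∣[(12 : ℤ)] heckeDiagMatrix N

theorem discriminant_slash_SL (h : SL(2, ℤ)) : Δ ∣[(12 : ℤ)] h = Δ :=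
  SlashInvariantForm.slash_action_generators_SL2Z discriminant_S_invariant discriminant_T_invariant h

theorem deltaNFun_apply {N : ℕ} (hN : N ≠ 0) (τ : ℍ) :
    deltaNFun N τ = (N : ℂ) ^ (11 : ℤ) * Δ (heckeDiagMatrix N • τ) := by
  rw [deltaNFun, slash_heckeDiagMatrix_apply 12 hN]
  norm_num

/-- `deltaNFun N ∣[12] h` in terms of the Hermite normal form. -/
theorem deltaNFun_slash_SL {N : ℕ} (hN : N ≠ 0) (h : SL(2, ℤ)) :
    ∃ (A D : ℕ) (B : ℤ) (hA : 0 < A) (hD : 0 < D), A * D = N ∧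
      A = Nat.gcd N (h 1 0).natAbs ∧
      deltaNFun N ∣[(12 : ℤ)] h = Δ ∣[(12 : ℤ)] utGL A D B hA hD := by
  obtain ⟨h', A, D, B, hA, hD, hAD, hgcd, hmat⟩ := hermite_decomp N hN h
  refine ⟨A, D, B, hA, hD, hAD, hgcd, ?_⟩
  rw [deltaNFun, ModularForm.SL_slash, ← SlashAction.slash_mul, hmat, SlashAction.slash_mul,
    ← ModularForm.SL_slash, discriminant_slash_SL]

/-- **Stabiliser of `Δ(Nz)`**: an element of `SL(2, ℤ)` fixing `deltaNFun N` under the weight `12`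
slash action lies in `Γ₀(N)`. -/
theorem mem_Gamma0_of_slash_deltaNFun_eq {N : ℕ} (hN : N ≠ 0) (h : SL(2, ℤ))
    (hh : deltaNFun N ∣[(12 : ℤ)] h = deltaNFun N) : h ∈ CongruenceSubgroup.Gamma0 N := by
  obtain ⟨A, D, B, hA, hD, hAD, hgcd, hsl⟩ := deltaNFun_slash_SL hN h
  have hNpos : 0 < N := Nat.pos_of_ne_zero hN
  rw [hh] at hsl
  rw [deltaNFun, heckeDiagMatrix_eq_utGL hNpos] at hsl
  -- compare the two upper triangular translates
  have key : ∀ x : ℍ, (((N : ℂ) * (1 : ℕ)) ^ ((12 : ℤ) - 1) * ((1 : ℕ) : ℂ) ^ (-(12 : ℤ))) *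
      Δ (utGL N 1 0 hNpos one_pos • x) =
      (((A : ℂ) * D) ^ ((12 : ℤ) - 1) * (D : ℂ) ^ (-(12 : ℤ))) * Δ (utGL A D B hA hD • x) := by
    intro x
    have := congrFun hsl x
    rwa [slash_utGL_apply, slash_utGL_apply] at this
  have hNc : (N : ℂ) ≠ 0 := Nat.cast_ne_zero.mpr hN
  have hAc : (A : ℂ) ≠ 0 := Nat.cast_ne_zero.mpr hA.ne'
  have hDc : (D : ℂ) ≠ 0 := Nat.cast_ne_zero.mpr hD.ne'
  have hc₁ : (((N : ℂ) * (1 : ℕ)) ^ ((12 : ℤ) - 1) * ((1 : ℕ) : ℂ) ^ (-(12 : ℤ))) ≠ 0 := by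
    simp [hNc]
  have hc₂ : (((A : ℂ) * D) ^ ((12 : ℤ) - 1) * (D : ℂ) ^ (-(12 : ℤ))) ≠ 0 :=
    mul_ne_zero (zpow_ne_zero _ (mul_ne_zero hAc hDc)) (zpow_ne_zero _ hDc)
  have hratio := ratio_eq_of_discriminant_utGL_eq hNpos one_pos hA hD hc₁ hc₂ key
  -- hence `D = 1`
  have hD1 : D = 1 := by
    have hADr : (A : ℝ) * D = N := by exact_mod_cast hAD
    have hDr : (0 : ℝ) < D := Nat.cast_pos.mpr hD
    have hAr : (0 : ℝ) < A := Nat.cast_pos.mpr hA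
    simp only [Nat.cast_one, div_one] at hratio
    rw [eq_div_iff hDr.ne'] at hratio
    -- N * D = A and A * D = N
    have : (A : ℝ) * ((D : ℝ) * D - 1) = 0 := by
      rw [← hADr] at hratio
      linear_combination hratio
    rcases mul_eq_zero.mp this with h0 | h0
    · exact absurd h0 hAr.ne'
    · have h1 : (D : ℝ) * D = 1 := by linarith
      have h2 : D * D = 1 := by exact_mod_cast h1
      exact Nat.eq_one_of_mul_eq_one_left h2
  rw [hD1, mul_one] at hAD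
  rw [hAD] at hgcd
  -- `N = gcd N |c|` hence `N ∣ c`
  rw [CongruenceSubgroup.Gamma0_mem]
  have hdvd : N ∣ (h 1 0).natAbs := by
    have := Nat.gcd_dvd_right N (h 1 0).natAbs
    rwa [← hgcd] at this
  rw [ZMod.intCast_zmod_eq_zero_iff_dvd]
  exact Int.natCast_dvd.mpr hdvd

/-! ### `Δ(Nz)` as a cusp form of level `Γ₀(N)` -/

/-- For `h ∈ Γ₀(N)`, `diag(N,1) * h = h'' * diag(N,1)` for some `h'' ∈ SL(2, ℤ)`. -/
theorem heckeDiagMatrix_mul_Gamma0 {N : ℕ} (hN : N ≠ 0) {h : SL(2, ℤ)}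
    (hh : h ∈ CongruenceSubgroup.Gamma0 N) :
    ∃ h'' : SL(2, ℤ), heckeDiagMatrix N * (h : GL (Fin 2) ℝ) =
      (h'' : GL (Fin 2) ℝ) * heckeDiagMatrix N := by
  rw [CongruenceSubgroup.Gamma0_mem, ZMod.intCast_zmod_eq_zero_iff_dvd] at hh
  obtain ⟨c', hc'⟩ := hh
  have hdet : h 0 0 * h 1 1 - h 0 1 * h 1 0 = 1 := by
    have := h.det_coe
    rw [Matrix.det_fin_two] at this
    exact this
  obtain ⟨h'', e00, e01, e10, e11⟩ : ∃ h'' : SL(2, ℤ), h'' 0 0 = h 0 0 ∧ h'' 0 1 = (N : ℤ) * h 0 1 ∧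
      h'' 1 0 = c' ∧ h'' 1 1 = h 1 1 := by
    refine ⟨⟨!![h 0 0, (N : ℤ) * h 0 1; c', h 1 1], ?_⟩, rfl, rfl, rfl, rfl⟩
    rw [Matrix.det_fin_two_of]
    rw [hc'] at hdet
    linear_combination hdet
  refine ⟨h'', ?_⟩
  apply Units.ext
  rw [Units.val_mul, Units.val_mul, val_heckeDiagMatrix hN]
  ext i j
  fin_cases i <;> fin_cases j
  · simp [Matrix.mul_apply, Fin.sum_univ_two, e00]
    ring
  · simp [Matrix.mul_apply, Fin.sum_univ_two, e01]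
  · simp [Matrix.mul_apply, Fin.sum_univ_two, e10]
    have : ((h 1 0 : ℤ) : ℝ) = (N : ℝ) * (c' : ℝ) := by exact_mod_cast hc'
    rw [this]; ring
  · simp [Matrix.mul_apply, Fin.sum_univ_two, e11]

open ConjAct Pointwise in
theorem Gamma0_le_conj {N : ℕ} (hN : N ≠ 0) :
    (CongruenceSubgroup.Gamma0 N : Subgroup (GL (Fin 2) ℝ)) ≤
      toConjAct (heckeDiagMatrix N)⁻¹ • 𝒮ℒ := by
  intro γ hγ
  obtain ⟨h, hh, rfl⟩ := Subgroup.mem_map.mp hγ
  rw [Subgroup.mem_pointwise_smul_iff_inv_smul_mem, ← map_inv, inv_inv, ConjAct.toConjAct_smul]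
  obtain ⟨h'', hh''⟩ := heckeDiagMatrix_mul_Gamma0 hN hh
  refine ⟨h'', ?_⟩
  have : (heckeDiagMatrix N * (mapGL ℝ h : GL (Fin 2) ℝ)) = (mapGL ℝ h'' : GL (Fin 2) ℝ) * heckeDiagMatrix N := hh''
  rw [this, mul_inv_cancel_right]

/-- `Δ(Nz)` (normalised as `N ^ 11 * Δ (N z)`) as a cusp form of weight `12` on `Γ₀(N)`. -/
def deltaN (N : ℕ) [NeZero N] : CuspForm (CongruenceSubgroup.Gamma0 N) 12 where
  toFun := deltaNFun N
  slash_action_eq' γ hγ :=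
    (CuspForm.translate CuspForm.discriminant (heckeDiagMatrix N)).slash_action_eq' γ
      (Gamma0_le_conj (NeZero.ne N) hγ)
  holo' := (CuspForm.translate CuspForm.discriminant (heckeDiagMatrix N)).holo'
  zero_at_cusps' hc :=
    (CuspForm.translate CuspForm.discriminant (heckeDiagMatrix N)).zero_at_cusps'
      (hc.mono (Gamma0_le_conj (NeZero.ne N)))

@[simp] theorem coe_deltaN (N : ℕ) [NeZero N] : ⇑(deltaN N) = deltaNFun N := rfl

theorem deltaN_apply (N : ℕ) [NeZero N] (τ : ℍ) :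
    deltaN N τ = (N : ℂ) ^ (11 : ℤ) * Δ (heckeDiagMatrix N • τ) :=
  deltaNFun_apply (NeZero.ne N) τ

theorem deltaN_ne_zero (N : ℕ) [NeZero N] (τ : ℍ) : deltaN N τ ≠ 0 := by
  rw [deltaN_apply]
  exact mul_ne_zero (zpow_ne_zero _ (Nat.cast_ne_zero.mpr (NeZero.ne N))) (discriminant_ne_zero _)

/-- Invariance of `deltaNFun N` under `Γ₀(N)`. -/
theorem deltaNFun_slash_of_mem_Gamma0 (N : ℕ) [NeZero N] {h : SL(2, ℤ)}
    (hh : h ∈ CongruenceSubgroup.Gamma0 N) : deltaNFun N ∣[(12 : ℤ)] h = deltaNFun N :=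
  (deltaN N).slash_action_eq' _ (Subgroup.mem_map_of_mem _ hh)

/-- The stabiliser of `deltaNFun N` in `SL(2, ℤ)` is exactly `Γ₀(N)`. -/
theorem slash_deltaNFun_eq_iff (N : ℕ) [NeZero N] (h : SL(2, ℤ)) :
    deltaNFun N ∣[(12 : ℤ)] h = deltaNFun N ↔ h ∈ CongruenceSubgroup.Gamma0 N :=
  ⟨mem_Gamma0_of_slash_deltaNFun_eq (NeZero.ne N) h, deltaNFun_slash_of_mem_Gamma0 N⟩

/-- Two `SL(2, ℤ)`-translates of `deltaNFun N` coincide iff the elements differ by `Γ₀(N)`. -/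
theorem slash_deltaNFun_eq_slash_iff (N : ℕ) [NeZero N] (h₁ h₂ : SL(2, ℤ)) :
    deltaNFun N ∣[(12 : ℤ)] h₁ = deltaNFun N ∣[(12 : ℤ)] h₂ ↔
      h₁ * h₂⁻¹ ∈ CongruenceSubgroup.Gamma0 N := by
  rw [← slash_deltaNFun_eq_iff, SlashAction.slash_mul]
  constructor
  · intro h
    rw [h, ← SlashAction.slash_mul, mul_inv_cancel, SlashAction.slash_one]
  · intro h
    have := congrArg (fun f => f ∣[(12 : ℤ)] h₂) h
    simpa [← SlashAction.slash_mul] using this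

/-- The `SL(2, ℤ)`-conjugates of `Δ(Nz)`, indexed as in Mathlib's `ModularForm.trace`/`norm`
(`SlashInvariantForm.quotientFunc`), are pairwise distinct. -/
theorem quotientFunc_deltaN_injective (N : ℕ) [NeZero N] :
    Function.Injective (SlashInvariantForm.quotientFunc (ℋ := 𝒮ℒ) (deltaN N)) := by
  intro q₁ q₂ hq
  obtain ⟨g₁, rfl⟩ := QuotientGroup.mk_surjective q₁
  obtain ⟨g₂, rfl⟩ := QuotientGroup.mk_surjective q₂
  obtain ⟨g₁, hg₁⟩ := g₁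
  obtain ⟨g₂, hg₂⟩ := g₂
  obtain ⟨h₁, rfl⟩ := MonoidHom.mem_range.mp hg₁
  obtain ⟨h₂, rfl⟩ := MonoidHom.mem_range.mp hg₂
  have hq1 : (⇑(deltaN N) : ℍ → ℂ) ∣[(12 : ℤ)] ((mapGL ℝ) h₁)⁻¹ =
      (⇑(deltaN N) : ℍ → ℂ) ∣[(12 : ℤ)] ((mapGL ℝ) h₂)⁻¹ := hq
  have hq' : deltaNFun N ∣[(12 : ℤ)] h₁⁻¹ = deltaNFun N ∣[(12 : ℤ)] h₂⁻¹ := by
    rw [ModularForm.SL_slash, ModularForm.SL_slash]
    have e₁ : ((h₁⁻¹ : SL(2, ℤ)) : GL (Fin 2) ℝ) = ((mapGL ℝ) h₁)⁻¹ := map_inv (mapGL ℝ) h₁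
    have e₂ : ((h₂⁻¹ : SL(2, ℤ)) : GL (Fin 2) ℝ) = ((mapGL ℝ) h₂)⁻¹ := map_inv (mapGL ℝ) h₂
    rw [e₁, e₂]
    exact hq1
  rw [slash_deltaNFun_eq_slash_iff, inv_inv] at hq'
  rw [QuotientGroup.eq, Subgroup.mem_subgroupOf]
  exact ⟨h₁⁻¹ * h₂, hq', by simp⟩

end

end Fermat.Agent.S23
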