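import Mathlib

set_option autoImplicit false

open UpperHalfPlane ModularForm ModularFormClass MatrixGroups EisensteinSeries

namespace Fermat.Agent.S23.LevelOne

/-- The subring of power series over `ℂ` with integer coefficients. -/
noncomputable def intSeries : Subring (PowerSeries ℂ) :=
  (PowerSeries.map (Int.castRingHom ℂ)).range

lemma mem_intSeries_iff (p : PowerSeries ℂ) :
    p ∈ intSeries ↔ ∀ n, ∃ m : ℤ, PowerSeries.coeff n p = (m : ℂ) := by
  constructor
  · rintro ⟨q, rfl⟩ n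
    exact ⟨PowerSeries.coeff n q, by simp⟩
  · intro h
    choose r hr using h
    refine ⟨PowerSeries.mk r, ?_⟩
    ext n
    simp [hr n]

lemma qExpansion_E₄_mem_intSeries : qExpansion 1 E₄ ∈ intSeries := by
  rw [mem_intSeries_iff]
  intro m
  rw [E_qExpansion_coeff (by norm_num) ⟨2, rfl⟩ m]
  split_ifs with h
  · exact ⟨1, by simp⟩
  · refine ⟨240 * (ArithmeticFunction.sigma 3 m : ℤ), ?_⟩
    have hb : bernoulli 4 = -1 / 30 := by decide +kernel
    rw [hb]
    push_cast
    ring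

lemma qExpansion_E₆_mem_intSeries : qExpansion 1 E₆ ∈ intSeries := by
  rw [mem_intSeries_iff]
  intro m
  rw [E_qExpansion_coeff (by norm_num) ⟨3, rfl⟩ m]
  split_ifs with h
  · exact ⟨1, by simp⟩
  · refine ⟨-504 * (ArithmeticFunction.sigma 5 m : ℤ), ?_⟩
    have hb : bernoulli 6 = 1 / 42 := by decide +kernel
    rw [hb]
    push_cast
    ring

/-- The monomial `E₄^a E₆^b` as a modular form of weight `w = 4a + 6b`. -/
noncomputable def monomialForm (a b : ℕ) {w : ℤ} (hw : (a : ℤ) * 4 + (b : ℤ) * 6 = w) :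
    ModularForm 𝒮ℒ w :=
  ModularForm.mcast hw ((E₄.pow a).mul (E₆.pow b))

lemma coe_monomialForm (a b : ℕ) {w : ℤ} (hw : (a : ℤ) * 4 + (b : ℤ) * 6 = w) :
    (monomialForm a b hw : ℍ → ℂ) = (E₄ : ℍ → ℂ) ^ a * (E₆ : ℍ → ℂ) ^ b := by
  simp only [monomialForm, ModularForm.coe_mcast, ModularForm.coe_mul, ModularForm.coe_pow]

lemma qExpansion_monomialForm (a b : ℕ) {w : ℤ} (hw : (a : ℤ) * 4 + (b : ℤ) * 6 = w) :
    qExpansion 1 (monomialForm a b hw) = qExpansion 1 E₄ ^ a * qExpansion 1 E₆ ^ b := by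
  simp only [monomialForm, ModularForm.qExpansion_mcast,
    ModularForm.qExpansion_mul one_pos one_mem_strictPeriods_SL,
    ModularForm.qExpansion_pow one_pos one_mem_strictPeriods_SL]

lemma qExpansion_monomialForm_mem_intSeries (a b : ℕ) {w : ℤ}
    (hw : (a : ℤ) * 4 + (b : ℤ) * 6 = w) :
    qExpansion 1 (monomialForm a b hw) ∈ intSeries := by
  rw [qExpansion_monomialForm]
  exact intSeries.mul_mem (intSeries.pow_mem qExpansion_E₄_mem_intSeries a)
    (intSeries.pow_mem qExpansion_E₆_mem_intSeries b)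

lemma qExpansion_monomialForm_coeff_zero (a b : ℕ) {w : ℤ}
    (hw : (a : ℤ) * 4 + (b : ℤ) * 6 = w) :
    (qExpansion 1 (monomialForm a b hw)).coeff 0 = 1 := by
  rw [qExpansion_monomialForm]
  simp only [PowerSeries.coeff_zero_eq_constantCoeff, map_mul, map_pow]
  have h4 : PowerSeries.constantCoeff (qExpansion 1 E₄) = 1 := by
    simpa using E_qExpansion_coeff_zero (k := 4) (by norm_num) ⟨2, rfl⟩
  have h6 : PowerSeries.constantCoeff (qExpansion 1 E₆) = 1 := by
    simpa using E_qExpansion_coeff_zero (k := 6) (by norm_num) ⟨3, rfl⟩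
  rw [h4, h6]; simp

/-- The span of the monomials `E₄^a E₆^b` of weight `w`. -/
noncomputable def monoSpan (w : ℤ) : Submodule ℂ (ModularForm 𝒮ℒ w) :=
  Submodule.span ℂ {g | ∃ (a b : ℕ) (hw : (a : ℤ) * 4 + (b : ℤ) * 6 = w), g = monomialForm a b hw}

lemma monomialForm_mem_monoSpan (a b : ℕ) {w : ℤ} (hw : (a : ℤ) * 4 + (b : ℤ) * 6 = w) :
    monomialForm a b hw ∈ monoSpan w :=
  Submodule.subset_span ⟨a, b, hw, rfl⟩

/-- Multiplication by `Δ`, as a linear map `M_{w-12} → M_w`. -/
noncomputable def mulDelta (w : ℤ) : ModularForm 𝒮ℒ (w - 12) →ₗ[ℂ] ModularForm 𝒮ℒ w :=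
  CuspForm.toModularFormₗ.comp (CuspForm.discriminantEquiv (k := w)).symm.toLinearMap

lemma mulDelta_apply (w : ℤ) (h : ModularForm 𝒮ℒ (w - 12)) (z : ℍ) :
    mulDelta w h z = ModularForm.discriminant z * h z := rfl

lemma mulDelta_monomialForm (a b : ℕ) {w : ℤ} (hw : (a : ℤ) * 4 + (b : ℤ) * 6 = w - 12) :
    mulDelta w (monomialForm a b hw) =
      ((1 / 1728 : ℂ)) • (monomialForm (a + 3) b (w := w) (by push_cast; linarith) -
        monomialForm a (b + 2) (w := w) (by push_cast; linarith)) := by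
  ext z
  rw [mulDelta_apply, discriminant_eq_E₄_cube_sub_E₆_sq]
  simp only [smul_apply, sub_apply, smul_eq_mul]
  have h1 := congrFun (coe_monomialForm a b hw) z
  have h2 := congrFun (coe_monomialForm (a + 3) b (w := w) (by push_cast; linarith)) z
  have h3 := congrFun (coe_monomialForm a (b + 2) (w := w) (by push_cast; linarith)) z
  simp only [Pi.mul_apply, Pi.pow_apply] at h1 h2 h3
  rw [h1, h2, h3]
  ring

lemma mulDelta_mem_monoSpan {w : ℤ} {h : ModularForm 𝒮ℒ (w - 12)} (hh : h ∈ monoSpan (w - 12)) :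
    mulDelta w h ∈ monoSpan w := by
  have : (monoSpan (w - 12)).map (mulDelta w) ≤ monoSpan w := by
    rw [monoSpan, Submodule.map_span, Submodule.span_le]
    rintro _ ⟨g, ⟨a, b, hw, rfl⟩, rfl⟩
    rw [mulDelta_monomialForm]
    exact Submodule.smul_mem _ _ (Submodule.sub_mem _ (monomialForm_mem_monoSpan _ _ _)
      (monomialForm_mem_monoSpan _ _ _))
  exact this (Submodule.mem_map_of_mem hh)

lemma exists_monomial_weight {n : ℕ} (hn : 3 ≤ n) (hn2 : Even n) :
    ∃ a b : ℕ, (a : ℤ) * 4 + (b : ℤ) * 6 = (n : ℤ) := by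
  obtain ⟨m, hm⟩ := hn2
  rcases Nat.even_or_odd m with ⟨j, hj⟩ | ⟨j, hj⟩
  · exact ⟨j, 0, by push_cast; omega⟩
  · refine ⟨j - 1, 1, ?_⟩
    have : 1 ≤ j := by omega
    push_cast [Nat.cast_sub this]
    omega

/-- Inductive step. -/
lemma mem_monoSpan_step {n : ℕ} (hn : 3 ≤ n) (hn2 : Even n)
    (ih : ∀ h : ModularForm 𝒮ℒ ((n : ℤ) - 12), h ∈ monoSpan ((n : ℤ) - 12))
    (f : ModularForm 𝒮ℒ (n : ℤ)) : f ∈ monoSpan (n : ℤ) := by
  obtain ⟨a, b, hab⟩ := exists_monomial_weight hn hn2
  set m0 := monomialForm a b hab with hm0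
  set a0 : ℂ := (qExpansion 1 f).coeff 0 with ha0
  set f' : ModularForm 𝒮ℒ (n : ℤ) := f - a0 • m0 with hf'
  have h0 : (qExpansion 1 f').coeff 0 = 0 := by
    rw [hf', FunLike.coe_sub, ModularForm.qExpansion_sub one_pos one_mem_strictPeriods_SL,
      FunLike.coe_smul, ModularForm.qExpansion_smul one_pos one_mem_strictPeriods_SL, map_sub,
      PowerSeries.coeff_smul, qExpansion_monomialForm_coeff_zero]
    simp [ha0]
  set h : ModularForm 𝒮ℒ ((n : ℤ) - 12) := CuspForm.discriminantEquiv (toCuspForm f' h0)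
  have hmul : mulDelta (n : ℤ) h = f' := by
    ext z
    rw [mulDelta_apply]
    exact discriminant_mul_discriminantEquiv_apply (toCuspForm f' h0) z
  have hf : f = a0 • m0 + mulDelta (n : ℤ) h := by
    rw [hmul, hf']; abel
  rw [hf]
  exact Submodule.add_mem _ (Submodule.smul_mem _ _ (monomialForm_mem_monoSpan _ _ _))
    (mulDelta_mem_monoSpan (ih h))

lemma mem_monoSpan_of_forall_eq_zero {k : ℤ} (h : ∀ f : ModularForm 𝒮ℒ k, f = 0)
    (f : ModularForm 𝒮ℒ k) : f ∈ monoSpan k := by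
  rw [h f]; exact Submodule.zero_mem _

lemma mem_monoSpan_zero (f : ModularForm 𝒮ℒ 0) : f ∈ monoSpan 0 := by
  obtain ⟨c, hc⟩ := levelOne_weight_zero_const f
  have hw : ((0 : ℕ) : ℤ) * 4 + ((0 : ℕ) : ℤ) * 6 = 0 := by norm_num
  have hf : f = c • monomialForm 0 0 hw := by
    ext z
    have := congrFun hc z
    simp only [Function.const_apply] at this
    rw [this, smul_apply, congrFun (coe_monomialForm 0 0 hw) z]
    simp
  rw [hf]
  exact Submodule.smul_mem _ _ (monomialForm_mem_monoSpan _ _ _)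

lemma mem_monoSpan_lt : ∀ (n : ℕ) (k : ℤ), k < n → ∀ f : ModularForm 𝒮ℒ k, f ∈ monoSpan k := by
  intro n
  induction n with
  | zero =>
    intro k hk
    exact mem_monoSpan_of_forall_eq_zero fun f => by
      ext z; simpa using congrFun (levelOne_neg_weight_eq_zero (by simpa using hk) f) z
  | succ n ih =>
    intro k hk
    have hk' : k ≤ (n : ℤ) := by push_cast at hk; omega
    rcases lt_or_eq_of_le hk' with hlt | rfl
    · exact ih k hlt
    · rcases Nat.even_or_odd n with hev | hodd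
      · rcases Nat.lt_or_ge n 3 with hlt3 | hge3
        · obtain rfl | rfl : n = 0 ∨ n = 2 := by
            rcases hev with ⟨m, hm⟩; omega
          · exact mem_monoSpan_zero
          · exact mem_monoSpan_of_forall_eq_zero fun f =>
              rank_zero_iff_forall_zero.mp levelOne_weight_two_rank_zero f
        · exact mem_monoSpan_step hge3 hev (ih _ (by omega))
      · exact mem_monoSpan_of_forall_eq_zero fun f =>
          levelOne_odd_weight_eq_zero (by exact_mod_cast hodd) f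

/-- **Structure theorem**: level-one modular forms of weight `w` are spanned by the monomials
`E₄^a E₆^b` with `4a + 6b = w`. -/
theorem monoSpan_eq_top (w : ℤ) : monoSpan w = ⊤ := by
  rw [eq_top_iff]
  intro f _
  exact mem_monoSpan_lt (w.toNat + 1) w (by have := Int.self_le_toNat w; push_cast; omega) f

/-- **P1 (Skeleton shape)**: `M_w(SL2Z)` is spanned by finitely many forms with integer
`q`-expansion. -/
theorem levelOne_intSpan (w : ℤ) : ∃ (n : ℕ) (b : Fin n → ModularForm 𝒮ℒ w),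
    (∀ i j, ∃ m : ℤ, (qExpansion 1 (b i)).coeff j = (m : ℂ)) ∧
    ∀ g : ModularForm 𝒮ℒ w, ∃ c : Fin n → ℂ, g = ∑ i, c i • b i := by
  classical
  -- a finite subset of the monomials spans
  have hfg : (monoSpan w).FG := by
    rw [monoSpan_eq_top]; exact Module.Finite.fg_top
  obtain ⟨T, hTsub, hTspan⟩ := Submodule.fg_span_iff_fg_span_finset_subset _ |>.mp hfg
  refine ⟨T.card, fun i => (T.equivFin.symm i : ModularForm 𝒮ℒ w), ?_, ?_⟩
  · intro i j
    obtain ⟨a, b, hw, hg⟩ := hTsub (T.equivFin.symm i).2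
    show ∃ m : ℤ, (qExpansion 1 ((T.equivFin.symm i : ModularForm 𝒮ℒ w))).coeff j = (m : ℂ)
    rw [hg]
    exact (mem_intSeries_iff _).mp (qExpansion_monomialForm_mem_intSeries a b hw) j
  · intro g
    have hg : g ∈ Submodule.span ℂ (T : Set (ModularForm 𝒮ℒ w)) := by
      rw [← hTspan]
      have : g ∈ monoSpan w := by rw [monoSpan_eq_top]; exact Submodule.mem_top
      exact this
    rw [Submodule.mem_span_finset] at hg
    obtain ⟨c, -, hc⟩ := hg
    refine ⟨fun i => c (T.equivFin.symm i : ModularForm 𝒮ℒ w), ?_⟩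
    rw [← hc]
    rw [← Finset.sum_coe_sort T (fun x => c x • x)]
    exact (Equiv.sum_comp T.equivFin.symm (fun x : T => c x • (x : ModularForm 𝒮ℒ w))).symm

end Fermat.Agent.S23.LevelOne
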