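import Mathlib

/-!
# Bounded denominators (package P7 of the S23 plan)

Pure power-series algebra, no modular forms.

* `coeff_int_of_mul_pow_mem` : `ℤ⟦X⟧` is completely integrally closed inside `ℚ⟦X⟧`:
  if `d ≠ 0` and `d * f ^ j` has integer coefficients for every `j`, then `f` has integer
  coefficients.
* `exists_nat_smul_int` : the bounded-denominator statement used for cusp forms.
-/

namespace Fermat.Agent.S23.BoundedDen

open PowerSeries

/-- The subring of `ℚ⟦X⟧` of power series with integer coefficients. -/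
noncomputable def intSubring : Subring (PowerSeries ℚ) :=
  (PowerSeries.map (Int.castRingHom ℚ)).range

theorem mem_intSubring_iff {g : PowerSeries ℚ} :
    g ∈ intSubring ↔ ∀ n, ∃ z : ℤ, coeff n g = (z : ℚ) := by
  constructor
  · rintro ⟨h, rfl⟩ n
    exact ⟨coeff n h, by simp⟩
  · intro h
    choose z hz using h
    refine ⟨PowerSeries.mk z, ?_⟩
    ext n
    simp [hz n]

/-- If `c ≠ 0` and `c * r ^ j` is an integer for all `j`, then the rational `r` is an integer. -/
theorem rat_int_of_mul_pow {c r : ℚ} (hc : c ≠ 0) (h : ∀ j : ℕ, ∃ z : ℤ, c * r ^ j = (z : ℚ)) :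
    ∃ z : ℤ, r = (z : ℚ) := by
  have hdvd : ∀ j : ℕ, r.den ^ j ∣ c.num.natAbs := by
    intro j
    obtain ⟨z, hz⟩ := h j
    have hc' : c * c.den = c.num := Rat.mul_den_eq_num c
    have hr' : r * r.den = r.num := Rat.mul_den_eq_num r
    have key : (c.num : ℚ) * (r.num : ℚ) ^ j = (z : ℚ) * c.den * (r.den : ℚ) ^ j := by
      rw [← hc', ← hr', mul_pow]
      linear_combination (c.den : ℚ) * (r.den : ℚ) ^ j * hz
    have keyZ : c.num * r.num ^ j = z * c.den * (r.den : ℤ) ^ j := by exact_mod_cast key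
    have h1 : ((r.den : ℤ)) ^ j ∣ c.num * r.num ^ j := ⟨z * c.den, by rw [keyZ]; ring⟩
    have hcop : IsCoprime ((r.den : ℤ) ^ j) (r.num ^ j) := by
      apply IsCoprime.pow
      rw [Int.isCoprime_iff_gcd_eq_one, Int.gcd_comm]
      exact r.reduced
    have h2 : ((r.den : ℤ)) ^ j ∣ c.num := hcop.dvd_of_dvd_mul_right h1
    have h3 : ((r.den ^ j : ℕ) : ℤ) ∣ c.num := by push_cast; exact h2
    exact Int.natCast_dvd.mp h3
  have hnum : c.num.natAbs ≠ 0 := by
    simpa using (Rat.num_ne_zero.mpr hc)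
  have hden : r.den = 1 := by
    by_contra hne
    have h2 : 2 ≤ r.den := by
      have := r.den_pos
      omega
    have hle := Nat.le_of_dvd (Nat.pos_of_ne_zero hnum) (hdvd c.num.natAbs)
    have hlt : c.num.natAbs < 2 ^ c.num.natAbs := Nat.lt_two_pow_self
    have hpow : 2 ^ c.num.natAbs ≤ r.den ^ c.num.natAbs := Nat.pow_le_pow_left h2 _
    omega
  exact ⟨r.num, ((Rat.den_eq_one_iff r).mp hden).symm⟩

/-- `ℤ⟦X⟧` is completely integrally closed in `ℚ⟦X⟧`: if `d ≠ 0` and all `d * f ^ j` have integer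
coefficients then `f` has integer coefficients. -/
theorem mem_intSubring_of_mul_pow_mem {f d : PowerSeries ℚ} (hd : d ≠ 0)
    (h : ∀ j : ℕ, d * f ^ j ∈ intSubring) : f ∈ intSubring := by
  rw [mem_intSubring_iff]
  intro n
  induction n using Nat.strong_induction_on with
  | _ n ih =>
    -- the integral polynomial part
    set P : PowerSeries ℚ := ((trunc n f : Polynomial ℚ) : PowerSeries ℚ) with hP
    have hPmem : P ∈ intSubring := by
      rw [mem_intSubring_iff]
      intro m
      rw [hP, Polynomial.coeff_coe, coeff_trunc]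
      split_ifs with hm
      · exact ih m hm
      · exact ⟨0, by simp⟩
    set g : PowerSeries ℚ := f - P with hg
    have hglow : ∀ m < n, coeff m g = 0 := by
      intro m hm
      rw [hg, map_sub, hP, Polynomial.coeff_coe, coeff_trunc, if_pos hm, sub_self]
    have hgn : coeff n g = coeff n f := by
      rw [hg, map_sub, hP, Polynomial.coeff_coe, coeff_trunc, if_neg (lt_irrefl n), sub_zero]
    -- `d * g ^ j` is integral for all `j`
    have hgj : ∀ j : ℕ, d * g ^ j ∈ intSubring := by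
      intro j
      have hexp : d * g ^ j = ∑ m ∈ Finset.range (j + 1),
          (d * f ^ m) * ((-P) ^ (j - m) * (j.choose m : PowerSeries ℚ)) := by
        rw [hg, sub_eq_add_neg, add_pow, Finset.mul_sum]
        refine Finset.sum_congr rfl fun m _ => ?_
        ring
      rw [hexp]
      refine Subring.sum_mem _ fun m _ => ?_
      refine Subring.mul_mem _ (h m) (Subring.mul_mem _ ?_ ?_)
      · exact Subring.pow_mem _ (Subring.neg_mem _ hPmem) _
      · exact natCast_mem _ _
    -- orders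
    obtain ⟨g', hg'⟩ : X ^ n ∣ g := X_pow_dvd_iff.mpr hglow
    set e : ℕ := d.order.toNat with he
    have hde : coeff e d ≠ 0 := coeff_order hd
    obtain ⟨d', hd'⟩ : X ^ e ∣ d := by
      rw [X_pow_dvd_iff]
      intro m hm
      apply coeff_of_lt_order
      have := coe_toNat_order hd
      rw [← this]
      exact_mod_cast hm
    have hd0 : constantCoeff d' = coeff e d := by
      have := coeff_X_pow_mul d' e 0
      rw [zero_add, ← hd', coeff_zero_eq_constantCoeff_apply] at this
      exact this.symm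
    have hg0 : constantCoeff g' = coeff n f := by
      have := coeff_X_pow_mul g' n 0
      rw [zero_add, ← hg', coeff_zero_eq_constantCoeff_apply] at this
      rw [← hgn]
      exact this.symm
    have hcoef : ∀ j : ℕ, coeff (e + n * j) (d * g ^ j) = coeff e d * coeff n f ^ j := by
      intro j
      have hfac : d * g ^ j = X ^ (e + n * j) * (d' * g' ^ j) := by
        rw [hd', hg']
        ring
      have := coeff_X_pow_mul (d' * g' ^ j) (e + n * j) 0
      rw [zero_add] at this
      rw [hfac, this, coeff_zero_eq_constantCoeff_apply, map_mul, map_pow, hd0, hg0]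
    apply rat_int_of_mul_pow hde
    intro j
    have := (mem_intSubring_iff.mp (hgj j)) (e + n * j)
    rw [hcoef j] at this
    exact this

/-! ### Coefficientwise `ℚ`-linear retractions -/

/-- Apply a `ℚ`-linear functional `ℂ → ℚ` to every coefficient. -/
noncomputable def coeffwise (lam : ℂ →ₗ[ℚ] ℚ) : PowerSeries ℂ →ₗ[ℚ] PowerSeries ℚ where
  toFun g := PowerSeries.mk fun n => lam (coeff n g)
  map_add' g h := by
    ext n
    simp
  map_smul' r g := by
    ext n
    simp

@[simp] theorem coeff_coeffwise (lam : ℂ →ₗ[ℚ] ℚ) (g : PowerSeries ℂ) (n : ℕ) :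
    coeff n (coeffwise lam g) = lam (coeff n g) := by
  simp [coeffwise]

/-- `ℚ⟦X⟧ → ℂ⟦X⟧`. -/
noncomputable abbrev ratToC : PowerSeries ℚ →+* PowerSeries ℂ :=
  PowerSeries.map (algebraMap ℚ ℂ)

theorem lam_mul_ratCast (lam : ℂ →ₗ[ℚ] ℚ) (z : ℂ) (r : ℚ) : lam (z * (r : ℂ)) = lam z * r := by
  have : z * (r : ℂ) = r • z := by
    rw [Algebra.smul_def, mul_comm]
    rfl
  rw [this, map_smul, smul_eq_mul, mul_comm]

theorem coeffwise_mul_ratToC (lam : ℂ →ₗ[ℚ] ℚ) (g : PowerSeries ℂ) (F : PowerSeries ℚ) :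
    coeffwise lam (g * ratToC F) = coeffwise lam g * F := by
  ext n
  rw [coeff_coeffwise, coeff_mul, coeff_mul, map_sum]
  refine Finset.sum_congr rfl fun x _ => ?_
  rw [coeff_coeffwise, coeff_map]
  exact lam_mul_ratCast lam _ _

theorem coeffwise_ratToC (lam : ℂ →ₗ[ℚ] ℚ) (h1 : lam 1 = 1) (F : PowerSeries ℚ) :
    coeffwise lam (ratToC F) = F := by
  have := coeffwise_mul_ratToC lam 1 F
  rw [one_mul] at this
  rw [this]
  have h : coeffwise lam 1 = 1 := by
    ext n
    rw [coeff_coeffwise, coeff_one, coeff_one]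
    split_ifs
    · exact h1
    · exact map_zero lam
  rw [h, one_mul]

theorem exists_retraction {w : ℂ} (hw : w ≠ 0) : ∃ lam : ℂ →ₗ[ℚ] ℚ, lam w = 1 := by
  obtain ⟨g, hg⟩ := LinearMap.exists_leftInverse_of_injective
    (LinearMap.toSpanSingleton ℚ ℂ w) (LinearMap.ker_toSpanSingleton ℚ hw)
  refine ⟨g, ?_⟩
  have := congrArg (fun φ => φ 1) hg
  simpa using this

/-- The `ℂ`-span of (the images of) a set of integral power series. -/
noncomputable abbrev spanC (B : Set (PowerSeries ℤ)) : Submodule ℂ (PowerSeries ℂ) :=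
  Submodule.span ℂ ((PowerSeries.map (Int.castRingHom ℂ)) '' B)

/-- The `ℚ`-span of (the images of) a set of integral power series. -/
noncomputable abbrev spanQ (B : Set (PowerSeries ℤ)) : Submodule ℚ (PowerSeries ℚ) :=
  Submodule.span ℚ ((PowerSeries.map (Int.castRingHom ℚ)) '' B)

theorem coeffwise_mem_spanQ (B : Set (PowerSeries ℤ)) {g : PowerSeries ℂ} (hg : g ∈ spanC B) :
    ∀ lam : ℂ →ₗ[ℚ] ℚ, coeffwise lam g ∈ spanQ B := by
  induction hg using Submodule.span_induction with
  | mem x hx =>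
    intro lam
    obtain ⟨b, hb, rfl⟩ := hx
    have : coeffwise lam (PowerSeries.map (Int.castRingHom ℂ) b) =
        (lam 1) • PowerSeries.map (Int.castRingHom ℚ) b := by
      ext n
      rw [coeff_coeffwise, coeff_map, coeff_smul, coeff_map, smul_eq_mul]
      have h := lam_mul_ratCast lam 1 ((coeff n b : ℤ) : ℚ)
      rw [one_mul] at h
      simpa using h
    rw [this]
    exact Submodule.smul_mem _ _ (Submodule.subset_span ⟨b, hb, rfl⟩)
  | zero =>
    intro lam
    rw [map_zero]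
    exact Submodule.zero_mem _
  | add x y _ _ hx hy =>
    intro lam
    rw [map_add]
    exact Submodule.add_mem _ (hx lam) (hy lam)
  | smul z x _ hx =>
    intro lam
    have : coeffwise lam (z • x) = coeffwise (lam.comp ((LinearMap.mulLeft ℂ z).restrictScalars ℚ)) x := by
      ext n
      simp
    rw [this]
    exact hx _

theorem exists_nat_mul_mem_intSubring (B : Set (PowerSeries ℤ)) {g : PowerSeries ℚ}
    (hg : g ∈ spanQ B) : ∃ n : ℕ, 0 < n ∧ (n : PowerSeries ℚ) * g ∈ intSubring := by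
  induction hg using Submodule.span_induction with
  | mem x hx =>
    obtain ⟨b, _, rfl⟩ := hx
    exact ⟨1, one_pos, by rw [Nat.cast_one, one_mul]; exact ⟨b, rfl⟩⟩
  | zero => exact ⟨1, one_pos, by rw [mul_zero]; exact Subring.zero_mem _⟩
  | add x y _ _ hx hy =>
    obtain ⟨n, hn, hnx⟩ := hx
    obtain ⟨m, hm, hmy⟩ := hy
    refine ⟨n * m, Nat.mul_pos hn hm, ?_⟩
    have : ((n * m : ℕ) : PowerSeries ℚ) * (x + y) =
        (m : PowerSeries ℚ) * ((n : PowerSeries ℚ) * x) + (n : PowerSeries ℚ) * ((m : PowerSeries ℚ) * y) := by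
      push_cast
      ring
    rw [this]
    exact Subring.add_mem _ (Subring.mul_mem _ (natCast_mem _ _) hnx)
      (Subring.mul_mem _ (natCast_mem _ _) hmy)
  | smul r x _ hx =>
    obtain ⟨n, hn, hnx⟩ := hx
    refine ⟨r.den * n, Nat.mul_pos r.den_pos hn, ?_⟩
    have : ((r.den * n : ℕ) : PowerSeries ℚ) * (r • x) =
        (r.num : PowerSeries ℚ) * ((n : PowerSeries ℚ) * x) := by
      ext i
      have hr : (r.den : ℚ) * r = r.num := by
        rw [mul_comm]; exact Rat.mul_den_eq_num r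
      have e1 : ((r.den * n : ℕ) : PowerSeries ℚ) = C ((r.den : ℚ) * (n : ℚ)) := by
        rw [map_mul, map_natCast, map_natCast]; push_cast; rfl
      have e2 : (r.num : PowerSeries ℚ) = C (r.num : ℚ) := by
        rw [map_intCast]
      have e3 : (n : PowerSeries ℚ) = C (n : ℚ) := by
        rw [map_natCast]
      rw [e1, e2, e3, coeff_C_mul, coeff_C_mul, coeff_C_mul, coeff_smul, smul_eq_mul, ← hr]
      ring
    rw [this]
    exact Subring.mul_mem _ (intCast_mem _ _) hnx

/-- Integrality + fraction-field membership over `ℤ⟦X⟧` (inside `ℚ⟦X⟧`) imply integrality of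
coefficients. -/
theorem mem_intSubring_of_monic_of_mul {g d₀ : PowerSeries ℚ} (hd₀ : d₀ ≠ 0)
    (hd₀mem : d₀ ∈ intSubring) (hd₀g : d₀ * g ∈ intSubring)
    (μ : ℕ) (a : Fin μ → PowerSeries ℚ) (ha : ∀ m, a m ∈ intSubring)
    (hrel : g ^ μ + ∑ m : Fin μ, a m * g ^ (m : ℕ) = 0) : g ∈ intSubring := by
  apply mem_intSubring_of_mul_pow_mem (d := d₀ ^ μ) (pow_ne_zero _ hd₀)
  have hlow : ∀ j, j ≤ μ → d₀ ^ μ * g ^ j ∈ intSubring := by
    intro j hj
    have : d₀ ^ μ * g ^ j = d₀ ^ (μ - j) * (d₀ * g) ^ j := by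
      rw [mul_pow, ← mul_assoc, ← pow_add, Nat.sub_add_cancel hj]
    rw [this]
    exact Subring.mul_mem _ (Subring.pow_mem _ hd₀mem _) (Subring.pow_mem _ hd₀g _)
  intro j
  induction j using Nat.strong_induction_on with
  | _ j ih =>
    rcases Nat.lt_or_ge j μ with hj | hj
    · exact hlow j hj.le
    · have hgμ : g ^ μ = -∑ m : Fin μ, a m * g ^ (m : ℕ) := eq_neg_of_add_eq_zero_left hrel
      have : d₀ ^ μ * g ^ j = -∑ m : Fin μ, a m * (d₀ ^ μ * g ^ ((m : ℕ) + (j - μ))) := by
        have hj' : g ^ j = g ^ μ * g ^ (j - μ) := by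
          rw [← pow_add, Nat.add_sub_cancel' hj]
        rw [hj', hgμ, neg_mul, mul_neg, Finset.sum_mul, Finset.mul_sum]
        congr 1
        refine Finset.sum_congr rfl fun m _ => ?_
        rw [pow_add]
        ring
      rw [this]
      refine Subring.neg_mem _ (Subring.sum_mem _ fun m _ => ?_)
      refine Subring.mul_mem _ (ha m) (ih _ ?_)
      have := m.2
      omega

/-- **Bounded denominators.**  Let `B` be a set of power series with integer coefficients and `U`
its `ℂ`-span inside `ℂ⟦X⟧`.  Let `f ∈ ℂ⟦X⟧` have rational coefficients.  If `D * f = Nm` with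
`D, Nm ∈ U`, `D ≠ 0`, and `f` satisfies a monic equation with coefficients in `U`, then a positive
integer multiple of `f` has integer coefficients. -/
theorem exists_nat_smul_int (B : Set (PowerSeries ℤ)) (f : PowerSeries ℂ)
    (hf : ∀ n, ∃ r : ℚ, coeff n f = (r : ℂ))
    (D Nm : PowerSeries ℂ) (hD : D ∈ spanC B) (hN : Nm ∈ spanC B) (hD0 : D ≠ 0)
    (hDN : D * f = Nm)
    (μ : ℕ) (e : Fin μ → PowerSeries ℂ) (he : ∀ m, e m ∈ spanC B)
    (hmonic : f ^ μ + ∑ m : Fin μ, e m * f ^ (m : ℕ) = 0) :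
    ∃ n : ℕ, 0 < n ∧ ∀ i, ∃ z : ℤ, (n : ℂ) * coeff i f = (z : ℂ) := by
  -- `f` comes from `ℚ⟦X⟧`
  choose r hr using hf
  set fQ : PowerSeries ℚ := PowerSeries.mk r with hfQ
  have hfeq : f = ratToC fQ := by
    ext n
    rw [hr n, coeff_map, hfQ, coeff_mk]
    rfl
  -- the fraction
  obtain ⟨n₀, hn₀⟩ : ∃ n₀, coeff n₀ D ≠ 0 := by
    by_contra hcon
    apply hD0
    ext n
    by_contra hne
    rw [map_zero] at hne
    exact hcon ⟨n, hne⟩
  obtain ⟨lam₂, hlam₂⟩ := exists_retraction hn₀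
  set D₂ := coeffwise lam₂ D with hD₂
  set C₂ := coeffwise lam₂ Nm with hC₂
  have hD₂0 : D₂ ≠ 0 := by
    intro h0
    have := congrArg (coeff n₀) h0
    rw [hD₂, coeff_coeffwise, hlam₂, map_zero] at this
    exact one_ne_zero this
  have hDC₂ : D₂ * fQ = C₂ := by
    rw [hD₂, hC₂, ← coeffwise_mul_ratToC, ← hfeq, hDN]
  obtain ⟨nD, hnD, hnDmem⟩ := exists_nat_mul_mem_intSubring B (coeffwise_mem_spanQ B hD lam₂)
  obtain ⟨nC, hnC, hnCmem⟩ := exists_nat_mul_mem_intSubring B (coeffwise_mem_spanQ B hN lam₂)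
  -- the monic equation
  obtain ⟨lam₁, hlam₁⟩ := exists_retraction (one_ne_zero : (1 : ℂ) ≠ 0)
  set e' : Fin μ → PowerSeries ℚ := fun m => coeffwise lam₁ (e m) with he'
  have hmonicQ : fQ ^ μ + ∑ m : Fin μ, e' m * fQ ^ (m : ℕ) = 0 := by
    have h := congrArg (coeffwise lam₁) hmonic
    rw [map_zero, map_add, map_sum] at h
    rw [← h]
    congr 1
    · rw [hfeq, ← map_pow, coeffwise_ratToC lam₁ hlam₁]
    · refine Finset.sum_congr rfl fun m _ => ?_
      rw [hfeq, ← map_pow, coeffwise_mul_ratToC]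
  have hden : ∀ m : Fin μ, ∃ n : ℕ, 0 < n ∧ (n : PowerSeries ℚ) * e' m ∈ intSubring :=
    fun m => exists_nat_mul_mem_intSubring B (coeffwise_mem_spanQ B (he m) lam₁)
  choose ν hνpos hνmem using hden
  set n₂ : ℕ := ∏ m : Fin μ, ν m with hn₂
  have hn₂pos : 0 < n₂ := Finset.prod_pos fun m _ => hνpos m
  have hn₂mem : ∀ m : Fin μ, (n₂ : PowerSeries ℚ) * e' m ∈ intSubring := by
    intro m
    obtain ⟨k, hk⟩ : ν m ∣ n₂ := Finset.dvd_prod_of_mem ν (Finset.mem_univ m)
    have : (n₂ : PowerSeries ℚ) * e' m = (k : PowerSeries ℚ) * ((ν m : PowerSeries ℚ) * e' m) := by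
      rw [hk]
      push_cast
      ring
    rw [this]
    exact Subring.mul_mem _ (natCast_mem _ _) (hνmem m)
  -- the integral element
  set g : PowerSeries ℚ := (n₂ : PowerSeries ℚ) * fQ with hg
  have hn₂ne : (n₂ : PowerSeries ℚ) ≠ 0 := by
    have : (n₂ : PowerSeries ℚ) = C ((n₂ : ℚ)) := by rw [map_natCast]
    rw [this]
    intro h0
    have := congrArg (coeff 0) h0
    rw [coeff_C, if_pos rfl, map_zero] at this
    exact hn₂pos.ne' (by exact_mod_cast this)
  have hgmem : g ∈ intSubring := by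
    apply mem_intSubring_of_monic_of_mul (d₀ := ((nD * nC : ℕ) : PowerSeries ℚ) * D₂) ?_ ?_ ?_ μ
      (fun m => (n₂ : PowerSeries ℚ) ^ (μ - (m : ℕ)) * e' m) ?_ ?_
    · apply mul_ne_zero _ hD₂0
      have : ((nD * nC : ℕ) : PowerSeries ℚ) = C (((nD * nC : ℕ) : ℚ)) := by rw [map_natCast]
      rw [this]
      intro h0
      have := congrArg (coeff 0) h0
      rw [coeff_C, if_pos rfl, map_zero] at this
      exact (Nat.mul_pos hnD hnC).ne' (by exact_mod_cast this)
    · have : ((nD * nC : ℕ) : PowerSeries ℚ) * D₂ = (nC : PowerSeries ℚ) * ((nD : PowerSeries ℚ) * D₂) := by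
        push_cast; ring
      rw [this]
      exact Subring.mul_mem _ (natCast_mem _ _) hnDmem
    · have : ((nD * nC : ℕ) : PowerSeries ℚ) * D₂ * g =
          (n₂ : PowerSeries ℚ) * ((nD : PowerSeries ℚ) * ((nC : PowerSeries ℚ) * C₂)) := by
        rw [hg, ← hDC₂]
        push_cast
        ring
      rw [this]
      exact Subring.mul_mem _ (natCast_mem _ _) (Subring.mul_mem _ (natCast_mem _ _) hnCmem)
    · intro m
      have hm : μ - (m : ℕ) = (μ - (m : ℕ) - 1) + 1 := by
        have := m.2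
        omega
      have : (n₂ : PowerSeries ℚ) ^ (μ - (m : ℕ)) * e' m =
          (n₂ : PowerSeries ℚ) ^ (μ - (m : ℕ) - 1) * ((n₂ : PowerSeries ℚ) * e' m) := by
        rw [hm, pow_succ]
        simp only [Nat.add_sub_cancel]
        ring
      rw [this]
      exact Subring.mul_mem _ (Subring.pow_mem _ (natCast_mem _ _) _) (hn₂mem m)
    · have : g ^ μ + ∑ m : Fin μ, ((n₂ : PowerSeries ℚ) ^ (μ - (m : ℕ)) * e' m) * g ^ (m : ℕ) =
          (n₂ : PowerSeries ℚ) ^ μ * (fQ ^ μ + ∑ m : Fin μ, e' m * fQ ^ (m : ℕ)) := by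
        rw [mul_add, Finset.mul_sum, hg, mul_pow]
        congr 1
        refine Finset.sum_congr rfl fun m _ => ?_
        have hm : (μ - (m : ℕ)) + (m : ℕ) = μ := by
          have := m.2
          omega
        have hpow : (n₂ : PowerSeries ℚ) ^ μ =
            (n₂ : PowerSeries ℚ) ^ (μ - (m : ℕ)) * (n₂ : PowerSeries ℚ) ^ (m : ℕ) := by
          rw [← pow_add, hm]
        rw [mul_pow, hpow]
        ring
      rw [this, hmonicQ, mul_zero]
  refine ⟨n₂, hn₂pos, fun i => ?_⟩
  obtain ⟨z, hz⟩ := mem_intSubring_iff.mp hgmem i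
  refine ⟨z, ?_⟩
  have hcoef : coeff i g = (n₂ : ℚ) * r i := by
    have : (n₂ : PowerSeries ℚ) = C ((n₂ : ℚ)) := by rw [map_natCast]
    rw [hg, this, coeff_C_mul, hfQ, coeff_mk]
  rw [hr i]
  have : ((n₂ : ℚ) * r i : ℚ) = (z : ℚ) := by rw [← hcoef, hz]
  have h2 := congrArg (fun q : ℚ => (q : ℂ)) this
  simpa using h2

end Fermat.Agent.S23.BoundedDen
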