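import Mathlib
import Fermat.Statements.S23

/-!
# S23 / S22 project: basic definitions

`IsMF Γ k g` / `IsCF Γ k g` : the function `g : ℍ → ℂ` underlies a modular / cusp form.
`tN N` : the function `τ ↦ Δ(N τ)`.
-/

set_option autoImplicit false

open UpperHalfPlane ModularForm CongruenceSubgroup
open scoped MatrixGroups ModularForm Manifold

namespace Fermat.Agent.S23

/-- `g` is (the underlying function of) a modular form of weight `k` and level `Γ`. -/
def IsMF (Γ : Subgroup (GL (Fin 2) ℝ)) (k : ℤ) (g : ℍ → ℂ) : Prop :=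
  ∃ G : ModularForm Γ k, ⇑G = g

/-- `g` is (the underlying function of) a cusp form of weight `k` and level `Γ`. -/
def IsCF (Γ : Subgroup (GL (Fin 2) ℝ)) (k : ℤ) (g : ℍ → ℂ) : Prop :=
  ∃ G : CuspForm Γ k, ⇑G = g

/-- The function `τ ↦ Δ(N τ)` on the upper half plane (`= 0` junk if `N = 0`). -/
noncomputable def tN (N : ℕ) : ℍ → ℂ := fun τ =>
  if h : 0 < N then
    ModularForm.discriminant ⟨(N : ℂ) * τ, by
      have : (0 : ℝ) < N := by exact_mod_cast h
      simpa using mul_pos this τ.im_pos⟩
  else 0

end Fermat.Agent.S23
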