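import Mathlib
import Fermat.Statements.S23
import Fermat.Prelude.Thm_UpperHalfPlane_eq_of_forall_qCoeff_eq
import Fermat.Agent.S23.Defs

/-!
# S23 project: "nice" functions (1-periodic, holomorphic, bounded at `i∞`) and the `q`-expansion
ring homomorphism on them.
-/

set_option autoImplicit false

open UpperHalfPlane ModularForm CongruenceSubgroup Function
open scoped MatrixGroups ModularForm Manifold

namespace Fermat.Agent.S23

/-- A function on `ℍ` that is `1`-periodic, holomorphic and bounded at `i∞`. -/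
structure QNice (f : ℍ → ℂ) : Prop where
  per : Periodic (f ∘ ofComplex) (1 : ℝ)
  holo : MDiff f
  bdd : IsBoundedAtImInfty f

namespace QNice

variable {f g : ℍ → ℂ}

lemma analytic (hf : QNice f) : AnalyticAt ℂ (cuspFunction 1 f) 0 :=
  analyticAt_cuspFunction_zero one_pos (by simpa using hf.per) hf.holo hf.bdd

lemma const (c : ℂ) : QNice (fun _ => c) where
  per := fun _ => rfl
  holo := mdifferentiable_const
  bdd := Filter.const_boundedAtFilter _ c

lemma zero : QNice (0 : ℍ → ℂ) := const 0

lemma one : QNice (1 : ℍ → ℂ) := const 1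

lemma add (hf : QNice f) (hg : QNice g) : QNice (f + g) where
  per := fun z => by
    have h1 := hf.per z
    have h2 := hg.per z
    simp only [comp_apply, Pi.add_apply] at h1 h2 ⊢
    rw [h1, h2]
  holo := hf.holo.add hg.holo
  bdd := hf.bdd.add hg.bdd

lemma neg (hf : QNice f) : QNice (-f) where
  per := fun z => by
    have h1 := hf.per z
    simp only [comp_apply, Pi.neg_apply] at h1 ⊢
    rw [h1]
  holo := hf.holo.neg
  bdd := hf.bdd.neg

lemma sub (hf : QNice f) (hg : QNice g) : QNice (f - g) := by
  simpa [sub_eq_add_neg] using hf.add hg.neg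

lemma mul (hf : QNice f) (hg : QNice g) : QNice (f * g) where
  per := fun z => by
    have h1 := hf.per z
    have h2 := hg.per z
    simp only [comp_apply, Pi.mul_apply] at h1 h2 ⊢
    rw [h1, h2]
  holo := hf.holo.mul hg.holo
  bdd := hf.bdd.mul hg.bdd

lemma smul (c : ℂ) (hf : QNice f) : QNice (c • f) := by
  have : c • f = (fun _ => c) * f := by ext; simp
  rw [this]; exact (const c).mul hf

lemma pow (hf : QNice f) (n : ℕ) : QNice (f ^ n) := by
  induction n with
  | zero => simpa using one
  | succ n ih => rw [pow_succ]; exact ih.mul hf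

lemma sum {ι : Type*} (s : Finset ι) {F : ι → ℍ → ℂ} (hF : ∀ i ∈ s, QNice (F i)) :
    QNice (∑ i ∈ s, F i) := by
  classical
  induction s using Finset.induction_on with
  | empty => simpa using zero
  | insert a s ha ih =>
    rw [Finset.sum_insert ha]
    exact (hF a (Finset.mem_insert_self _ _)).add
      (ih fun i hi => hF i (Finset.mem_insert_of_mem hi))

lemma prod {ι : Type*} (s : Finset ι) {F : ι → ℍ → ℂ} (hF : ∀ i ∈ s, QNice (F i)) :
    QNice (∏ i ∈ s, F i) := by
  classical
  induction s using Finset.induction_on with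
  | empty => simpa using one
  | insert a s ha ih =>
    rw [Finset.prod_insert ha]
    exact (hF a (Finset.mem_insert_self _ _)).mul
      (ih fun i hi => hF i (Finset.mem_insert_of_mem hi))

/-- A `QNice` function with vanishing `q`-expansion is zero. -/
lemma eq_zero_of_qExpansion_eq_zero (hf : QNice f) (h : qExpansion 1 f = 0) : f = 0 :=
  (qExpansion_eq_zero_iff one_pos (by simpa using hf.per) hf.holo hf.bdd).mp h

lemma qExpansion_add (hf : QNice f) (hg : QNice g) :
    qExpansion 1 (f + g) = qExpansion 1 f + qExpansion 1 g :=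
  UpperHalfPlane.qExpansion_add hf.analytic hg.analytic

lemma qExpansion_mul (hf : QNice f) (hg : QNice g) :
    qExpansion 1 (f * g) = qExpansion 1 f * qExpansion 1 g :=
  UpperHalfPlane.qExpansion_mul hf.analytic hg.analytic

lemma qExpansion_neg (hf : QNice f) : qExpansion 1 (-f) = -qExpansion 1 f :=
  UpperHalfPlane.qExpansion_neg hf.analytic

lemma qExpansion_sub (hf : QNice f) (hg : QNice g) :
    qExpansion 1 (f - g) = qExpansion 1 f - qExpansion 1 g :=
  UpperHalfPlane.qExpansion_sub hf.analytic hg.analytic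

lemma qExpansion_smul (c : ℂ) (hf : QNice f) : qExpansion 1 (c • f) = c • qExpansion 1 f :=
  UpperHalfPlane.qExpansion_smul hf.analytic c

end QNice

/-- The subring of `QNice` functions. -/
def qNiceSubring : Subring (ℍ → ℂ) where
  carrier := {f | QNice f}
  mul_mem' := QNice.mul
  one_mem' := QNice.one
  add_mem' := QNice.add
  zero_mem' := QNice.zero
  neg_mem' := QNice.neg

lemma mem_qNiceSubring {f : ℍ → ℂ} : f ∈ qNiceSubring ↔ QNice f := Iff.rfl

/-- The `q`-expansion ring homomorphism on `QNice` functions. -/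
noncomputable def qExpHom : qNiceSubring →+* PowerSeries ℂ where
  toFun f := qExpansion 1 (f : ℍ → ℂ)
  map_one' := by simpa using qExpansion_one (1 : ℝ)
  map_mul' f g := QNice.qExpansion_mul f.2 g.2
  map_zero' := by simpa using qExpansion_zero (1 : ℝ)
  map_add' f g := QNice.qExpansion_add f.2 g.2

@[simp] lemma qExpHom_apply (f : qNiceSubring) : qExpHom f = qExpansion 1 (f : ℍ → ℂ) := rfl

lemma qExpHom_injective : Function.Injective qExpHom := by
  rw [injective_iff_map_eq_zero]
  intro f hf
  exact Subtype.ext (QNice.eq_zero_of_qExpansion_eq_zero f.2 hf)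

/-- A modular form for a group having `1` as a strict period is `QNice`. -/
lemma QNice.of_modularForm {Γ : Subgroup (GL (Fin 2) ℝ)} [Γ.IsArithmetic] {k : ℤ}
    (h1 : (1 : ℝ) ∈ Γ.strictPeriods) (F : ModularForm Γ k) : QNice (F : ℍ → ℂ) where
  per := SlashInvariantFormClass.periodic_comp_ofComplex F h1
  holo := ModularFormClass.holo F
  bdd := ModularFormClass.bdd_at_infty F

lemma one_mem_strictPeriods_Gamma0 (N : ℕ) :
    (1 : ℝ) ∈ (Gamma0 N : Subgroup (GL (Fin 2) ℝ)).strictPeriods := by
  simp [CongruenceSubgroup.strictPeriods_Gamma0]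

lemma QNice.of_isMF_Gamma0 {N : ℕ} [NeZero N] {k : ℤ} {g : ℍ → ℂ} (hg : IsMF (Gamma0 N) k g) :
    QNice g := by
  obtain ⟨G, rfl⟩ := hg
  exact QNice.of_modularForm (one_mem_strictPeriods_Gamma0 N) G

lemma QNice.of_isMF_levelOne {k : ℤ} {g : ℍ → ℂ} (hg : IsMF 𝒮ℒ k g) : QNice g := by
  obtain ⟨G, rfl⟩ := hg
  exact QNice.of_modularForm one_mem_strictPeriods_SL G

lemma IsCF.isMF {Γ : Subgroup (GL (Fin 2) ℝ)} {k : ℤ} {g : ℍ → ℂ} (hg : IsCF Γ k g) :
    IsMF Γ k g := by
  obtain ⟨G, rfl⟩ := hg
  exact ⟨ModularFormClass.modularForm G, rfl⟩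

end Fermat.Agent.S23
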