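import Mathlib
import Fermat.Statements.S23
import Fermat.Agent.S23.Defs
import Fermat.Agent.S23.QNice

/-!
# S23 project, P5b: `S_k(Γ₀(N))` is stable under `Aut(ℂ)` acting on `q`-expansions,
assuming the package outputs P1 (level one), P2 (`t_N`), P3+P4 (structure), P5a (construct).
-/

set_option autoImplicit false

open UpperHalfPlane ModularForm CongruenceSubgroup Function
open scoped MatrixGroups ModularForm Manifold

namespace Fermat.Agent.S23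

/-- Output of P1: `Aut(ℂ)` acts on level-one modular forms compatibly with `q`-expansions. -/
def LevelOneConj : Prop :=
  ∀ (σ : ℂ ≃+* ℂ) (w : ℤ) (g : ModularForm 𝒮ℒ w),
    ∃ g' : ModularForm 𝒮ℒ w, qExpansion 1 g' = (qExpansion 1 g).map (σ : ℂ →+* ℂ)

/-- Output of P3+P4 (statement of `Skel.structure_thm` for fixed `N, k`). -/
def StructureThm (N : ℕ) (k : ℤ) : Prop :=
  ∀ f : CuspForm (Gamma0 N) k,
    ∃ (μ : ℕ) (wD : ℤ) (D : ℍ → ℂ) (c a : Fin μ → ℍ → ℂ),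
      0 < μ ∧ IsMF 𝒮ℒ wD D ∧ D ≠ 0 ∧
      (∀ m : Fin μ, IsMF 𝒮ℒ (wD + k - 12 * (m : ℕ)) (c m)) ∧
      (∀ l : Fin μ, IsCF 𝒮ℒ (k * ((μ : ℤ) - (l : ℕ))) (a l)) ∧
      (∀ τ, D τ * f τ = ∑ m : Fin μ, c m τ * tN N τ ^ (m : ℕ)) ∧
      (∀ τ, f τ ^ μ + ∑ l : Fin μ, a l τ * f τ ^ (l : ℕ) = 0)

/-- Output of P5a (statement of `Skel.construct` for fixed `N, k`). -/
def ConstructThm (N : ℕ) (k : ℤ) : Prop :=
  ∀ (μ : ℕ) (wD : ℤ) (D : ℍ → ℂ) (c a : Fin μ → ℍ → ℂ),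
    0 < μ → IsMF 𝒮ℒ wD D → D ≠ 0 →
    (∀ m : Fin μ, IsMF 𝒮ℒ (wD + k - 12 * (m : ℕ)) (c m)) →
    (∀ l : Fin μ, IsCF 𝒮ℒ (k * ((μ : ℤ) - (l : ℕ))) (a l)) →
    (∀ τ, (∑ m : Fin μ, c m τ * tN N τ ^ (m : ℕ)) ^ μ +
      ∑ l : Fin μ, a l τ * (∑ m : Fin μ, c m τ * tN N τ ^ (m : ℕ)) ^ (l : ℕ) * D τ ^ (μ - l) = 0) →
    ∃ F : CuspForm (Gamma0 N) k, ∀ τ, D τ * F τ = ∑ m : Fin μ, c m τ * tN N τ ^ (m : ℕ)

section conj

variable (h1 : LevelOneConj) (σ : ℂ ≃+* ℂ)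
include h1

lemma IsMF.exists_conj {w : ℤ} {g : ℍ → ℂ} (hg : IsMF 𝒮ℒ w g) :
    ∃ g' : ℍ → ℂ, IsMF 𝒮ℒ w g' ∧ qExpansion 1 g' = (qExpansion 1 g).map (σ : ℂ →+* ℂ) := by
  obtain ⟨G, rfl⟩ := hg
  obtain ⟨G', hG'⟩ := h1 σ w G
  exact ⟨G', ⟨G', rfl⟩, hG'⟩

lemma IsCF.exists_conj {w : ℤ} {g : ℍ → ℂ} (hg : IsCF 𝒮ℒ w g) :
    ∃ g' : ℍ → ℂ, IsCF 𝒮ℒ w g' ∧ qExpansion 1 g' = (qExpansion 1 g).map (σ : ℂ →+* ℂ) := by
  obtain ⟨G, rfl⟩ := hg
  obtain ⟨G', hG'⟩ := h1 σ w (ModularFormClass.modularForm G)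
  have h0 : (qExpansion 1 (ModularFormClass.modularForm G : ModularForm 𝒮ℒ w)).coeff 0 = 0 := by
    have : ModularForm.IsCuspForm (ModularFormClass.modularForm G : ModularForm 𝒮ℒ w) :=
      ⟨G, rfl⟩
    exact (ModularForm.isCuspForm_iff_coeffZero_eq_zero _).mp this
  have h0' : (qExpansion 1 G').coeff 0 = 0 := by
    rw [hG', PowerSeries.coeff_map, h0, map_zero]
  exact ⟨ModularForm.toCuspForm G' h0', ⟨ModularForm.toCuspForm G' h0', rfl⟩, hG'⟩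

end conj

/-- **P5b**: Galois conjugation of cusp forms on `Γ₀(N)`. -/
theorem exists_conj_of (N : ℕ) [NeZero N] (k : ℤ) (h1 : LevelOneConj)
    (htMF : IsMF (Gamma0 N) 12 (tN N))
    (htRat : ∀ n, ∃ r : ℚ, (qExpansion 1 (tN N)).coeff n = (r : ℂ))
    (hS : StructureThm N k) (hC : ConstructThm N k)
    (σ : ℂ ≃+* ℂ) (f : CuspForm (Gamma0 N) k) :
    ∃ g : CuspForm (Gamma0 N) k,
      ∀ n, (qExpansion 1 g).coeff n = σ ((qExpansion 1 f).coeff n) := by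
  classical
  obtain ⟨μ, wD, D, c, a, hμ, hD, hD0, hc, ha, hDf, hPf⟩ := hS f
  -- conjugate the level one data
  obtain ⟨D', hD', hqD'⟩ := hD.exists_conj h1 σ
  choose c' hc' hqc' using fun m => (hc m).exists_conj h1 σ
  choose a' ha' hqa' using fun l => (ha l).exists_conj h1 σ
  -- elements of the subring of nice functions
  let 𝒩 := qNiceSubring
  let Dn : 𝒩 := ⟨D, QNice.of_isMF_levelOne hD⟩
  let cn : Fin μ → 𝒩 := fun m => ⟨c m, QNice.of_isMF_levelOne (hc m)⟩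
  let an : Fin μ → 𝒩 := fun l => ⟨a l, QNice.of_isMF_levelOne (ha l).isMF⟩
  let tn : 𝒩 := ⟨tN N, QNice.of_isMF_Gamma0 htMF⟩
  let fn : 𝒩 := ⟨f, QNice.of_isMF_Gamma0 ⟨ModularFormClass.modularForm f, rfl⟩⟩
  let Dn' : 𝒩 := ⟨D', QNice.of_isMF_levelOne hD'⟩
  let cn' : Fin μ → 𝒩 := fun m => ⟨c' m, QNice.of_isMF_levelOne (hc' m)⟩
  let an' : Fin μ → 𝒩 := fun l => ⟨a' l, QNice.of_isMF_levelOne (ha' l).isMF⟩
  let ψ : 𝒩 →+* PowerSeries ℂ := (PowerSeries.map (σ : ℂ →+* ℂ)).comp qExpHom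
  have hψD : ψ Dn = qExpHom Dn' := hqD'.symm
  have hψc : ∀ m, ψ (cn m) = qExpHom (cn' m) := fun m => (hqc' m).symm
  have hψa : ∀ l, ψ (an l) = qExpHom (an' l) := fun l => (hqa' l).symm
  have hψt : ψ tn = qExpHom tn := by
    ext n
    obtain ⟨m, hm⟩ := htRat n
    simp only [ψ, RingHom.comp_apply, PowerSeries.coeff_map, qExpHom_apply]
    change σ ((qExpansion 1 (tN N)).coeff n) = (qExpansion 1 (tN N)).coeff n
    rw [hm]
    simp
  -- the two structural identities in `𝒩`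
  have hG : ∑ m : Fin μ, cn m * tn ^ (m : ℕ) = Dn * fn := by
    apply Subtype.ext
    funext τ
    simp only [cn, tn, Dn, fn, Subring.coe_mul, Pi.mul_apply, AddSubmonoidClass.coe_finsetSum,
      Finset.sum_apply, SubmonoidClass.coe_pow, Pi.pow_apply]
    exact (hDf τ).symm
  have hP : fn ^ μ + ∑ l : Fin μ, an l * fn ^ (l : ℕ) = 0 := by
    apply Subtype.ext
    funext τ
    simp only [an, fn, Subring.coe_add, Subring.coe_mul, Pi.add_apply, Pi.mul_apply,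
      AddSubmonoidClass.coe_finsetSum, Finset.sum_apply, SubmonoidClass.coe_pow, Pi.pow_apply,
      ZeroMemClass.coe_zero, Pi.zero_apply]
    exact hPf τ
  have hE : (∑ m : Fin μ, cn m * tn ^ (m : ℕ)) ^ μ +
      ∑ l : Fin μ, an l * (∑ m : Fin μ, cn m * tn ^ (m : ℕ)) ^ (l : ℕ) * Dn ^ (μ - l) = 0 := by
    rw [hG]
    have : ∀ l : Fin μ, an l * (Dn * fn) ^ (l : ℕ) * Dn ^ (μ - l) =
        Dn ^ μ * (an l * fn ^ (l : ℕ)) := by
      intro l
      have hl : (l : ℕ) + (μ - l) = μ := by have := l.2; omega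
      calc an l * (Dn * fn) ^ (l : ℕ) * Dn ^ (μ - l)
          = an l * fn ^ (l : ℕ) * (Dn ^ (l : ℕ) * Dn ^ (μ - l)) := by rw [mul_pow]; ring
        _ = Dn ^ μ * (an l * fn ^ (l : ℕ)) := by rw [← pow_add, hl]; ring
    simp_rw [this]
    rw [mul_pow, ← Finset.mul_sum, ← mul_add, hP, mul_zero]
  -- transport by `ψ`
  have hE' : (∑ m : Fin μ, cn' m * tn ^ (m : ℕ)) ^ μ +
      ∑ l : Fin μ, an' l * (∑ m : Fin μ, cn' m * tn ^ (m : ℕ)) ^ (l : ℕ) * Dn' ^ (μ - l) = 0 := by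
    apply qExpHom_injective
    have := congrArg ψ hE
    simp only [map_add, map_pow, map_sum, map_mul, map_zero, hψD, hψc, hψa, hψt] at this
    simpa only [map_add, map_pow, map_sum, map_mul, map_zero] using this
  have hD0' : D' ≠ 0 := by
    intro h0
    have h2 : qExpHom Dn' = 0 := by
      have : Dn' = 0 := Subtype.ext h0
      rw [this, map_zero]
    rw [← hψD] at h2
    have h3 : qExpHom Dn = 0 := by
      have hinj : Function.Injective (PowerSeries.map (σ : ℂ →+* ℂ)) :=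
        PowerSeries.map_injective _ σ.injective
      apply hinj
      rw [map_zero]
      exact h2
    have := qExpHom_injective (h3.trans (map_zero _).symm)
    exact hD0 (congrArg Subtype.val this)
  have hint' : ∀ τ, (∑ m : Fin μ, c' m τ * tN N τ ^ (m : ℕ)) ^ μ +
      ∑ l : Fin μ, a' l τ * (∑ m : Fin μ, c' m τ * tN N τ ^ (m : ℕ)) ^ (l : ℕ) *
        D' τ ^ (μ - l) = 0 := by
    intro τ
    have := congrFun (congrArg Subtype.val hE') τ
    simpa only [cn', an', tn, Dn', Subring.coe_add, Subring.coe_mul, Pi.add_apply, Pi.mul_apply,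
      AddSubmonoidClass.coe_finsetSum, Finset.sum_apply, SubmonoidClass.coe_pow, Pi.pow_apply,
      ZeroMemClass.coe_zero, Pi.zero_apply] using this
  obtain ⟨F, hF⟩ := hC μ wD D' c' a' hμ hD' hD0' hc' ha' hint'
  refine ⟨F, ?_⟩
  let Fn : 𝒩 := ⟨F, QNice.of_isMF_Gamma0 ⟨ModularFormClass.modularForm F, rfl⟩⟩
  have hGF : Dn' * Fn = ∑ m : Fin μ, cn' m * tn ^ (m : ℕ) := by
    apply Subtype.ext
    funext τ
    simp only [cn', tn, Dn', Fn, Subring.coe_mul, Pi.mul_apply, AddSubmonoidClass.coe_finsetSum,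
      Finset.sum_apply, SubmonoidClass.coe_pow, Pi.pow_apply]
    exact hF τ
  have hkey : qExpHom Dn' * qExpHom Fn = qExpHom Dn' * ψ fn := by
    rw [← map_mul, hGF, ← hψD, ← map_mul, ← hG]
    simp only [map_sum, map_mul, map_pow, hψc, hψt]
  have hne : qExpHom Dn' ≠ 0 := by
    intro h0
    have := qExpHom_injective (h0.trans (map_zero _).symm)
    exact hD0' (congrArg Subtype.val this)
  have hfin : qExpHom Fn = ψ fn := mul_left_cancel₀ hne hkey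
  intro n
  have := congrArg (fun p => PowerSeries.coeff n p) hfin
  simp only [ψ, Fn, fn, RingHom.comp_apply, PowerSeries.coeff_map, qExpHom_apply] at this
  exact this

end Fermat.Agent.S23
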