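import Mathlib

set_option autoImplicit false

open UpperHalfPlane ModularForm ModularFormClass MatrixGroups EisensteinSeries

namespace Fermat.Agent.S23

/-- The subring of power series over `ℂ` all of whose coefficients are rational. -/
noncomputable def ratSeries : Subring (PowerSeries ℂ) :=
  (PowerSeries.map (algebraMap ℚ ℂ)).range

lemma mem_ratSeries_iff (p : PowerSeries ℂ) :
    p ∈ ratSeries ↔ ∀ n, ∃ r : ℚ, PowerSeries.coeff n p = (r : ℂ) := by
  constructor
  · rintro ⟨q, rfl⟩ n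
    exact ⟨PowerSeries.coeff n q, by simp⟩
  · intro h
    choose r hr using h
    refine ⟨PowerSeries.mk r, ?_⟩
    ext n
    simp [hr n]

/-- Any ring endomorphism of `ℂ` fixes power series with rational coefficients. -/
lemma map_eq_self_of_mem_ratSeries (σ : ℂ →+* ℂ) {p : PowerSeries ℂ} (hp : p ∈ ratSeries) :
    PowerSeries.map σ p = p := by
  obtain ⟨q, rfl⟩ := hp
  ext n
  simp

lemma smul_mem_ratSeries (r : ℚ) {p : PowerSeries ℂ} (hp : p ∈ ratSeries) :
    ((r : ℂ) • p) ∈ ratSeries := by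
  rw [mem_ratSeries_iff] at hp ⊢
  intro n
  obtain ⟨s, hs⟩ := hp n
  exact ⟨r * s, by simp [hs]⟩

/-- The Eisenstein series `E_k` has rational `q`-expansion. -/
lemma qExpansion_E_mem_ratSeries {k : ℕ} (hk : 3 ≤ k) (hk2 : Even k) :
    qExpansion 1 (E hk) ∈ ratSeries := by
  rw [mem_ratSeries_iff]
  intro m
  rw [E_qExpansion_coeff hk hk2 m]
  split_ifs with h
  · exact ⟨1, by simp⟩
  · exact ⟨-(2 * k / bernoulli k) * (ArithmeticFunction.sigma (k - 1) m : ℚ), by push_cast; ring⟩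

/-- `E₄³ - E₆²` as a modular form of weight 12. -/
noncomputable def e4e6Form : ModularForm 𝒮ℒ 12 :=
  ModularForm.mcast (by decide) (E₄.pow 3) - ModularForm.mcast (by decide) (E₆.pow 2)

lemma e4e6Form_apply (z : ℍ) : e4e6Form z = E₄ z ^ 3 - E₆ z ^ 2 := by
  simp only [e4e6Form, ModularForm.coe_mcast, ModularForm.coe_pow, sub_apply,
    Pi.pow_apply]

lemma qExpansion_e4e6Form :
    qExpansion 1 e4e6Form = qExpansion 1 E₄ ^ 3 - qExpansion 1 E₆ ^ 2 := by
  simp only [e4e6Form, FunLike.coe_sub, ModularForm.coe_mcast,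
    ModularForm.qExpansion_sub one_pos one_mem_strictPeriods_SL,
    ModularForm.qExpansion_pow one_pos one_mem_strictPeriods_SL]

lemma discriminant_eq_smul_e4e6Form :
    ModularForm.discriminant = (((1 / 1728 : ℚ) : ℂ) • (e4e6Form : ℍ → ℂ)) := by
  ext z
  rw [discriminant_eq_E₄_cube_sub_E₆_sq, Pi.smul_apply, e4e6Form_apply]
  push_cast
  simp only [smul_eq_mul]
  ring

lemma qExpansion_discriminant_mem_ratSeries :
    qExpansion 1 ModularForm.discriminant ∈ ratSeries := by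
  rw [discriminant_eq_smul_e4e6Form,
    ModularForm.qExpansion_smul one_pos one_mem_strictPeriods_SL, qExpansion_e4e6Form]
  apply smul_mem_ratSeries
  exact ratSeries.sub_mem
    (ratSeries.pow_mem (qExpansion_E_mem_ratSeries _ ⟨2, rfl⟩) 3)
    (ratSeries.pow_mem (qExpansion_E_mem_ratSeries _ ⟨3, rfl⟩) 2)

/-- `Transports σ k`: level-one modular forms of weight `k` are stable under applying `σ`
to the `q`-expansion coefficients. -/
def Transports (σ : ℂ →+* ℂ) (k : ℤ) : Prop :=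
  ∀ f : ModularForm 𝒮ℒ k, ∃ g : ModularForm 𝒮ℒ k,
    qExpansion 1 g = PowerSeries.map σ (qExpansion 1 f)

lemma transports_of_forall_eq_zero (σ : ℂ →+* ℂ) {k : ℤ}
    (h : ∀ f : ModularForm 𝒮ℒ k, f = 0) : Transports σ k := by
  intro f
  refine ⟨0, ?_⟩
  rw [h f]
  simp [qExpansion_zero]

lemma transports_zero (σ : ℂ →+* ℂ) : Transports σ 0 := by
  intro f
  obtain ⟨c, hc⟩ := levelOne_weight_zero_const f
  have hf : (f : ℍ → ℂ) = c • ((1 : ModularForm 𝒮ℒ 0) : ℍ → ℂ) := by
    rw [hc]; ext z; simp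
  refine ⟨σ c • (1 : ModularForm 𝒮ℒ 0), ?_⟩
  rw [hf, FunLike.coe_smul, ModularForm.qExpansion_smul one_pos one_mem_strictPeriods_SL,
    ModularForm.qExpansion_smul one_pos one_mem_strictPeriods_SL, ModularForm.qExpansion_one]
  ext n
  simp [PowerSeries.coeff_one]
  split_ifs <;> simp

/-- Inductive step: even weight `n ≥ 3`, assuming the result in weight `n - 12`. -/
lemma transports_step (σ : ℂ →+* ℂ) {n : ℕ} (hn : 3 ≤ n) (hn2 : Even n)
    (ih : Transports σ ((n : ℤ) - 12)) : Transports σ (n : ℤ) := by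
  intro f
  set a0 : ℂ := (qExpansion 1 f).coeff 0 with ha0
  set f' : ModularForm 𝒮ℒ (n : ℤ) := f - a0 • E hn with hf'
  have hf'q : qExpansion 1 f' = qExpansion 1 f - a0 • qExpansion 1 (E hn) := by
    rw [hf', FunLike.coe_sub, ModularForm.qExpansion_sub one_pos one_mem_strictPeriods_SL,
      FunLike.coe_smul, ModularForm.qExpansion_smul one_pos one_mem_strictPeriods_SL]
  have h0 : (qExpansion 1 f').coeff 0 = 0 := by
    rw [hf'q, map_sub, PowerSeries.coeff_smul, E_qExpansion_coeff_zero hn hn2]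
    simp [ha0]
  set h : ModularForm 𝒮ℒ ((n : ℤ) - 12) := CuspForm.discriminantEquiv (toCuspForm f' h0) with hh
  have hfac : qExpansion 1 f' = qExpansion 1 ModularForm.discriminant * qExpansion 1 h :=
    qExpansion_eq_qExpansion_discriminant_mul f' h0
  obtain ⟨h', hh'⟩ := ih h
  -- the new form
  let gc : CuspForm 𝒮ℒ (n : ℤ) := CuspForm.ofMulDiscriminant h'
  refine ⟨σ a0 • E hn + (gc : ModularForm 𝒮ℒ (n : ℤ)), ?_⟩
  have hgc : qExpansion 1 (gc : ModularForm 𝒮ℒ (n : ℤ)) =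
      qExpansion 1 ModularForm.discriminant * qExpansion 1 h' := by
    have : ((gc : ModularForm 𝒮ℒ (n : ℤ)) : ℍ → ℂ) =
        (CuspForm.discriminant : ℍ → ℂ) * (h' : ℍ → ℂ) := by
      ext z; rfl
    rw [this, ModularForm.qExpansion_mul_coe one_pos one_mem_strictPeriods_SL,
      CuspForm.coe_discriminant]
  rw [FunLike.coe_add, ModularForm.qExpansion_add one_pos one_mem_strictPeriods_SL,
    FunLike.coe_smul, ModularForm.qExpansion_smul one_pos one_mem_strictPeriods_SL, hgc, hh']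
  have hfq : qExpansion 1 f = a0 • qExpansion 1 (E hn) +
      qExpansion 1 ModularForm.discriminant * qExpansion 1 h := by
    rw [← hfac, hf'q]; abel
  rw [hfq, map_add, map_mul,
    map_eq_self_of_mem_ratSeries σ qExpansion_discriminant_mem_ratSeries]
  congr 1
  ext m
  have := map_eq_self_of_mem_ratSeries σ (qExpansion_E_mem_ratSeries hn hn2)
  have hm := congrArg (PowerSeries.coeff m) this
  simp only [PowerSeries.coeff_map] at hm
  simp [hm]

lemma transports_lt (σ : ℂ →+* ℂ) : ∀ (n : ℕ) (k : ℤ), k < n → Transports σ k := by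
  intro n
  induction n with
  | zero =>
    intro k hk
    exact transports_of_forall_eq_zero σ fun f => by
      ext z; simpa using congrFun (levelOne_neg_weight_eq_zero (by simpa using hk) f) z
  | succ n ih =>
    intro k hk
    have hk' : k ≤ (n : ℤ) := by push_cast at hk; omega
    rcases lt_or_eq_of_le hk' with hlt | rfl
    · exact ih k hlt
    · rcases Nat.even_or_odd n with hev | hodd
      · rcases Nat.lt_or_ge n 3 with hlt3 | hge3
        · -- n = 0 or n = 2
          obtain rfl | rfl : n = 0 ∨ n = 2 := by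
            rcases hev with ⟨m, hm⟩; omega
          · exact transports_zero σ
          · exact transports_of_forall_eq_zero σ fun f =>
              rank_zero_iff_forall_zero.mp levelOne_weight_two_rank_zero f
        · exact transports_step σ hge3 hev (ih _ (by omega))
      · exact transports_of_forall_eq_zero σ fun f =>
          levelOne_odd_weight_eq_zero (by exact_mod_cast hodd) f

/-- **Level-one modular forms are stable under `Aut(ℂ)`** (indeed under any ring endomorphism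
of `ℂ`) acting on `q`-expansion coefficients. -/
theorem exists_levelOne_qExpansion_map (σ : ℂ →+* ℂ) (k : ℤ) (f : ModularForm 𝒮ℒ k) :
    ∃ g : ModularForm 𝒮ℒ k, qExpansion 1 g = PowerSeries.map σ (qExpansion 1 f) :=
  transports_lt σ (k.toNat + 1) k (by have := Int.self_le_toNat k; push_cast; omega) f

/-- The `q`-expansion of a level-one modular form determines it. -/
lemma levelOne_qExpansion_injective {k : ℤ} {f g : ModularForm 𝒮ℒ k}
    (h : qExpansion 1 f = qExpansion 1 g) : f = g := by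
  have : qExpansion 1 ((f - g : ModularForm 𝒮ℒ k) : ℍ → ℂ) = 0 := by
    rw [FunLike.coe_sub, ModularForm.qExpansion_sub one_pos one_mem_strictPeriods_SL, h, sub_self]
  exact sub_eq_zero.mp
    ((ModularForm.qExpansion_eq_zero_iff one_pos one_mem_strictPeriods_SL _).mp this)

/-- The action of a ring endomorphism `σ` of `ℂ` on level-one modular forms through
`q`-expansion coefficients. -/
noncomputable def sigmaLevelOne (σ : ℂ →+* ℂ) {k : ℤ} (f : ModularForm 𝒮ℒ k) :
    ModularForm 𝒮ℒ k :=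
  (exists_levelOne_qExpansion_map σ k f).choose

@[simp]
lemma qExpansion_sigmaLevelOne (σ : ℂ →+* ℂ) {k : ℤ} (f : ModularForm 𝒮ℒ k) :
    qExpansion 1 (sigmaLevelOne σ f) = PowerSeries.map σ (qExpansion 1 f) :=
  (exists_levelOne_qExpansion_map σ k f).choose_spec

lemma coeff_qExpansion_sigmaLevelOne (σ : ℂ →+* ℂ) {k : ℤ} (f : ModularForm 𝒮ℒ k) (n : ℕ) :
    (qExpansion 1 (sigmaLevelOne σ f)).coeff n = σ ((qExpansion 1 f).coeff n) := by
  rw [qExpansion_sigmaLevelOne, PowerSeries.coeff_map]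

lemma sigmaLevelOne_eq_of_qExpansion_eq (σ : ℂ →+* ℂ) {k : ℤ} {f g : ModularForm 𝒮ℒ k}
    (h : qExpansion 1 g = PowerSeries.map σ (qExpansion 1 f)) : sigmaLevelOne σ f = g :=
  levelOne_qExpansion_injective ((qExpansion_sigmaLevelOne σ f).trans h.symm)

@[simp]
lemma sigmaLevelOne_zero (σ : ℂ →+* ℂ) {k : ℤ} :
    sigmaLevelOne σ (0 : ModularForm 𝒮ℒ k) = 0 :=
  sigmaLevelOne_eq_of_qExpansion_eq σ (by simp [qExpansion_zero])

lemma sigmaLevelOne_add (σ : ℂ →+* ℂ) {k : ℤ} (f g : ModularForm 𝒮ℒ k) :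
    sigmaLevelOne σ (f + g) = sigmaLevelOne σ f + sigmaLevelOne σ g :=
  sigmaLevelOne_eq_of_qExpansion_eq σ (by
    simp only [FunLike.coe_add, ModularForm.qExpansion_add one_pos one_mem_strictPeriods_SL,
      qExpansion_sigmaLevelOne, map_add])

lemma sigmaLevelOne_sub (σ : ℂ →+* ℂ) {k : ℤ} (f g : ModularForm 𝒮ℒ k) :
    sigmaLevelOne σ (f - g) = sigmaLevelOne σ f - sigmaLevelOne σ g :=
  sigmaLevelOne_eq_of_qExpansion_eq σ (by
    simp only [FunLike.coe_sub, ModularForm.qExpansion_sub one_pos one_mem_strictPeriods_SL,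
      qExpansion_sigmaLevelOne, map_sub])

lemma sigmaLevelOne_neg (σ : ℂ →+* ℂ) {k : ℤ} (f : ModularForm 𝒮ℒ k) :
    sigmaLevelOne σ (-f) = -sigmaLevelOne σ f :=
  sigmaLevelOne_eq_of_qExpansion_eq σ (by
    simp only [FunLike.coe_neg, ModularForm.qExpansion_neg one_pos one_mem_strictPeriods_SL,
      qExpansion_sigmaLevelOne, map_neg])

/-- `σ`-semilinearity. -/
lemma sigmaLevelOne_smul (σ : ℂ →+* ℂ) {k : ℤ} (c : ℂ) (f : ModularForm 𝒮ℒ k) :
    sigmaLevelOne σ (c • f) = σ c • sigmaLevelOne σ f :=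
  sigmaLevelOne_eq_of_qExpansion_eq σ (by
    simp only [FunLike.coe_smul, ModularForm.qExpansion_smul one_pos one_mem_strictPeriods_SL,
      qExpansion_sigmaLevelOne]
    ext n
    simp)

lemma sigmaLevelOne_mul (σ : ℂ →+* ℂ) {a b : ℤ} (f : ModularForm 𝒮ℒ a) (g : ModularForm 𝒮ℒ b) :
    sigmaLevelOne σ (f.mul g) = (sigmaLevelOne σ f).mul (sigmaLevelOne σ g) :=
  sigmaLevelOne_eq_of_qExpansion_eq σ (by
    simp only [ModularForm.qExpansion_mul one_pos one_mem_strictPeriods_SL,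
      qExpansion_sigmaLevelOne, map_mul])

lemma sigmaLevelOne_mcast (σ : ℂ →+* ℂ) {a b : ℤ} (h : a = b) (f : ModularForm 𝒮ℒ a) :
    sigmaLevelOne σ (ModularForm.mcast h f) = ModularForm.mcast h (sigmaLevelOne σ f) :=
  sigmaLevelOne_eq_of_qExpansion_eq σ (by
    simp only [ModularForm.qExpansion_mcast, qExpansion_sigmaLevelOne])

@[simp]
lemma sigmaLevelOne_one (σ : ℂ →+* ℂ) :
    sigmaLevelOne σ (1 : ModularForm 𝒮ℒ 0) = 1 :=
  sigmaLevelOne_eq_of_qExpansion_eq σ (by
    rw [ModularForm.qExpansion_one]; exact (map_one _).symm)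

lemma sigmaLevelOne_pow (σ : ℂ →+* ℂ) {k : ℤ} (f : ModularForm 𝒮ℒ k) (n : ℕ) :
    sigmaLevelOne σ (f.pow n) = (sigmaLevelOne σ f).pow n :=
  sigmaLevelOne_eq_of_qExpansion_eq σ (by
    simp only [ModularForm.qExpansion_pow one_pos one_mem_strictPeriods_SL,
      qExpansion_sigmaLevelOne, map_pow])

/-- Forms with rational `q`-expansion are fixed. -/
lemma sigmaLevelOne_eq_self_of_mem_ratSeries (σ : ℂ →+* ℂ) {k : ℤ} {f : ModularForm 𝒮ℒ k}
    (hf : qExpansion 1 f ∈ ratSeries) : sigmaLevelOne σ f = f :=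
  sigmaLevelOne_eq_of_qExpansion_eq σ (map_eq_self_of_mem_ratSeries σ hf).symm

lemma sigmaLevelOne_E (σ : ℂ →+* ℂ) {k : ℕ} (hk : 3 ≤ k) (hk2 : Even k) :
    sigmaLevelOne σ (E hk) = E hk :=
  sigmaLevelOne_eq_self_of_mem_ratSeries σ (qExpansion_E_mem_ratSeries hk hk2)

/-- Cuspidality is preserved. -/
lemma isCuspForm_sigmaLevelOne_iff (σ : ℂ →+* ℂ) {k : ℤ} (f : ModularForm 𝒮ℒ k) :
    IsCuspForm (sigmaLevelOne σ f) ↔ IsCuspForm f := by
  rw [isCuspForm_iff_coeffZero_eq_zero, isCuspForm_iff_coeffZero_eq_zero,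
    coeff_qExpansion_sigmaLevelOne, map_eq_zero]

/-- Cusp form version of `exists_levelOne_qExpansion_map`. -/
theorem exists_levelOne_cuspForm_qExpansion_map (σ : ℂ →+* ℂ) (k : ℤ) (f : CuspForm 𝒮ℒ k) :
    ∃ g : CuspForm 𝒮ℒ k, qExpansion 1 g = PowerSeries.map σ (qExpansion 1 f) := by
  have hf0 : (qExpansion 1 ((f : ModularForm 𝒮ℒ k))).coeff 0 = 0 :=
    (isCuspForm_iff_coeffZero_eq_zero _).mp ⟨f, rfl⟩
  have h0 : (qExpansion 1 (sigmaLevelOne σ (f : ModularForm 𝒮ℒ k))).coeff 0 = 0 := by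
    rw [coeff_qExpansion_sigmaLevelOne, hf0, map_zero]
  refine ⟨toCuspForm _ h0, ?_⟩
  have : ((toCuspForm _ h0 : CuspForm 𝒮ℒ k) : ℍ → ℂ) =
      (sigmaLevelOne σ (f : ModularForm 𝒮ℒ k) : ℍ → ℂ) := rfl
  rw [this, qExpansion_sigmaLevelOne]
  rfl

/-- Composition. -/
lemma sigmaLevelOne_comp (σ τ : ℂ →+* ℂ) {k : ℤ} (f : ModularForm 𝒮ℒ k) :
    sigmaLevelOne (σ.comp τ) f = sigmaLevelOne σ (sigmaLevelOne τ f) :=
  sigmaLevelOne_eq_of_qExpansion_eq _ (by
    simp only [qExpansion_sigmaLevelOne]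
    ext n; simp)

@[simp]
lemma sigmaLevelOne_id {k : ℤ} (f : ModularForm 𝒮ℒ k) :
    sigmaLevelOne (RingHom.id ℂ) f = f :=
  sigmaLevelOne_eq_of_qExpansion_eq _ (by ext n; simp)

end Fermat.Agent.S23
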