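import Mathlib
import Fermat.Statements.S23
import Fermat.Agent.S23.Defs
import Fermat.Agent.S23.QNice
import Fermat.Agent.S23.Conj
import Fermat.Agent.S23.LevelOneGalois
import Fermat.Agent.S23.BoundedDenominators

/-!
# S23 project, P7 glue: bounded denominators for cusp forms on `Γ₀(N)`

* `BDForms.powerSeries_int_of_integral` : P7a in the exact shape of the skeleton.
* `BDForms.qExpansion_levelOne_mem_intSpan` : the `q`-expansion of every level-one modular form
  lies in the `ℂ`-span of the power series with integer coefficients.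
* `BDForms.bounded_denominators_of` : P7b, with the outputs of P2 (`t_N`) and P3+P4
  (`StructureThm`) as hypotheses.
-/

set_option autoImplicit false

open UpperHalfPlane ModularForm ModularFormClass CongruenceSubgroup EisensteinSeries
open scoped MatrixGroups ModularForm Manifold

namespace Fermat.Agent.S23.BDForms

open Fermat.Agent.S23

/-! ## P7a in skeleton shape -/

theorem map_intCast_injective :
    Function.Injective (PowerSeries.map (Int.castRingHom ℚ)) :=
  PowerSeries.map_injective _ (RingHom.injective_int (Int.castRingHom ℚ))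

/-- P7a. If `x ∈ ℚ⟦q⟧`, `v x = u` with `u, v ∈ ℤ⟦q⟧`, `v ≠ 0`, and `x` is a root of a monic
polynomial over `ℤ⟦q⟧`, then `x ∈ ℤ⟦q⟧`. -/
theorem powerSeries_int_of_integral (x : PowerSeries ℚ) (u v : PowerSeries ℤ) (hv : v ≠ 0)
    (huv : v.map (Int.castRingHom ℚ) * x = u.map (Int.castRingHom ℚ))
    (μ : ℕ) (a : Fin μ → PowerSeries ℤ)
    (hx : x ^ μ + ∑ l : Fin μ, (a l).map (Int.castRingHom ℚ) * x ^ (l : ℕ) = 0) :
    ∃ y : PowerSeries ℤ, y.map (Int.castRingHom ℚ) = x := by
  have hmem : x ∈ BoundedDen.intSubring := by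
    refine BoundedDen.mem_intSubring_of_monic_of_mul (d₀ := v.map (Int.castRingHom ℚ)) ?_ ?_ ?_ μ
      (fun l => (a l).map (Int.castRingHom ℚ)) ?_ hx
    · intro h0
      apply hv
      apply map_intCast_injective
      rw [h0, map_zero]
    · exact ⟨v, rfl⟩
    · rw [huv]; exact ⟨u, rfl⟩
    · intro l; exact ⟨a l, rfl⟩
  obtain ⟨y, hy⟩ := hmem
  exact ⟨y, hy⟩

/-! ## The `ℂ`-span of the integral power series -/

/-- The `ℂ`-span of all power series with integer coefficients. -/
noncomputable abbrev intSpan : Submodule ℂ (PowerSeries ℂ) := BoundedDen.spanC Set.univ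

theorem map_int_mem_intSpan (p : PowerSeries ℤ) :
    p.map (Int.castRingHom ℂ) ∈ intSpan :=
  Submodule.subset_span ⟨p, Set.mem_univ _, rfl⟩

theorem one_mem_intSpan : (1 : PowerSeries ℂ) ∈ intSpan := by
  have := map_int_mem_intSpan 1
  rwa [map_one] at this

theorem mul_mem_intSpan {x y : PowerSeries ℂ} (hx : x ∈ intSpan) (hy : y ∈ intSpan) :
    x * y ∈ intSpan := by
  induction hx using Submodule.span_induction with
  | mem x hx =>
    obtain ⟨p, -, rfl⟩ := hx
    induction hy using Submodule.span_induction with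
    | mem y hy =>
      obtain ⟨q, -, rfl⟩ := hy
      rw [← map_mul]
      exact map_int_mem_intSpan (p * q)
    | zero => rw [mul_zero]; exact Submodule.zero_mem _
    | add y z _ _ hy hz => rw [mul_add]; exact Submodule.add_mem _ hy hz
    | smul c y _ hy => rw [mul_smul_comm]; exact Submodule.smul_mem _ c hy
  | zero => rw [zero_mul]; exact Submodule.zero_mem _
  | add x z _ _ hx hz => rw [add_mul]; exact Submodule.add_mem _ hx hz
  | smul c x _ hx => rw [smul_mul_assoc]; exact Submodule.smul_mem _ c hx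

theorem pow_mem_intSpan {x : PowerSeries ℂ} (hx : x ∈ intSpan) (n : ℕ) : x ^ n ∈ intSpan := by
  induction n with
  | zero => rw [pow_zero]; exact one_mem_intSpan
  | succ n ih => rw [pow_succ]; exact mul_mem_intSpan ih hx

/-- A power series with integer coefficients lies in `intSpan`. -/
theorem mem_intSpan_of_int_coeff {p : PowerSeries ℂ}
    (hp : ∀ n, ∃ m : ℤ, PowerSeries.coeff n p = (m : ℂ)) : p ∈ intSpan := by
  choose m hm using hp
  have : p = (PowerSeries.mk m).map (Int.castRingHom ℂ) := by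
    ext n
    rw [hm n, PowerSeries.coeff_map, PowerSeries.coeff_mk]
    rfl
  rw [this]
  exact map_int_mem_intSpan _

/-! ## Level one forms have `q`-expansion in `intSpan` -/

/-- The Eisenstein series `E_k` has `q`-expansion in `intSpan`. -/
theorem qExpansion_E_mem_intSpan {k : ℕ} (hk : 3 ≤ k) (hk2 : Even k) :
    qExpansion 1 (E hk) ∈ intSpan := by
  set r : ℂ := -(2 * (k : ℂ) / ((bernoulli k : ℚ) : ℂ)) with hr
  set S : PowerSeries ℤ :=
    PowerSeries.mk fun m => if m = 0 then 0 else (ArithmeticFunction.sigma (k - 1) m : ℤ) with hS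
  have hq : qExpansion 1 (E hk) = 1 + r • S.map (Int.castRingHom ℂ) := by
    ext m
    rw [E_qExpansion_coeff hk hk2 m, map_add, PowerSeries.coeff_smul, PowerSeries.coeff_map,
      hS, PowerSeries.coeff_mk, PowerSeries.coeff_one]
    by_cases hm : m = 0
    · simp [hm]
    · simp [hm, hr]
  rw [hq]
  exact Submodule.add_mem _ one_mem_intSpan (Submodule.smul_mem _ _ (map_int_mem_intSpan S))

theorem qExpansion_discriminant_mem_intSpan :
    qExpansion 1 ModularForm.discriminant ∈ intSpan := by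
  rw [discriminant_eq_smul_e4e6Form,
    ModularForm.qExpansion_smul one_pos one_mem_strictPeriods_SL, qExpansion_e4e6Form]
  apply Submodule.smul_mem
  exact Submodule.sub_mem _
    (pow_mem_intSpan (qExpansion_E_mem_intSpan _ ⟨2, rfl⟩) 3)
    (pow_mem_intSpan (qExpansion_E_mem_intSpan _ ⟨3, rfl⟩) 2)

/-- `InSpan k`: all level-one modular forms of weight `k` have `q`-expansion in `intSpan`. -/
def InSpan (k : ℤ) : Prop :=
  ∀ f : ModularForm 𝒮ℒ k, qExpansion 1 f ∈ intSpan

theorem inSpan_of_forall_eq_zero {k : ℤ} (h : ∀ f : ModularForm 𝒮ℒ k, f = 0) : InSpan k := by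
  intro f
  rw [h f]
  simp only [FunLike.coe_zero, qExpansion_zero]
  exact Submodule.zero_mem _

theorem inSpan_zero : InSpan 0 := by
  intro f
  obtain ⟨c, hc⟩ := levelOne_weight_zero_const f
  have hf : (f : ℍ → ℂ) = c • ((1 : ModularForm 𝒮ℒ 0) : ℍ → ℂ) := by
    rw [hc]; ext z; simp
  rw [hf, ModularForm.qExpansion_smul one_pos one_mem_strictPeriods_SL, ModularForm.qExpansion_one]
  exact Submodule.smul_mem _ _ one_mem_intSpan

theorem inSpan_step {n : ℕ} (hn : 3 ≤ n) (hn2 : Even n) (ih : InSpan ((n : ℤ) - 12)) :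
    InSpan (n : ℤ) := by
  intro f
  set a0 : ℂ := (qExpansion 1 f).coeff 0 with ha0
  set f' : ModularForm 𝒮ℒ (n : ℤ) := f - a0 • E hn with hf'
  have hf'q : qExpansion 1 f' = qExpansion 1 f - a0 • qExpansion 1 (E hn) := by
    rw [hf', FunLike.coe_sub, ModularForm.qExpansion_sub one_pos one_mem_strictPeriods_SL,
      FunLike.coe_smul, ModularForm.qExpansion_smul one_pos one_mem_strictPeriods_SL]
  have h0 : (qExpansion 1 f').coeff 0 = 0 := by
    rw [hf'q, map_sub, PowerSeries.coeff_smul, E_qExpansion_coeff_zero hn hn2]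
    simp [ha0]
  have hfac : qExpansion 1 f' = qExpansion 1 ModularForm.discriminant *
      qExpansion 1 (CuspForm.discriminantEquiv (toCuspForm f' h0)) :=
    qExpansion_eq_qExpansion_discriminant_mul f' h0
  have hfq : qExpansion 1 f = a0 • qExpansion 1 (E hn) +
      qExpansion 1 ModularForm.discriminant *
        qExpansion 1 (CuspForm.discriminantEquiv (toCuspForm f' h0)) := by
    rw [← hfac, hf'q]; abel
  rw [hfq]
  exact Submodule.add_mem _ (Submodule.smul_mem _ _ (qExpansion_E_mem_intSpan hn hn2))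
    (mul_mem_intSpan qExpansion_discriminant_mem_intSpan (ih _))

theorem inSpan_lt : ∀ (n : ℕ) (k : ℤ), k < n → InSpan k := by
  intro n
  induction n with
  | zero =>
    intro k hk
    exact inSpan_of_forall_eq_zero fun f => by
      ext z; simpa using congrFun (levelOne_neg_weight_eq_zero (by simpa using hk) f) z
  | succ n ih =>
    intro k hk
    have hk' : k ≤ (n : ℤ) := by push_cast at hk; omega
    rcases lt_or_eq_of_le hk' with hlt | rfl
    · exact ih k hlt
    · rcases Nat.even_or_odd n with hev | hodd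
      · rcases Nat.lt_or_ge n 3 with hlt3 | hge3
        · obtain rfl | rfl : n = 0 ∨ n = 2 := by
            rcases hev with ⟨m, hm⟩; omega
          · exact inSpan_zero
          · exact inSpan_of_forall_eq_zero fun f =>
              rank_zero_iff_forall_zero.mp levelOne_weight_two_rank_zero f
        · exact inSpan_step hge3 hev (ih _ (by omega))
      · exact inSpan_of_forall_eq_zero fun f =>
          levelOne_odd_weight_eq_zero (by exact_mod_cast hodd) f

/-- The `q`-expansion of every level-one modular form is a `ℂ`-linear combination of power series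
with integer coefficients. -/
theorem qExpansion_levelOne_mem_intSpan (k : ℤ) (f : ModularForm 𝒮ℒ k) :
    qExpansion 1 f ∈ intSpan :=
  inSpan_lt (k.toNat + 1) k (by have := Int.self_le_toNat k; push_cast; omega) f

theorem qExpansion_mem_intSpan_of_isMF {k : ℤ} {g : ℍ → ℂ} (hg : IsMF 𝒮ℒ k g) :
    qExpansion 1 g ∈ intSpan := by
  obtain ⟨G, rfl⟩ := hg
  exact qExpansion_levelOne_mem_intSpan k G

/-! ## P7b: bounded denominators for cusp forms on `Γ₀(N)` -/

theorem sum_mem_intSpan {ι : Type*} (s : Finset ι) {F : ι → PowerSeries ℂ}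
    (hF : ∀ i ∈ s, F i ∈ intSpan) : ∑ i ∈ s, F i ∈ intSpan :=
  Submodule.sum_mem _ hF

/-- **P7b** (natural number denominator).  Inputs: P2 (`t_N` is a modular form on `Γ₀(N)` with
integer `q`-expansion) and P3+P4 (`StructureThm`). -/
theorem bounded_denominators_nat_of (N : ℕ) [NeZero N] (k : ℤ)
    (htMF : IsMF (Gamma0 N) 12 (tN N))
    (htInt : ∀ n, ∃ m : ℤ, (qExpansion 1 (tN N)).coeff n = (m : ℂ))
    (hS : StructureThm N k) (f : CuspForm (Gamma0 N) k)
    (hf : ∀ n, ∃ r : ℚ, (qExpansion 1 f).coeff n = (r : ℂ)) :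
    ∃ M : ℕ, 0 < M ∧ ∀ n, ∃ z : ℤ, (M : ℂ) * (qExpansion 1 f).coeff n = (z : ℂ) := by
  classical
  obtain ⟨μ, wD, D, c, a, hμ, hD, hD0, hc, ha, hDf, hPf⟩ := hS f
  let 𝒩 := qNiceSubring
  let Dn : 𝒩 := ⟨D, QNice.of_isMF_levelOne hD⟩
  let cn : Fin μ → 𝒩 := fun m => ⟨c m, QNice.of_isMF_levelOne (hc m)⟩
  let an : Fin μ → 𝒩 := fun l => ⟨a l, QNice.of_isMF_levelOne (ha l).isMF⟩
  let tn : 𝒩 := ⟨tN N, QNice.of_isMF_Gamma0 htMF⟩
  let fn : 𝒩 := ⟨f, QNice.of_isMF_Gamma0 ⟨ModularFormClass.modularForm f, rfl⟩⟩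
  have hG : Dn * fn = ∑ m : Fin μ, cn m * tn ^ (m : ℕ) := by
    apply Subtype.ext
    funext τ
    simp only [cn, tn, Dn, fn, Subring.coe_mul, Pi.mul_apply, AddSubmonoidClass.coe_finsetSum,
      Finset.sum_apply, SubmonoidClass.coe_pow, Pi.pow_apply]
    exact hDf τ
  have hP : fn ^ μ + ∑ l : Fin μ, an l * fn ^ (l : ℕ) = 0 := by
    apply Subtype.ext
    funext τ
    simp only [an, fn, Subring.coe_add, Subring.coe_mul, Pi.add_apply, Pi.mul_apply,
      AddSubmonoidClass.coe_finsetSum, Finset.sum_apply, SubmonoidClass.coe_pow, Pi.pow_apply,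
      ZeroMemClass.coe_zero, Pi.zero_apply]
    exact hPf τ
  have hDmem : qExpHom Dn ∈ intSpan := qExpansion_mem_intSpan_of_isMF hD
  have hcmem : ∀ m, qExpHom (cn m) ∈ intSpan := fun m => qExpansion_mem_intSpan_of_isMF (hc m)
  have hamem : ∀ l, qExpHom (an l) ∈ intSpan :=
    fun l => qExpansion_mem_intSpan_of_isMF (ha l).isMF
  have htmem : qExpHom tn ∈ intSpan := mem_intSpan_of_int_coeff htInt
  have hDne : qExpHom Dn ≠ 0 := by
    intro h0
    have := qExpHom_injective (h0.trans (map_zero _).symm)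
    exact hD0 (congrArg Subtype.val this)
  have hG' : qExpHom Dn * qExpHom fn = ∑ m : Fin μ, qExpHom (cn m) * qExpHom tn ^ (m : ℕ) := by
    rw [← map_mul, hG]
    simp only [map_sum, map_mul, map_pow]
  have hP' : qExpHom fn ^ μ + ∑ l : Fin μ, qExpHom (an l) * qExpHom fn ^ (l : ℕ) = 0 := by
    have := congrArg qExpHom hP
    simpa only [map_add, map_pow, map_sum, map_mul, map_zero] using this
  exact BoundedDen.exists_nat_smul_int Set.univ (qExpHom fn) hf (qExpHom Dn)
    (∑ m : Fin μ, qExpHom (cn m) * qExpHom tn ^ (m : ℕ)) hDmem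
    (sum_mem_intSpan _ fun m _ => mul_mem_intSpan (hcmem m) (pow_mem_intSpan htmem _))
    hDne hG' μ (fun l => qExpHom (an l)) hamem hP'

/-- **P7b** in the exact shape of the skeleton (`Skel.bounded_denominators`), with the outputs of
P2 and P3+P4 as hypotheses. -/
theorem bounded_denominators_of (N : ℕ) [NeZero N] (k : ℤ)
    (htMF : IsMF (Gamma0 N) 12 (tN N))
    (htInt : ∀ n, ∃ m : ℤ, (qExpansion 1 (tN N)).coeff n = (m : ℂ))
    (hS : StructureThm N k) (f : CuspForm (Gamma0 N) k)
    (hf : ∀ n, ∃ r : ℚ, (qExpansion 1 f).coeff n = (r : ℂ)) :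
    ∃ d : ℤ, d ≠ 0 ∧ ∀ n, ∃ m : ℤ, (d : ℂ) * (qExpansion 1 f).coeff n = (m : ℂ) := by
  obtain ⟨M, hM, h⟩ := bounded_denominators_nat_of N k htMF htInt hS f hf
  refine ⟨(M : ℤ), by exact_mod_cast hM.ne', fun n => ?_⟩
  obtain ⟨z, hz⟩ := h n
  exact ⟨z, by simpa using hz⟩

/-- **P7b** in the shape `I3` expected by `Assemble.hasIntegralStructure_of`. -/
theorem bounded_denominators_qCoeff_of (N : ℕ) [NeZero N] (k : ℤ)
    (htMF : IsMF (Gamma0 N) 12 (tN N))
    (htInt : ∀ n, ∃ m : ℤ, (qExpansion 1 (tN N)).coeff n = (m : ℂ))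
    (hS : StructureThm N k) :
    ∀ f : CuspForm (Gamma0 N) k, (∀ n, ∃ r : ℚ, qCoeff ⇑f n = (r : ℂ)) →
      ∃ M : ℕ, 0 < M ∧ ∀ n, ∃ z : ℤ, (M : ℂ) * qCoeff ⇑f n = (z : ℂ) :=
  fun f hf => bounded_denominators_nat_of N k htMF htInt hS f hf

end Fermat.Agent.S23.BDForms
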