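import Mathlib

set_option autoImplicit false

/-!
# Analytic lemmas for the `σ`-transport step (package P5a of the S23 plan)

* `norm_le_of_monic_root`, `norm_pow_le_of_monic_root`: bounds on roots of monic polynomials.
* `tendsto_zero_of_monic_root`: roots of monic polynomials whose lower coefficients tend to `0`
  tend to `0`.
* `exists_differentiableOn_mul_eq`: if `C / D` is a root of a monic polynomial with continuous
  coefficients (wherever `D ≠ 0`), then `C / D` extends holomorphically.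
-/

namespace Fermat.Agent.S23.IQ

open Filter Topology

section RootBounds

variable {K : Type*} [NormedField K]

/-- Basic inequality for a root of a monic polynomial. -/
lemma norm_pow_le_sum_of_monic_root {μ : ℕ} (a : Fin μ → K) (x : K)
    (h : x ^ μ + ∑ j, a j * x ^ (j : ℕ) = 0) :
    ‖x‖ ^ μ ≤ ∑ j, ‖a j‖ * ‖x‖ ^ (j : ℕ) := by
  have h1 : x ^ μ = - ∑ j, a j * x ^ (j : ℕ) := eq_neg_of_add_eq_zero_left h
  calc ‖x‖ ^ μ = ‖x ^ μ‖ := (norm_pow x μ).symm
    _ = ‖∑ j, a j * x ^ (j : ℕ)‖ := by rw [h1, norm_neg]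
    _ ≤ ∑ j, ‖a j * x ^ (j : ℕ)‖ := norm_sum_le _ _
    _ = ∑ j, ‖a j‖ * ‖x‖ ^ (j : ℕ) := by
      refine Finset.sum_congr rfl fun j _ => ?_
      rw [norm_mul, norm_pow]

/-- A root `x` of the monic polynomial `X ^ μ + ∑ a_j X ^ j` satisfies
`‖x‖ ≤ max 1 (∑ ‖a_j‖)`. -/
theorem norm_le_of_monic_root {μ : ℕ} (a : Fin μ → K) (x : K)
    (h : x ^ μ + ∑ j, a j * x ^ (j : ℕ) = 0) :
    ‖x‖ ≤ max 1 (∑ j, ‖a j‖) := by
  rcases le_or_gt ‖x‖ 1 with h1 | h1
  · exact le_max_of_le_left h1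
  · refine le_max_of_le_right ?_
    have hx0 : 0 < ‖x‖ := lt_trans zero_lt_one h1
    rcases Nat.eq_zero_or_pos μ with hμ | hμ
    · subst hμ
      simp at h
    have h2 := norm_pow_le_sum_of_monic_root a x h
    have h3 : ∑ j, ‖a j‖ * ‖x‖ ^ (j : ℕ) ≤ (∑ j, ‖a j‖) * ‖x‖ ^ (μ - 1) := by
      rw [Finset.sum_mul]
      refine Finset.sum_le_sum fun j _ => ?_
      refine mul_le_mul_of_nonneg_left ?_ (norm_nonneg _)
      exact pow_le_pow_right₀ h1.le (by have := j.isLt; omega)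
    have h4 : ‖x‖ ^ μ = ‖x‖ * ‖x‖ ^ (μ - 1) := by
      rw [← pow_succ', Nat.sub_add_cancel hμ]
    rw [h4] at h2
    have h5 : 0 < ‖x‖ ^ (μ - 1) := pow_pos hx0 _
    exact le_of_mul_le_mul_right (h2.trans h3) h5

/-- If the lower coefficients of a monic polynomial are small (`∑ ‖a_j‖ ≤ ε ≤ 1`) then every
root `x` satisfies `‖x‖ ^ μ ≤ ε` (and `‖x‖ ≤ 1`). -/
theorem norm_pow_le_of_monic_root {μ : ℕ} (a : Fin μ → K) (x : K)
    (h : x ^ μ + ∑ j, a j * x ^ (j : ℕ) = 0) {ε : ℝ} (hε : ∑ j, ‖a j‖ ≤ ε) (hε1 : ε ≤ 1) :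
    ‖x‖ ≤ 1 ∧ ‖x‖ ^ μ ≤ ε := by
  have hx1 : ‖x‖ ≤ 1 := by
    refine (norm_le_of_monic_root a x h).trans ?_
    exact max_le le_rfl (hε.trans hε1)
  refine ⟨hx1, (norm_pow_le_sum_of_monic_root a x h).trans (le_trans ?_ hε)⟩
  refine Finset.sum_le_sum fun j _ => ?_
  exact mul_le_of_le_one_right (norm_nonneg _) (pow_le_one₀ (norm_nonneg _) hx1)

/-- Roots of monic polynomials whose lower coefficients tend to zero tend to zero. -/
theorem tendsto_zero_of_monic_root {ι : Type*} {l : Filter ι} {μ : ℕ} (a : Fin μ → ι → K)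
    (x : ι → K) (ha : ∀ j, Tendsto (a j) l (𝓝 0))
    (h : ∀ᶠ t in l, x t ^ μ + ∑ j, a j t * x t ^ (j : ℕ) = 0) :
    Tendsto x l (𝓝 0) := by
  rw [tendsto_zero_iff_norm_tendsto_zero]
  have hsum : Tendsto (fun t => ∑ j, ‖a j t‖) l (𝓝 0) := by
    have : Tendsto (fun t => ∑ j : Fin μ, ‖a j t‖) l (𝓝 (∑ _j : Fin μ, (0 : ℝ))) :=
      tendsto_finsetSum _ fun j _ => (tendsto_zero_iff_norm_tendsto_zero.mp (ha j))
    simpa using this
  rw [Metric.tendsto_nhds]
  intro δ hδ
  set δ' := min δ 1 with hδ'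
  have hδ'0 : 0 < δ' := lt_min hδ zero_lt_one
  have hδ'1 : δ' ≤ 1 := min_le_right _ _
  have hpow0 : 0 < δ' ^ μ := pow_pos hδ'0 μ
  have hpow1 : δ' ^ μ ≤ 1 := pow_le_one₀ hδ'0.le hδ'1
  have hev : ∀ᶠ t in l, ∑ j, ‖a j t‖ < δ' ^ μ := by
    have := (Metric.tendsto_nhds.mp hsum) (δ' ^ μ) hpow0
    filter_upwards [this] with t ht
    rw [Real.dist_eq, sub_zero] at ht
    exact lt_of_le_of_lt (le_abs_self _) ht
  filter_upwards [hev, h] with t ht1 ht2
  rw [Real.dist_eq, sub_zero, abs_of_nonneg (norm_nonneg _)]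
  obtain ⟨-, h2⟩ := norm_pow_le_of_monic_root (fun j => a j t) (x t) ht2 le_rfl
    (ht1.le.trans hpow1)
  have h3 : ‖x t‖ ^ μ < δ' ^ μ := lt_of_le_of_lt h2 ht1
  exact lt_of_lt_of_le (lt_of_pow_lt_pow_left₀ μ hδ'0.le h3) (min_le_left _ _)

end RootBounds

section Removable

open Classical in
/-- **Integral quotients of holomorphic functions are holomorphic.**
Let `U ⊆ ℂ` be open and preconnected, `C, D` holomorphic on `U` with `D` not identically zero.
Suppose that wherever `D z ≠ 0` the quotient `C z / D z` is a root of the monic polynomial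
`X ^ μ + ∑ a_j(z) X ^ j` whose coefficients `a_j` are continuous on `U`.
Then `C / D` extends to a holomorphic function `G` on `U`, i.e. `D * G = C` on `U`. -/
theorem exists_differentiableOn_mul_eq {U : Set ℂ} (hU : IsOpen U) (hUc : IsPreconnected U)
    {C D : ℂ → ℂ} (hC : DifferentiableOn ℂ C U) (hD : DifferentiableOn ℂ D U)
    (hD0 : ∃ z ∈ U, D z ≠ 0) {μ : ℕ} (a : Fin μ → ℂ → ℂ) (ha : ∀ j, ContinuousOn (a j) U)
    (hroot : ∀ z ∈ U, D z ≠ 0 →
      (C z / D z) ^ μ + ∑ j, a j z * (C z / D z) ^ (j : ℕ) = 0) :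
    ∃ G : ℂ → ℂ, DifferentiableOn ℂ G U ∧ ∀ z ∈ U, D z * G z = C z := by
  -- the quotient
  set F : ℂ → ℂ := fun z => C z / D z with hF
  -- the candidate extension
  let G : ℂ → ℂ := fun z => if D z ≠ 0 then F z else limUnder (𝓝[≠] z) F
  have hDan : AnalyticOnNhd ℂ D U := hD.analyticOnNhd hU
  -- local analysis at a zero of `D`
  have key : ∀ z₀ ∈ U, D z₀ = 0 → ∃ ε > 0, Metric.ball z₀ ε ⊆ U ∧
      (∀ z ∈ Metric.ball z₀ ε, z ≠ z₀ → D z ≠ 0) ∧
      DifferentiableOn ℂ (Function.update F z₀ (limUnder (𝓝[≠] z₀) F)) (Metric.ball z₀ ε) := by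
    intro z₀ hz₀ hDz₀
    -- zeros of `D` are isolated
    have hne : ∀ᶠ z in 𝓝[≠] z₀, D z ≠ 0 := by
      rcases (hDan z₀ hz₀).eventually_eq_zero_or_eventually_ne_zero with h | h
      · exfalso
        obtain ⟨w, hw, hDw⟩ := hD0
        exact hDw (hDan.eqOn_zero_of_preconnected_of_eventuallyEq_zero hUc hz₀ h hw)
      · exact h
    -- coefficients are locally bounded
    have hbd : ∀ j, ∀ᶠ z in 𝓝 z₀, ‖a j z‖ ≤ ‖a j z₀‖ + 1 := by
      intro j
      have hcont : ContinuousAt (a j) z₀ := (ha j).continuousAt (hU.mem_nhds hz₀)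
      have := (hcont.norm).eventually (gt_mem_nhds (lt_add_one ‖a j z₀‖))
      exact this.mono fun z hz => le_of_lt hz
    have hbd' : ∀ᶠ z in 𝓝 z₀, ∀ j, ‖a j z‖ ≤ ‖a j z₀‖ + 1 := eventually_all.mpr hbd
    have hne' : ∀ᶠ z in 𝓝 z₀, z ≠ z₀ → D z ≠ 0 := by
      rw [eventually_nhdsWithin_iff] at hne
      exact hne
    have hUev : ∀ᶠ z in 𝓝 z₀, z ∈ U := hU.mem_nhds hz₀
    obtain ⟨ε, hε, hball⟩ := Metric.eventually_nhds_iff_ball.mp (hUev.and (hne'.and hbd'))
    refine ⟨ε, hε, fun z hz => (hball z hz).1, fun z hz => (hball z hz).2.1, ?_⟩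
    apply Complex.differentiableOn_update_limUnder_of_bddAbove (Metric.ball_mem_nhds z₀ hε)
    · -- differentiable on the punctured ball
      intro z hz
      have hzU : z ∈ U := (hball z hz.1).1
      have hDz : D z ≠ 0 := (hball z hz.1).2.1 hz.2
      have h1 : DifferentiableAt ℂ C z := hC.differentiableAt (hU.mem_nhds hzU)
      have h2 : DifferentiableAt ℂ D z := hD.differentiableAt (hU.mem_nhds hzU)
      exact (h1.div h2 hDz).differentiableWithinAt
    · -- bounded on the punctured ball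
      refine ⟨max 1 (∑ j, (‖a j z₀‖ + 1)), ?_⟩
      rintro _ ⟨z, hz, rfl⟩
      have hzU : z ∈ U := (hball z hz.1).1
      have hDz : D z ≠ 0 := (hball z hz.1).2.1 hz.2
      have hr := hroot z hzU hDz
      have hb := norm_le_of_monic_root (fun j => a j z) (F z) hr
      refine hb.trans (max_le_max le_rfl ?_)
      exact Finset.sum_le_sum fun j _ => (hball z hz.1).2.2 j
  -- `G` is differentiable at every point of `U`
  have hGdiff : ∀ z₀ ∈ U, DifferentiableAt ℂ G z₀ := by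
    intro z₀ hz₀
    by_cases hDz₀ : D z₀ = 0
    · obtain ⟨ε, hε, -, hne, hdiff⟩ := key z₀ hz₀ hDz₀
      have hEq : G =ᶠ[𝓝 z₀] Function.update F z₀ (limUnder (𝓝[≠] z₀) F) := by
        filter_upwards [Metric.ball_mem_nhds z₀ hε] with z hz
        by_cases hzz : z = z₀
        · subst hzz
          simp only [G, Function.update_self, hDz₀, ne_eq, not_true_eq_false, if_false]
        · have hDz : D z ≠ 0 := hne z hz hzz
          simp only [G, hDz, ne_eq, not_false_eq_true, if_true, Function.update_of_ne hzz]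
      exact ((hdiff.differentiableAt (Metric.ball_mem_nhds z₀ hε))).congr_of_eventuallyEq hEq
    · have hDcont : ContinuousAt D z₀ :=
        (hD.differentiableAt (hU.mem_nhds hz₀)).continuousAt
      have hEq : G =ᶠ[𝓝 z₀] F := by
        filter_upwards [hDcont.eventually_ne hDz₀] with z hz
        simp only [G, hz, ne_eq, not_false_eq_true, if_true]
      have h1 : DifferentiableAt ℂ C z₀ := hC.differentiableAt (hU.mem_nhds hz₀)
      have h2 : DifferentiableAt ℂ D z₀ := hD.differentiableAt (hU.mem_nhds hz₀)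
      exact (h1.div h2 hDz₀).congr_of_eventuallyEq hEq
  refine ⟨G, fun z hz => (hGdiff z hz).differentiableWithinAt, ?_⟩
  intro z₀ hz₀
  by_cases hDz₀ : D z₀ = 0
  · -- pass to the limit in `D * G = C` on the punctured ball
    obtain ⟨ε, hε, hsub, hne, -⟩ := key z₀ hz₀ hDz₀
    have hGc : ContinuousAt G z₀ := (hGdiff z₀ hz₀).continuousAt
    have hDc : ContinuousAt D z₀ := (hD.differentiableAt (hU.mem_nhds hz₀)).continuousAt
    have hCc : ContinuousAt C z₀ := (hC.differentiableAt (hU.mem_nhds hz₀)).continuousAt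
    have h1 : Tendsto (fun z => D z * G z) (𝓝[≠] z₀) (𝓝 (D z₀ * G z₀)) :=
      ((hDc.mul hGc).tendsto).mono_left nhdsWithin_le_nhds
    have h2 : Tendsto C (𝓝[≠] z₀) (𝓝 (C z₀)) := hCc.tendsto.mono_left nhdsWithin_le_nhds
    have hEq : (fun z => D z * G z) =ᶠ[𝓝[≠] z₀] C := by
      rw [Filter.EventuallyEq, eventually_nhdsWithin_iff]
      filter_upwards [Metric.ball_mem_nhds z₀ hε] with z hz hzz
      have hDz : D z ≠ 0 := hne z hz hzz
      simp only [G, hDz, ne_eq, not_false_eq_true, if_true, hF]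
      field_simp
    exact tendsto_nhds_unique (h1.congr' hEq) h2
  · simp only [G, hDz₀, ne_eq, not_false_eq_true, if_true, hF]
    field_simp

end Removable

section UpperHalfPlane

open UpperHalfPlane

open scoped Manifold in
/-- Upper half plane version of `exists_differentiableOn_mul_eq`: if `C, D : ℍ → ℂ` are
holomorphic, `D ≠ 0` somewhere, and `C / D` is (where defined) a root of a monic polynomial with
continuous coefficients, then there is a holomorphic `G : ℍ → ℂ` with `D * G = C`. -/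
theorem exists_mdifferentiable_mul_eq {C D : ℍ → ℂ}
    (hC : MDifferentiable 𝓘(ℂ) 𝓘(ℂ) C) (hD : MDifferentiable 𝓘(ℂ) 𝓘(ℂ) D)
    (hD0 : ∃ τ : ℍ, D τ ≠ 0) {μ : ℕ} (a : Fin μ → ℍ → ℂ) (ha : ∀ j, Continuous (a j))
    (hroot : ∀ τ : ℍ, D τ ≠ 0 →
      (C τ / D τ) ^ μ + ∑ j, a j τ * (C τ / D τ) ^ (j : ℕ) = 0) :
    ∃ G : ℍ → ℂ, MDifferentiable 𝓘(ℂ) 𝓘(ℂ) G ∧ ∀ τ : ℍ, D τ * G τ = C τ := by
  have hU : IsOpen upperHalfPlaneSet := isOpen_upperHalfPlaneSet
  have hUc : IsPreconnected upperHalfPlaneSet := (convex_halfSpace_im_gt 0).isPreconnected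
  have hC' := UpperHalfPlane.mdifferentiable_iff.mp hC
  have hD' := UpperHalfPlane.mdifferentiable_iff.mp hD
  have hD0' : ∃ z ∈ upperHalfPlaneSet, (D ∘ ofComplex) z ≠ 0 := by
    obtain ⟨τ, hτ⟩ := hD0
    exact ⟨(τ : ℂ), τ.im_pos, by simpa [Function.comp_apply, ofComplex_apply] using hτ⟩
  have ha' : ∀ j, ContinuousOn (a j ∘ ofComplex) upperHalfPlaneSet := by
    intro j z hz
    have h1 : ContinuousAt ofComplex z :=
      (UpperHalfPlane.contMDiffAt_ofComplex (n := 0) hz).continuousAt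
    exact (((ha j).continuousAt).comp h1).continuousWithinAt
  obtain ⟨G, hG, hGeq⟩ := exists_differentiableOn_mul_eq hU hUc hC' hD' hD0'
    (fun j => a j ∘ ofComplex) ha' (by
      intro z hz hDz
      have := hroot (ofComplex z) hDz
      simpa [Function.comp_apply] using this)
  refine ⟨fun τ => G (τ : ℂ), ?_, fun τ => ?_⟩
  · rw [UpperHalfPlane.mdifferentiable_iff]
    refine hG.congr fun z hz => ?_
    simp only [Function.comp_apply, ofComplex_apply_of_im_pos hz]
  · have := hGeq (τ : ℂ) τ.im_pos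
    simpa [Function.comp_apply, ofComplex_apply] using this

end UpperHalfPlane

end Fermat.Agent.S23.IQ
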