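import Mathlib
import Fermat.Agent.S23.IntegralQuotient

set_option autoImplicit false

/-!
# Slash invariance and cusp conditions for integral quotients (package P5b of the S23 plan)

* `eq_zero_of_mul_eq_zero`: a continuous function on `ℍ` killed by a nonzero holomorphic function
  is zero.
* `slash_eq_of_mul_eq`: if `D * F = C` with `D` invariant of weight `w` and `C` invariant of weight
  `w + k` under `γ`, then `F` is invariant of weight `k` under `γ`.
* `monic_root_slash`: slashing a root of a monic polynomial gives a root of the slashed polynomial.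
* `isBoundedAtImInfty_of_monic_root`, `isZeroAtImInfty_of_monic_root`.
-/

namespace Fermat.Agent.S23.QS

open Fermat.Agent.S23.IQ

open Filter Topology UpperHalfPlane ModularForm
open scoped MatrixGroups Manifold

/-- A continuous function on an open preconnected subset of `ℂ` which is killed by a
holomorphic function that is not identically zero vanishes identically. -/
theorem eqOn_zero_of_mul_eq_zero {U : Set ℂ} (hU : IsOpen U) (hUc : IsPreconnected U)
    {D H : ℂ → ℂ} (hD : DifferentiableOn ℂ D U) (hD0 : ∃ z ∈ U, D z ≠ 0)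
    (hH : ContinuousOn H U) (h : ∀ z ∈ U, D z * H z = 0) : ∀ z ∈ U, H z = 0 := by
  have hDan : AnalyticOnNhd ℂ D U := hD.analyticOnNhd hU
  intro z₀ hz₀
  by_cases hDz₀ : D z₀ = 0
  · have hne : ∀ᶠ z in 𝓝[≠] z₀, D z ≠ 0 := by
      rcases (hDan z₀ hz₀).eventually_eq_zero_or_eventually_ne_zero with h' | h'
      · exfalso
        obtain ⟨w, hw, hDw⟩ := hD0
        exact hDw (hDan.eqOn_zero_of_preconnected_of_eventuallyEq_zero hUc hz₀ h' hw)
      · exact h'
    have hUev : ∀ᶠ z in 𝓝[≠] z₀, z ∈ U := nhdsWithin_le_nhds (hU.mem_nhds hz₀)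
    have hEq : H =ᶠ[𝓝[≠] z₀] fun _ => (0 : ℂ) := by
      filter_upwards [hne, hUev] with z hz hzU
      exact (mul_eq_zero.mp (h z hzU)).resolve_left hz
    have hHc : ContinuousAt H z₀ := hH.continuousAt (hU.mem_nhds hz₀)
    have h1 : Tendsto H (𝓝[≠] z₀) (𝓝 (H z₀)) := hHc.tendsto.mono_left nhdsWithin_le_nhds
    have h2 : Tendsto H (𝓝[≠] z₀) (𝓝 0) := tendsto_const_nhds.congr' hEq.symm
    exact tendsto_nhds_unique h1 h2
  · exact (mul_eq_zero.mp (h z₀ hz₀)).resolve_left hDz₀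

/-- A continuous function on `ℍ` which is killed by a nonzero holomorphic function is zero. -/
theorem eq_zero_of_mul_eq_zero {D H : ℍ → ℂ} (hD : MDifferentiable 𝓘(ℂ) 𝓘(ℂ) D)
    (hD0 : ∃ τ : ℍ, D τ ≠ 0) (hH : Continuous H) (h : ∀ τ : ℍ, D τ * H τ = 0) : H = 0 := by
  have hU : IsOpen upperHalfPlaneSet := isOpen_upperHalfPlaneSet
  have hUc : IsPreconnected upperHalfPlaneSet := (convex_halfSpace_im_gt 0).isPreconnected
  have hD' := UpperHalfPlane.mdifferentiable_iff.mp hD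
  have hD0' : ∃ z ∈ upperHalfPlaneSet, (D ∘ ofComplex) z ≠ 0 := by
    obtain ⟨τ, hτ⟩ := hD0
    exact ⟨(τ : ℂ), τ.im_pos, by simpa [Function.comp_apply, ofComplex_apply] using hτ⟩
  have hH' : ContinuousOn (H ∘ ofComplex) upperHalfPlaneSet := by
    intro z hz
    have h1 : ContinuousAt ofComplex z :=
      (UpperHalfPlane.contMDiffAt_ofComplex (n := 0) hz).continuousAt
    exact ((hH.continuousAt).comp h1).continuousWithinAt
  have := eqOn_zero_of_mul_eq_zero hU hUc hD' hD0' hH' (fun z _ => h (ofComplex z))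
  funext τ
  have h2 := this (τ : ℂ) τ.im_pos
  simpa [Function.comp_apply, ofComplex_apply] using h2

/-- If `D * F = C` where `D` is `γ`-invariant of weight `w` and `C` is `γ`-invariant of weight
`w + k`, with `D` a nonzero holomorphic function and `F` holomorphic, then `F` is `γ`-invariant of
weight `k`. -/
theorem slash_eq_of_mul_eq {k w : ℤ} (γ : SL(2, ℤ)) {C D F : ℍ → ℂ}
    (hD : D ∣[w] γ = D) (hC : C ∣[w + k] γ = C) (hDF : D * F = C)
    (hDhol : MDifferentiable 𝓘(ℂ) 𝓘(ℂ) D) (hD0 : ∃ τ : ℍ, D τ ≠ 0)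
    (hF : MDifferentiable 𝓘(ℂ) 𝓘(ℂ) F) : F ∣[k] γ = F := by
  have h1 : D * (F ∣[k] γ) = D * F := by
    have := mul_slash_SL2 w k γ D F
    rw [hDF, hC, hD] at this
    rw [hDF, this]
  have hFs : MDifferentiable 𝓘(ℂ) 𝓘(ℂ) (F ∣[k] γ) := by
    rw [SL_slash]
    exact hF.slash k _
  have hcont : Continuous (F ∣[k] γ - F) := (hFs.continuous).sub hF.continuous
  have hz : F ∣[k] γ - F = 0 := by
    refine eq_zero_of_mul_eq_zero hDhol hD0 hcont fun τ => ?_
    have := congrFun h1 τ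
    simp only [Pi.mul_apply, Pi.sub_apply] at this ⊢
    rw [mul_sub, this, sub_self]
  exact sub_eq_zero.mp hz

/-- Slashing a root of a monic polynomial (with function coefficients, homogeneous weights)
by `γ ∈ SL(2, ℤ)` gives a root of the slashed polynomial. -/
theorem monic_root_slash {k : ℤ} (γ : SL(2, ℤ)) {F : ℍ → ℂ} {μ : ℕ} (a : Fin μ → ℍ → ℂ)
    (h : ∀ τ : ℍ, F τ ^ μ + ∑ j, a j τ * F τ ^ (j : ℕ) = 0) (τ : ℍ) :
    (F ∣[k] γ) τ ^ μ +
      ∑ j : Fin μ, (a j ∣[k * ((μ : ℤ) - (j : ℕ))] γ) τ * (F ∣[k] γ) τ ^ (j : ℕ) = 0 := by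
  set d : ℂ := denom (Matrix.SpecialLinearGroup.toGL
    ((Matrix.SpecialLinearGroup.map (Int.castRingHom ℝ)) γ)) (τ : ℂ) with hd
  have hd0 : d ≠ 0 := denom_ne_zero _ τ
  have hmain : (F ∣[k] γ) τ ^ μ +
      ∑ j : Fin μ, (a j ∣[k * ((μ : ℤ) - (j : ℕ))] γ) τ * (F ∣[k] γ) τ ^ (j : ℕ) =
      d ^ (-(k * μ)) * (F (γ • τ) ^ μ + ∑ j, a j (γ • τ) * F (γ • τ) ^ (j : ℕ)) := by
    rw [mul_add, Finset.mul_sum]
    congr 1
    · rw [SL_slash_apply, ← hd, mul_pow, ← zpow_natCast (d ^ (-k)) μ, ← zpow_mul, mul_comm,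
        neg_mul]
    · refine Finset.sum_congr rfl fun j _ => ?_
      rw [SL_slash_apply, SL_slash_apply, ← hd, mul_pow, ← zpow_natCast (d ^ (-k)) (j : ℕ),
        ← zpow_mul]
      have e1 : d ^ (-(k * (μ : ℤ))) =
          d ^ (-(k * ((μ : ℤ) - ((j : ℕ) : ℤ)))) * d ^ (-k * ((j : ℕ) : ℤ)) := by
        rw [← zpow_add₀ hd0]
        congr 1
        ring
      rw [e1]
      ring
  rw [hmain, h (γ • τ), mul_zero]

/-- A root of a monic polynomial whose lower coefficients are bounded at `i∞` is bounded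
at `i∞`. -/
theorem isBoundedAtImInfty_of_monic_root {F : ℍ → ℂ} {μ : ℕ} (a : Fin μ → ℍ → ℂ)
    (ha : ∀ j, IsBoundedAtImInfty (a j))
    (h : ∀ τ : ℍ, F τ ^ μ + ∑ j, a j τ * F τ ^ (j : ℕ) = 0) : IsBoundedAtImInfty F := by
  rw [isBoundedAtImInfty_iff]
  have ha' : ∀ j, ∃ M A, ∀ z : ℍ, A ≤ z.im → ‖a j z‖ ≤ M := fun j =>
    isBoundedAtImInfty_iff.mp (ha j)
  choose M A hMA using ha'
  refine ⟨max 1 (∑ j, M j), (Finset.univ.sup' ⟨(0 : Fin (μ + 1)), Finset.mem_univ _⟩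
    (fun i : Fin (μ + 1) => if hi : (i : ℕ) < μ then A ⟨i, hi⟩ else 0)), fun z hz => ?_⟩
  refine (norm_le_of_monic_root (fun j => a j z) (F z) (h z)).trans (max_le_max le_rfl ?_)
  refine Finset.sum_le_sum fun j _ => hMA j z (le_trans ?_ hz)
  have := Finset.le_sup' (fun i : Fin (μ + 1) => if hi : (i : ℕ) < μ then A ⟨i, hi⟩ else 0)
    (Finset.mem_univ (⟨j, Nat.lt_succ_of_lt j.isLt⟩ : Fin (μ + 1)))
  simpa using this

/-- A root of a monic polynomial whose lower coefficients vanish at `i∞` vanishes at `i∞`. -/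
theorem isZeroAtImInfty_of_monic_root {F : ℍ → ℂ} {μ : ℕ} (a : Fin μ → ℍ → ℂ)
    (ha : ∀ j, IsZeroAtImInfty (a j))
    (h : ∀ τ : ℍ, F τ ^ μ + ∑ j, a j τ * F τ ^ (j : ℕ) = 0) : IsZeroAtImInfty F :=
  tendsto_zero_of_monic_root (l := atImInfty) a F ha (Filter.Eventually.of_forall h)

/-- Bounded at `i∞` for all `SL(2, ℤ)`-translates: if `F` is a root of a monic polynomial whose
coefficient `a j` is `SL(2, ℤ)`-invariant of weight `k * (μ - j)` and bounded at `i∞`, then every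
translate `F ∣[k] γ` is bounded at `i∞`. -/
theorem isBoundedAtImInfty_slash_of_monic_root {k : ℤ} {F : ℍ → ℂ} {μ : ℕ} (a : Fin μ → ℍ → ℂ)
    (hinv : ∀ (j : Fin μ) (γ : SL(2, ℤ)), a j ∣[k * ((μ : ℤ) - (j : ℕ))] γ = a j)
    (ha : ∀ j, IsBoundedAtImInfty (a j))
    (h : ∀ τ : ℍ, F τ ^ μ + ∑ j, a j τ * F τ ^ (j : ℕ) = 0) (γ : SL(2, ℤ)) :
    IsBoundedAtImInfty (F ∣[k] γ) := by
  refine isBoundedAtImInfty_of_monic_root a ha fun τ => ?_
  have := monic_root_slash (k := k) γ a h τ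
  simpa only [hinv] using this

/-- Zero at `i∞` for all `SL(2, ℤ)`-translates. -/
theorem isZeroAtImInfty_slash_of_monic_root {k : ℤ} {F : ℍ → ℂ} {μ : ℕ} (a : Fin μ → ℍ → ℂ)
    (hinv : ∀ (j : Fin μ) (γ : SL(2, ℤ)), a j ∣[k * ((μ : ℤ) - (j : ℕ))] γ = a j)
    (ha : ∀ j, IsZeroAtImInfty (a j))
    (h : ∀ τ : ℍ, F τ ^ μ + ∑ j, a j τ * F τ ^ (j : ℕ) = 0) (γ : SL(2, ℤ)) :
    IsZeroAtImInfty (F ∣[k] γ) := by
  refine isZeroAtImInfty_of_monic_root a ha fun τ => ?_
  have := monic_root_slash (k := k) γ a h τ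
  simpa only [hinv] using this

end Fermat.Agent.S23.QS
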