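import Mathlib
import Fermat.Agent.S23.Defs
import Fermat.Agent.S23.QuotientSlash

set_option autoImplicit false

/-!
# S23 project, package P5-construct

Converse of the structure theorem: from level one data `D, c_m, a_l` satisfying the integrality
identity, build the cusp form `F = D⁻¹ ∑ c_m t_N^m` on `Γ₀(N)`.
-/

open UpperHalfPlane ModularForm CongruenceSubgroup
open scoped MatrixGroups ModularForm Manifold

namespace Fermat.Agent.S23.Construct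

open Fermat.Agent.S23

/-- slash of a power by an element of `SL(2, ℤ)` -/
lemma pow_slash_SL2 (k : ℤ) (γ : SL(2, ℤ)) (t : ℍ → ℂ) (m : ℕ) :
    (t ^ m) ∣[k * (m : ℤ)] γ = (t ∣[k] γ) ^ m := by
  induction m with
  | zero =>
    simp only [pow_zero, Nat.cast_zero, mul_zero]
    ext τ
    rw [SL_slash_apply]
    simp
  | succ m ih =>
    have e : k * ((m + 1 : ℕ) : ℤ) = k * (m : ℤ) + k := by push_cast; ring
    rw [pow_succ, pow_succ, e, mul_slash_SL2, ih]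

/-- Slash invariance of `τ ↦ ∑ c_m(τ) t(τ)^m`. -/
lemma sum_slash_eq {μ : ℕ} (w : ℤ) (γ : SL(2, ℤ)) (t : ℍ → ℂ) (c : Fin μ → ℍ → ℂ)
    (ht : t ∣[(12 : ℤ)] γ = t) (hc : ∀ m : Fin μ, c m ∣[w - 12 * (m : ℕ)] γ = c m) :
    (fun τ => ∑ m : Fin μ, c m τ * t τ ^ (m : ℕ)) ∣[w] γ =
      fun τ => ∑ m : Fin μ, c m τ * t τ ^ (m : ℕ) := by
  have h1 : (fun τ => ∑ m : Fin μ, c m τ * t τ ^ (m : ℕ)) =
      ∑ m : Fin μ, c m * t ^ (m : ℕ) := by
    ext τ
    simp [Finset.sum_apply]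
  rw [h1]
  have h2 : ∀ (s : Finset (Fin μ)),
      (∑ m ∈ s, c m * t ^ (m : ℕ)) ∣[w] γ = ∑ m ∈ s, c m * t ^ (m : ℕ) := by
    intro s
    induction s using Finset.induction_on with
    | empty => simp
    | insert i s hi ih =>
      rw [Finset.sum_insert hi, SlashAction.add_slash, ih]
      congr 1
      have e : w = (w - 12 * ((i : ℕ) : ℤ)) + 12 * ((i : ℕ) : ℤ) := by ring
      rw [e, mul_slash_SL2, pow_slash_SL2, ht, hc i]
  exact h2 Finset.univ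

lemma isMF_slash_SL {w : ℤ} {g : ℍ → ℂ} (h : IsMF 𝒮ℒ w g) (γ : SL(2, ℤ)) : g ∣[w] γ = g := by
  obtain ⟨G, rfl⟩ := h
  exact SlashInvariantForm.slash_action_eqn G (Matrix.SpecialLinearGroup.mapGL ℝ γ) ⟨γ, rfl⟩

lemma isCF_slash_SL {w : ℤ} {g : ℍ → ℂ} (h : IsCF 𝒮ℒ w g) (γ : SL(2, ℤ)) : g ∣[w] γ = g := by
  obtain ⟨G, rfl⟩ := h
  exact SlashInvariantForm.slash_action_eqn G (Matrix.SpecialLinearGroup.mapGL ℝ γ) ⟨γ, rfl⟩

lemma isMF_slash_Gamma0 {N : ℕ} {w : ℤ} {g : ℍ → ℂ} (h : IsMF (Gamma0 N) w g) (γ : SL(2, ℤ))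
    (hγ : γ ∈ Gamma0 N) : g ∣[w] γ = g := by
  obtain ⟨G, rfl⟩ := h
  exact SlashInvariantForm.slash_action_eqn G (Matrix.SpecialLinearGroup.mapGL ℝ γ) ⟨γ, hγ, rfl⟩

lemma isMF_mdiff {Γ : Subgroup (GL (Fin 2) ℝ)} {w : ℤ} {g : ℍ → ℂ} (h : IsMF Γ w g) :
    MDiff g := by
  obtain ⟨G, rfl⟩ := h
  exact G.holo'

lemma isCF_mdiff {Γ : Subgroup (GL (Fin 2) ℝ)} {w : ℤ} {g : ℍ → ℂ} (h : IsCF Γ w g) :
    MDiff g := by
  obtain ⟨G, rfl⟩ := h
  exact G.holo'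

lemma isCF_isZeroAtImInfty {w : ℤ} {g : ℍ → ℂ} (h : IsCF 𝒮ℒ w g) : IsZeroAtImInfty g := by
  obtain ⟨G, rfl⟩ := h
  have h1 := G.zero_at_cusps' (c := OnePoint.infty)
    (by rw [Subgroup.IsArithmetic.isCusp_iff_isCusp_SL2Z]; exact isCusp_SL2Z_iff'.mpr ⟨1, by simp⟩)
  exact OnePoint.isZeroAt_infty_iff.mp h1

/-- Dehomogenising the integrality relation. -/
lemma div_root_of_homogeneous_root {μ : ℕ} (g d : ℂ) (hd : d ≠ 0) (a : Fin μ → ℂ)
    (h : g ^ μ + ∑ l : Fin μ, a l * g ^ (l : ℕ) * d ^ (μ - l) = 0) :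
    (g / d) ^ μ + ∑ j : Fin μ, a j * (g / d) ^ (j : ℕ) = 0 := by
  have h2 : (g / d) ^ μ + ∑ j : Fin μ, a j * (g / d) ^ (j : ℕ) =
      (g ^ μ + ∑ l : Fin μ, a l * g ^ (l : ℕ) * d ^ (μ - l)) / d ^ μ := by
    rw [add_div, Finset.sum_div, div_pow]
    congr 1
    refine Finset.sum_congr rfl fun l _ => ?_
    have hl : d ^ μ = d ^ (l : ℕ) * d ^ (μ - l) := by
      rw [← pow_add]
      congr 1
      have := l.isLt
      omega
    rw [hl, div_pow]
    have hne1 : d ^ (l : ℕ) ≠ 0 := pow_ne_zero _ hd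
    have hne2 : d ^ (μ - l) ≠ 0 := pow_ne_zero _ hd
    field_simp
  rw [h2, h, zero_div]

/-- **P5-construct.** Converse of the structure theorem: from level one data `D, c_m, a_l`
satisfying the integrality identity, the quotient `D⁻¹ ∑ c_m t_N^m` is a cusp form on `Γ₀(N)`. -/
theorem construct (N : ℕ) [NeZero N] (k : ℤ) (μ : ℕ) (wD : ℤ) (D : ℍ → ℂ) (c a : Fin μ → ℍ → ℂ)
    (ht : IsMF (Gamma0 N) 12 (tN N))
    (_hμ : 0 < μ) (hD : IsMF 𝒮ℒ wD D) (hD0 : D ≠ 0)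
    (hc : ∀ m : Fin μ, IsMF 𝒮ℒ (wD + k - 12 * (m : ℕ)) (c m))
    (ha : ∀ l : Fin μ, IsCF 𝒮ℒ (k * ((μ : ℤ) - (l : ℕ))) (a l))
    (hint : ∀ τ, (∑ m : Fin μ, c m τ * tN N τ ^ (m : ℕ)) ^ μ +
      ∑ l : Fin μ, a l τ * (∑ m : Fin μ, c m τ * tN N τ ^ (m : ℕ)) ^ (l : ℕ) * D τ ^ (μ - l) = 0) :
    ∃ F : CuspForm (Gamma0 N) k, ∀ τ, D τ * F τ = ∑ m : Fin μ, c m τ * tN N τ ^ (m : ℕ) := by
  -- the numerator
  set G : ℍ → ℂ := fun τ => ∑ m : Fin μ, c m τ * tN N τ ^ (m : ℕ) with hG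
  have hGm : MDiff G := by
    have h1 : G = ∑ m : Fin μ, c m * tN N ^ (m : ℕ) := by
      ext τ; simp [hG, Finset.sum_apply]
    rw [h1]
    refine MDifferentiable.sum fun m _ => ?_
    exact (isMF_mdiff (hc m)).mul ((isMF_mdiff ht).pow _)
  have hDm : MDiff D := isMF_mdiff hD
  have hac : ∀ l, Continuous (a l) := fun l => (isCF_mdiff (ha l)).continuous
  have hD0' : ∃ τ : ℍ, D τ ≠ 0 := by
    by_contra hcon
    push Not at hcon
    exact hD0 (funext hcon)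
  obtain ⟨F, hFm, hDF⟩ := IQ.exists_mdifferentiable_mul_eq hGm hDm hD0' a hac
    (fun τ hτ => div_root_of_homogeneous_root (G τ) (D τ) hτ (fun l => a l τ) (hint τ))
  -- `F` is a root of the monic polynomial
  have hroot : ∀ τ : ℍ, F τ ^ μ + ∑ l, a l τ * F τ ^ (l : ℕ) = 0 := by
    have hcont : Continuous fun τ => F τ ^ μ + ∑ l, a l τ * F τ ^ (l : ℕ) := by
      refine (hFm.continuous.pow μ).add (continuous_finsetSum _ fun l _ => ?_)
      exact (hac l).mul (hFm.continuous.pow _)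
    have hz := QS.eq_zero_of_mul_eq_zero (D := D ^ μ) (hDm.pow μ)
      (by obtain ⟨τ, hτ⟩ := hD0'; exact ⟨τ, by simpa using pow_ne_zero μ hτ⟩) hcont (fun τ => by
        have h1 : G τ ^ μ + ∑ l : Fin μ, a l τ * G τ ^ (l : ℕ) * D τ ^ (μ - l) = 0 := hint τ
        rw [← hDF τ] at h1
        rw [Pi.pow_apply, mul_add, Finset.mul_sum]
        rw [← h1]
        congr 1
        · ring
        · refine Finset.sum_congr rfl fun l _ => ?_
          have hl : D τ ^ μ = D τ ^ (l : ℕ) * D τ ^ (μ - l) := by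
            rw [← pow_add]
            congr 1
            have := l.isLt
            omega
          rw [hl]
          ring)
    intro τ
    exact congrFun hz τ
  -- slash invariance
  have hslash : ∀ γ : SL(2, ℤ), γ ∈ Gamma0 N → F ∣[k] γ = F := by
    intro γ hγ
    refine QS.slash_eq_of_mul_eq (w := wD) γ (isMF_slash_SL hD γ) ?_ (funext hDF) hDm hD0' hFm
    have e : ∀ m : Fin μ, wD + k - 12 * ((m : ℕ) : ℤ) = (wD + k) - 12 * ((m : ℕ) : ℤ) := fun m => rfl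
    exact sum_slash_eq (wD + k) γ (tN N) c (isMF_slash_Gamma0 ht γ hγ) (fun m => isMF_slash_SL (hc m) γ)
  refine ⟨{ toFun := F
            slash_action_eq' := ?_
            holo' := hFm
            zero_at_cusps' := ?_ }, fun τ => hDF τ⟩
  · rintro _ ⟨γ, hγ, rfl⟩
    exact hslash γ hγ
  · intro cusp hcusp
    rw [Subgroup.IsArithmetic.isCusp_iff_isCusp_SL2Z] at hcusp
    rw [OnePoint.isZeroAt_iff_forall_SL2Z hcusp]
    intro γ _
    exact QS.isZeroAtImInfty_slash_of_monic_root a (fun j γ' => isCF_slash_SL (ha j) γ')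
      (fun j => isCF_isZeroAtImInfty (ha j)) hroot γ

end Fermat.Agent.S23.Construct
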