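import Mathlib
import Fermat.Agent.S23.Conj
import Fermat.Agent.S23.Construct

set_option autoImplicit false

/-!
# S23 project: `ConstructThm N k` (the Prop-def of `Conj.lean`) from `Construct.construct`.
-/

open UpperHalfPlane ModularForm CongruenceSubgroup
open scoped MatrixGroups ModularForm Manifold

namespace Fermat.Agent.S23.Construct

open Fermat.Agent.S23

theorem constructThm (N : ℕ) [NeZero N] (k : ℤ) (ht : IsMF (Gamma0 N) 12 (tN N)) :
    ConstructThm N k :=
  fun μ wD D c a hμ hD hD0 hc ha hint => construct N k μ wD D c a ht hμ hD hD0 hc ha hint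

end Fermat.Agent.S23.Construct
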