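import Mathlib

/-!
# Elementary symmetric functions of the conjugates of a modular form (package P3 of the S23 plan)

Given subgroups `𝒢, ℋ` of `GL(2, ℝ)` with `𝒢 ⊓ ℋ` of finite index in `ℋ`, and a modular form `f`
of level `𝒢` and weight `k`, Mathlib defines the `ℋ`-conjugates `quotientFunc f q`
(`q : ℋ ⧸ 𝒢.subgroupOf ℋ`), their sum (`ModularForm.trace`) and product (`ModularForm.norm`).
Here we define all elementary symmetric functions of the conjugates as modular forms for `ℋ`.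
-/

open UpperHalfPlane SlashInvariantForm

open scoped ModularForm Topology Filter Manifold MatrixGroups

noncomputable section

namespace Fermat.Agent.S23.Esymm

set_option linter.unusedSectionVars false

variable {𝒢 ℋ : Subgroup (GL (Fin 2) ℝ)} {F : Type*} (f : F) [FunLike F ℍ ℂ] {k : ℤ}

local notation "𝒬" => ℋ ⧸ (𝒢.subgroupOf ℋ)

section SIF

variable [SlashInvariantFormClass F 𝒢 k] (ℋ) [𝒢.IsFiniteRelIndex ℋ]

/-- The `m`-th elementary symmetric function of the `ℋ`-conjugates of `f`, as a function. -/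
def esymmFun (m : ℕ) : ℍ → ℂ :=
  let := Fintype.ofFinite 𝒬
  ∑ s ∈ (Finset.univ : Finset 𝒬).powersetCard m, ∏ q ∈ s, quotientFunc f q

lemma esymmFun_slash [ℋ.HasDetPlusMinusOne] (m : ℕ) {h : GL (Fin 2) ℝ} (hh : h ∈ ℋ) :
    esymmFun ℋ f m ∣[k * m] h = esymmFun ℋ f m := by
  let := Fintype.ofFinite 𝒬
  have key : ∀ s ∈ (Finset.univ : Finset 𝒬).powersetCard m,
      (∏ q ∈ s, quotientFunc f q) ∣[k * m] h =
        ∏ q ∈ s.map (MulAction.toPerm (⟨h, hh⟩ : ℋ)⁻¹).toEmbedding, quotientFunc f q := by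
    intro s hs
    have hc : s.card = m := (Finset.mem_powersetCard.mp hs).2
    rw [← hc, ModularForm.prod_slash, Subgroup.HasDetPlusMinusOne.abs_det hh, one_zpow, one_smul,
      Finset.prod_map]
    refine Finset.prod_congr rfl fun q _ => ?_
    rw [quotientFunc_smul f hh]
    rfl
  unfold esymmFun
  rw [SlashAction.sum_slash, Finset.sum_congr rfl key]
  refine Finset.sum_equiv (MulAction.toPerm (⟨h, hh⟩ : ℋ)⁻¹).finsetCongr ?_ ?_
  · intro s
    simp [Finset.mem_powersetCard]
  · intro s _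
    rfl

/-- The `m`-th elementary symmetric function of the conjugates, as a slash-invariant form. -/
def esymmSIF [ℋ.HasDetPlusMinusOne] (m : ℕ) : SlashInvariantForm ℋ (k * m) where
  toFun := esymmFun ℋ f m
  slash_action_eq' _ hh := esymmFun_slash ℋ f m hh

@[simp] lemma coe_esymmSIF [ℋ.HasDetPlusMinusOne] (m : ℕ) :
    ⇑(esymmSIF ℋ f m) = esymmFun ℋ f m := rfl

end SIF

section MF

variable (ℋ) [𝒢.IsFiniteRelIndex ℋ] [ℋ.HasDetPlusMinusOne]

lemma mdifferentiable_quotientFunc [ModularFormClass F 𝒢 k] (q : 𝒬) :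
    MDiff (quotientFunc f q) := by
  induction q using Quotient.inductionOn with
  | h r => exact (ModularForm.translate f r.val⁻¹).holo'

lemma mdifferentiable_esymmFun [ModularFormClass F 𝒢 k] (m : ℕ) : MDiff (esymmFun ℋ f m) := by
  unfold esymmFun
  exact .sum fun s _ => .prod fun q _ => mdifferentiable_quotientFunc ℋ f q

lemma isBoundedAtImInfty_quotientFunc_slash [ModularFormClass F 𝒢 k] (q : 𝒬)
    (γ : GL (Fin 2) ℝ) (h : IsCusp (γ • OnePoint.infty) ℋ) :
    IsBoundedAtImInfty (quotientFunc f q ∣[k] γ) := by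
  induction q using Quotient.inductionOn with
  | h r =>
    refine (ModularForm.translate f r.val⁻¹).bdd_at_cusps' ?_ γ rfl
    simpa using h.of_isFiniteRelIndex_conj r.2

lemma isBoundedAtImInfty_esymmFun_slash [ModularFormClass F 𝒢 k] (m : ℕ)
    (γ : GL (Fin 2) ℝ) (h : IsCusp (γ • OnePoint.infty) ℋ) :
    IsBoundedAtImInfty (esymmFun ℋ f m ∣[k * m] γ) := by
  let := Fintype.ofFinite 𝒬
  unfold esymmFun
  rw [SlashAction.sum_slash, IsBoundedAtImInfty, Filter.BoundedAtFilter]
  refine Asymptotics.IsBigO.sum fun s hs => ?_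
  have hc : s.card = m := (Finset.mem_powersetCard.mp hs).2
  rw [← hc, ModularForm.prod_slash]
  apply Asymptotics.IsBigO.const_smul_left
  rw [show (1 : ℍ → ℝ) = (fun x ↦ ∏ i ∈ s, (1 : ℝ)) by ext; simp, Finset.prod_fn]
  exact .finsetProd fun q _ => isBoundedAtImInfty_quotientFunc_slash ℋ f q γ h

/-- The `m`-th elementary symmetric function of the conjugates, as a modular form. -/
def esymmForm [ModularFormClass F 𝒢 k] (m : ℕ) : ModularForm ℋ (k * m) where
  __ := esymmSIF ℋ f m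
  holo' := mdifferentiable_esymmFun ℋ f m
  bdd_at_cusps' h γ := by
    rintro rfl
    exact isBoundedAtImInfty_esymmFun_slash ℋ f m γ h

@[simp] lemma coe_esymmForm [ModularFormClass F 𝒢 k] (m : ℕ) :
    ⇑(esymmForm ℋ f m) = esymmFun ℋ f m := rfl

lemma isZeroAtImInfty_quotientFunc_slash [CuspFormClass F 𝒢 k] (q : 𝒬)
    (γ : GL (Fin 2) ℝ) (h : IsCusp (γ • OnePoint.infty) ℋ) :
    IsZeroAtImInfty (quotientFunc f q ∣[k] γ) := by
  induction q using Quotient.inductionOn with
  | h r =>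
    refine (CuspForm.translate f r.val⁻¹).zero_at_cusps' ?_ γ rfl
    simpa using h.of_isFiniteRelIndex_conj r.2

lemma isZeroAtImInfty_esymmFun_slash [CuspFormClass F 𝒢 k] {m : ℕ} (hm : m ≠ 0)
    (γ : GL (Fin 2) ℝ) (h : IsCusp (γ • OnePoint.infty) ℋ) :
    IsZeroAtImInfty (esymmFun ℋ f m ∣[k * m] γ) := by
  let := Fintype.ofFinite 𝒬
  unfold esymmFun
  rw [SlashAction.sum_slash, IsZeroAtImInfty, Filter.ZeroAtFilter, Finset.sum_fn,
    show (0 : ℂ) = ∑ _s ∈ (Finset.univ : Finset 𝒬).powersetCard m, (0 : ℂ) by simp]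
  refine tendsto_finsetSum _ fun s hs => ?_
  have hc : s.card = m := (Finset.mem_powersetCard.mp hs).2
  rw [← hc, ModularForm.prod_slash]
  have h0 : Filter.Tendsto (fun τ => ∏ q ∈ s, (quotientFunc f q ∣[k] γ) τ) atImInfty
      (𝓝 (∏ _q ∈ s, (0 : ℂ))) :=
    tendsto_finsetProd _ fun q _ => isZeroAtImInfty_quotientFunc_slash ℋ f q γ h
  rw [Finset.prod_const, hc, zero_pow hm] at h0
  have h1 := h0.const_smul (|γ.det.val| ^ ((s.card : ℤ) - 1))
  rw [smul_zero] at h1
  refine h1.congr fun τ => ?_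
  simp [Finset.prod_apply]

/-- For `m ≠ 0`, the `m`-th elementary symmetric function of the conjugates of a cusp form,
as a cusp form. -/
def esymmCuspForm [CuspFormClass F 𝒢 k] {m : ℕ} (hm : m ≠ 0) : CuspForm ℋ (k * m) where
  __ := esymmSIF ℋ f m
  holo' := mdifferentiable_esymmFun ℋ f m
  zero_at_cusps' h γ := by
    rintro rfl
    exact isZeroAtImInfty_esymmFun_slash ℋ f hm γ h

@[simp] lemma coe_esymmCuspForm [CuspFormClass F 𝒢 k] {m : ℕ} (hm : m ≠ 0) :
    ⇑(esymmCuspForm ℋ f hm) = esymmFun ℋ f m := rfl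

end MF

section Vieta

open Polynomial

variable [SlashInvariantFormClass F 𝒢 k] (ℋ) [𝒢.IsFiniteRelIndex ℋ]

@[simp] lemma esymmFun_zero : esymmFun ℋ f 0 = 1 := by
  simp [esymmFun]

lemma esymmFun_apply_eq_esymm [Fintype 𝒬] (m : ℕ) (τ : ℍ) :
    esymmFun ℋ f m τ =
      ((Finset.univ : Finset 𝒬).val.map fun q => quotientFunc f q τ).esymm m := by
  obtain rfl : ‹Fintype 𝒬› = Fintype.ofFinite 𝒬 := Subsingleton.elim _ _
  rw [Finset.esymm_map_val]
  simp [esymmFun, Finset.sum_apply, Finset.prod_apply]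

/-- Vieta: the polynomial with roots the conjugates of `f` at `τ` has coefficients the
elementary symmetric functions. -/
theorem prod_X_sub_C_quotientFunc [Fintype 𝒬] (τ : ℍ) :
    ∏ q : 𝒬, (X - C (quotientFunc f q τ)) =
      ∑ j ∈ Finset.range (Nat.card 𝒬 + 1),
        (-1) ^ j * (C (esymmFun ℋ f j τ) * X ^ (Nat.card 𝒬 - j)) := by
  have h := Multiset.prod_X_sub_X_eq_sum_esymm
    ((Finset.univ : Finset 𝒬).val.map fun q => quotientFunc f q τ)
  rw [Multiset.map_map, Multiset.card_map] at h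
  simp only [Function.comp_def, Finset.card_val, Finset.card_univ, ← Nat.card_eq_fintype_card] at h
  rw [Finset.prod_eq_multiset_prod, h]
  refine Finset.sum_congr rfl fun j _ => ?_
  rw [esymmFun_apply_eq_esymm]

/-- Every conjugate of `f` is a root of the monic polynomial whose coefficients are the
elementary symmetric functions of the conjugates. -/
theorem sum_esymmFun_mul_quotientFunc_pow (q : 𝒬) (τ : ℍ) :
    ∑ j ∈ Finset.range (Nat.card 𝒬 + 1),
      (-1) ^ j * esymmFun ℋ f j τ * quotientFunc f q τ ^ (Nat.card 𝒬 - j) = 0 := by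
  let := Fintype.ofFinite 𝒬
  have h := congrArg (Polynomial.eval (quotientFunc f q τ)) (prod_X_sub_C_quotientFunc ℋ f τ)
  rw [Polynomial.eval_prod, Finset.prod_eq_zero (Finset.mem_univ q) (by simp),
    Polynomial.eval_finsetSum] at h
  rw [h]
  refine Finset.sum_congr rfl fun j _ => ?_
  simp [mul_assoc]

/-- `f` is a root of the monic polynomial whose coefficients are the
elementary symmetric functions of its conjugates. -/
theorem sum_esymmFun_mul_pow (τ : ℍ) :
    ∑ j ∈ Finset.range (Nat.card 𝒬 + 1),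
      (-1) ^ j * esymmFun ℋ f j τ * f τ ^ (Nat.card 𝒬 - j) = 0 := by
  have h := sum_esymmFun_mul_quotientFunc_pow ℋ f ⟦1⟧ τ
  simpa using h

end Vieta

section Gamma0

open CongruenceSubgroup

/-- Specialisation check: conjugates of level `Γ₀(N)` forms under `SL(2, ℤ)`. -/
example (N : ℕ) [NeZero N] (k : ℤ) (f : CuspForm (Gamma0 N) k) (m : ℕ) :
    ModularForm 𝒮ℒ (k * m) := esymmForm 𝒮ℒ f m

example (N : ℕ) [NeZero N] (k : ℤ) (f : CuspForm (Gamma0 N) k) {m : ℕ} (hm : m ≠ 0) :
    CuspForm 𝒮ℒ (k * m) := esymmCuspForm 𝒮ℒ f hm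

end Gamma0

end Fermat.Agent.S23.Esymm
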