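import Mathlib
import Fermat.Statements.S23
import Fermat.Agent.S23.Defs
import Fermat.Agent.S23.Esymm

/-!
# S23 project, P3b: the monic-polynomial half of `StructureThm`

Every cusp form `f` on `Γ₀(N)` is a root of a monic polynomial of degree `μ = [SL(2,ℤ) : Γ₀(N)]`
whose lower coefficients are level-one cusp forms (signed elementary symmetric functions of the
`SL(2,ℤ)`-conjugates of `f`).
-/

set_option autoImplicit false

open UpperHalfPlane ModularForm CongruenceSubgroup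
open scoped MatrixGroups ModularForm Manifold

noncomputable section

namespace Fermat.Agent.S23.EsymmStructure

open Fermat.Agent.S23 Fermat.Agent.S23.Esymm

/-- Transport `IsCF` along an equality of weights. -/
lemma isCF_of_weight_eq {Γ : Subgroup (GL (Fin 2) ℝ)} {k k' : ℤ} (h : k = k') {g : ℍ → ℂ}
    (hg : IsCF Γ k g) : IsCF Γ k' g := by
  subst h
  exact hg

/-- Transport `IsMF` along an equality of weights. -/
lemma isMF_of_weight_eq {Γ : Subgroup (GL (Fin 2) ℝ)} {k k' : ℤ} (h : k = k') {g : ℍ → ℂ}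
    (hg : IsMF Γ k g) : IsMF Γ k' g := by
  subst h
  exact hg

/-- The index `μ = [SL(2,ℤ) : Γ₀(N)]`, as the cardinality of the coset space used by Mathlib's
`ModularForm.trace` / `ModularForm.norm`. -/
abbrev mu (N : ℕ) : ℕ :=
  Nat.card (𝒮ℒ ⧸ ((Gamma0 N : Subgroup (GL (Fin 2) ℝ)).subgroupOf 𝒮ℒ))

lemma mu_pos (N : ℕ) [NeZero N] : 0 < mu N := by
  unfold mu
  exact Nat.card_pos

/-- The monic-polynomial half of `StructureThm`, with `μ = mu N`. -/
theorem monic_half (N : ℕ) [NeZero N] (k : ℤ) (f : CuspForm (Gamma0 N) k) :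
    ∃ a : Fin (mu N) → ℍ → ℂ,
      (∀ l : Fin (mu N), IsCF 𝒮ℒ (k * ((mu N : ℤ) - (l : ℕ))) (a l)) ∧
      (∀ τ, f τ ^ mu N + ∑ l : Fin (mu N), a l τ * f τ ^ (l : ℕ) = 0) := by
  refine ⟨fun l τ => (-1) ^ (mu N - (l : ℕ)) * esymmFun 𝒮ℒ f (mu N - (l : ℕ)) τ, ?_, ?_⟩
  · intro l
    have hm : mu N - (l : ℕ) ≠ 0 := Nat.sub_ne_zero_of_lt l.2
    have hw : k * ((mu N - (l : ℕ) : ℕ) : ℤ) = k * ((mu N : ℤ) - (l : ℕ)) := by
      rw [Nat.cast_sub l.2.le]
    refine isCF_of_weight_eq hw ?_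
    refine ⟨((-1 : ℂ) ^ (mu N - (l : ℕ))) • esymmCuspForm 𝒮ℒ f hm, ?_⟩
    ext τ
    simp
  · intro τ
    have h := sum_esymmFun_mul_pow 𝒮ℒ f τ
    change ∑ j ∈ Finset.range (mu N + 1),
      (-1) ^ j * esymmFun 𝒮ℒ f j τ * f τ ^ (mu N - j) = 0 at h
    rw [Finset.sum_range_succ', ← Finset.sum_range_reflect] at h
    simp only [esymmFun_zero, pow_zero, Pi.one_apply, one_mul, Nat.sub_zero] at h
    rw [add_comm] at h
    rw [← h, Fin.sum_univ_eq_sum_range
      (fun l => (-1) ^ (mu N - l) * esymmFun 𝒮ℒ f (mu N - l) τ * f τ ^ l) (mu N)]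
    congr 1
    refine Finset.sum_congr rfl fun l hl => ?_
    have hl' : l < mu N := Finset.mem_range.mp hl
    have e1 : mu N - 1 - l + 1 = mu N - l := by omega
    have e2 : mu N - (mu N - l) = l := by omega
    rw [e1, e2]

end Fermat.Agent.S23.EsymmStructure
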