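/-
S23 / package P4 (helper47): trace interpolation.

For `f ∈ M_k(𝒢)`, `t ∈ M_kt(𝒢)` with pairwise distinct `SL(2,ℤ)`-conjugates, there are level-one
modular forms `D ≠ 0`, `c_m` with `D * f = ∑_m c_m * t^m`, where
`D = det (Tr t^(m+l))` and `c_m = ∑_l adj(A)_{m l} Tr(t^l f)`.
Main results: `exists_interpolation` (function identity and `q`-expansion identity),
`exists_interpolation_fun`, `injective_quotientFunc_of_stabilizer`, `totalWeight_eq`.
-/
import Mathlib

set_option autoImplicit false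
set_option linter.unusedSectionVars false
set_option linter.style.haveILetI false

open UpperHalfPlane Matrix

open scoped ModularForm MatrixGroups Manifold

namespace Fermat.Agent.S23.Interp

section PureAlgebra

variable {R : Type*} [CommRing R] {n : ℕ}

/-- Core linear-algebra identity: `V * adj(Vᵀ V) * Vᵀ = det(V)^2`. -/
theorem mul_adjugate_transpose_mul_mul_transpose (V : Matrix (Fin n) (Fin n) R) :
    V * adjugate (Vᵀ * V) * Vᵀ = (V.det ^ 2) • (1 : Matrix (Fin n) (Fin n) R) := by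
  rw [adjugate_mul_distrib, ← Matrix.mul_assoc, mul_adjugate, Matrix.mul_assoc,
    adjugate_mul, det_transpose]
  simp [sq, smul_smul]

/-- Interpolation identity: with `A = Vᵀ V` (power sums), `b = Vᵀ y`, `c = adj(A) b` we have
`V c = det(V)^2 y`. -/
theorem vandermonde_interpolation (x y : Fin n → R) (i₀ : Fin n) :
    ∑ m : Fin n,
        (∑ l : Fin n, adjugate ((vandermonde x)ᵀ * vandermonde x) m l *
          ∑ i : Fin n, x i ^ (l : ℕ) * y i) * x i₀ ^ (m : ℕ) =
      ((vandermonde x)ᵀ * vandermonde x).det * y i₀ := by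
  have h := mul_adjugate_transpose_mul_mul_transpose (vandermonde x)
  have h2 : ((vandermonde x * adjugate ((vandermonde x)ᵀ * vandermonde x) * (vandermonde x)ᵀ) *ᵥ y) i₀
      = ((vandermonde x).det ^ 2) * y i₀ := by
    rw [h, Matrix.smul_mulVec, Matrix.one_mulVec, Pi.smul_apply, smul_eq_mul]
  rw [det_mul, det_transpose, ← sq, ← h2, ← Matrix.mulVec_mulVec, ← Matrix.mulVec_mulVec]
  simp only [Matrix.mulVec, dotProduct, transpose_apply, vandermonde_apply]
  refine Finset.sum_congr rfl fun m _ => ?_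
  rw [mul_comm]

end PureAlgebra

section IsMF

/-- `g` is the underlying function of a level-one modular form of weight `w`. -/
def IsMF (w : ℤ) (g : ℍ → ℂ) : Prop := ∃ F : ModularForm 𝒮ℒ w, ⇑F = g

theorem IsMF.zero (w : ℤ) : IsMF w 0 := ⟨0, rfl⟩

theorem IsMF.one : IsMF 0 1 := ⟨1, ModularForm.one_coe_eq_one⟩

theorem IsMF.cast {w w' : ℤ} {g : ℍ → ℂ} (h : w = w') (hg : IsMF w g) : IsMF w' g := h ▸ hg

theorem IsMF.add {w : ℤ} {g g' : ℍ → ℂ} (hg : IsMF w g) (hg' : IsMF w g') : IsMF w (g + g') := by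
  obtain ⟨F, rfl⟩ := hg
  obtain ⟨F', rfl⟩ := hg'
  exact ⟨F + F', rfl⟩

theorem IsMF.neg {w : ℤ} {g : ℍ → ℂ} (hg : IsMF w g) : IsMF w (-g) := by
  obtain ⟨F, rfl⟩ := hg
  exact ⟨-F, rfl⟩

theorem IsMF.mul {w w' : ℤ} {g g' : ℍ → ℂ} (hg : IsMF w g) (hg' : IsMF w' g') :
    IsMF (w + w') (g * g') := by
  obtain ⟨F, rfl⟩ := hg
  obtain ⟨F', rfl⟩ := hg'
  exact ⟨F.mul F', rfl⟩

theorem IsMF.sum {ι : Type*} (s : Finset ι) {w : ℤ} {g : ι → ℍ → ℂ}
    (h : ∀ i ∈ s, IsMF w (g i)) : IsMF w (∑ i ∈ s, g i) := by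
  classical
  induction s using Finset.induction_on with
  | empty => simpa using IsMF.zero w
  | insert i t hi IH =>
    rw [Finset.sum_insert hi]
    exact (h i (Finset.mem_insert_self i t)).add
      (IH fun j hj => h j (Finset.mem_insert_of_mem hj))

theorem IsMF.prod {ι : Type*} (s : Finset ι) {w : ι → ℤ} {g : ι → ℍ → ℂ}
    (h : ∀ i ∈ s, IsMF (w i) (g i)) : IsMF (∑ i ∈ s, w i) (∏ i ∈ s, g i) := by
  classical
  induction s using Finset.induction_on with
  | empty => simpa using IsMF.one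
  | insert i t hi IH =>
    rw [Finset.sum_insert hi, Finset.prod_insert hi]
    exact (h i (Finset.mem_insert_self i t)).mul
      (IH fun j hj => h j (Finset.mem_insert_of_mem hj))

theorem IsMF.units_smul {w : ℤ} {g : ℍ → ℂ} (u : ℤˣ) (hg : IsMF w g) : IsMF w (u • g) := by
  rcases Int.units_eq_one_or u with rfl | rfl
  · simpa using hg
  · simpa using hg.neg

variable {n : ℕ}

/-- The determinant of a matrix of level-one forms whose `(i,j)` entry has weight `a i + b j`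
is a level-one form of weight `∑ a + ∑ b`. -/
theorem IsMF.det (a b : Fin n → ℤ) (M : Matrix (Fin n) (Fin n) (ℍ → ℂ))
    (hM : ∀ i j, IsMF (a i + b j) (M i j)) : IsMF (∑ i, a i + ∑ j, b j) M.det := by
  rw [Matrix.det_apply]
  refine IsMF.sum _ fun σ _ => IsMF.units_smul _ ?_
  have h := IsMF.prod (Finset.univ) (w := fun i => a (σ i) + b i) (g := fun i => M (σ i) i)
    fun i _ => hM (σ i) i
  refine h.cast ?_
  rw [Finset.sum_add_distrib, Equiv.sum_comp σ a]

/-- Entries of the adjugate. -/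
theorem IsMF.adjugate (a b : Fin n → ℤ) (M : Matrix (Fin n) (Fin n) (ℍ → ℂ))
    (hM : ∀ i j, IsMF (a i + b j) (M i j)) (i j : Fin n) :
    IsMF (∑ i, a i + ∑ j, b j - a j - b i) (M.adjugate i j) := by
  classical
  rw [Matrix.adjugate_apply]
  have h := IsMF.det (Function.update a j (- b i)) b (M.updateRow j (Pi.single i 1)) ?_
  · refine h.cast ?_
    rw [Finset.sum_update_of_mem (Finset.mem_univ j)]
    have : ∑ x ∈ Finset.univ \ {j}, a x = ∑ x, a x - a j := by
      rw [Finset.sum_sdiff_eq_sub (Finset.subset_univ _)]; simp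
    rw [this]; ring
  · intro r s
    by_cases hr : r = j
    · subst hr
      rw [Matrix.updateRow_self, Function.update_self]
      by_cases hs : s = i
      · subst hs
        rw [Pi.single_eq_same]
        exact IsMF.one.cast (by ring)
      · rw [Pi.single_eq_of_ne hs]
        exact IsMF.zero _
    · rw [Matrix.updateRow_ne hr, Function.update_of_ne hr]
      exact hM r s

end IsMF

section Trace

variable {𝒢 : Subgroup (GL (Fin 2) ℝ)} [𝒢.HasDetPlusMinusOne]
variable {k k' kt : ℤ}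

local notation "𝒬" => 𝒮ℒ ⧸ (𝒢.subgroupOf 𝒮ℒ)

open SlashInvariantForm

theorem abs_det_inv_eq_one (h : 𝒮ℒ) : |((h.val⁻¹ : GL (Fin 2) ℝ).det : ℝ)| = 1 := by
  have := Subgroup.HasDetOne.det_eq (Γ := 𝒮ℒ) (inv_mem h.2)
  simp [this]

theorem pow_slash_of_abs_det (f : ℍ → ℂ) (g : GL (Fin 2) ℝ) (hg : |(g.det : ℝ)| = 1) (w : ℤ)
    (j : ℕ) : (f ^ j) ∣[(j : ℤ) * w] g = (f ∣[w] g) ^ j := by
  have h := ModularForm.prod_slash (k := w) (g := g) (f := fun _ : Fin j => f)
    (s := Finset.univ)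
  simp only [Finset.prod_const, Finset.card_univ, Fintype.card_fin] at h
  rw [mul_comm, h]
  simp only [Matrix.GeneralLinearGroup.val_det_apply] at hg ⊢
  rw [hg, _root_.one_zpow, one_smul]

theorem quotientFunc_mul (f : ModularForm 𝒢 k) (g : ModularForm 𝒢 k') (q : 𝒬) :
    quotientFunc (f.mul g) q = quotientFunc f q * quotientFunc g q := by
  induction q using Quotient.inductionOn with
  | h r =>
    simp only [quotientFunc_mk]
    rw [ModularForm.coe_mul, ModularForm.mul_slash, abs_det_inv_eq_one, one_smul]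

theorem quotientFunc_pow (t : ModularForm 𝒢 kt) (j : ℕ) (q : 𝒬) :
    quotientFunc (t.pow j) q = quotientFunc t q ^ j := by
  induction q using Quotient.inductionOn with
  | h r =>
    simp only [quotientFunc_mk]
    rw [ModularForm.coe_pow, pow_slash_of_abs_det _ _ (abs_det_inv_eq_one r)]


theorem mdifferentiable_quotientFunc (t : ModularForm 𝒢 kt) (q : 𝒬) :
    MDiff (quotientFunc t q) := by
  induction q using Quotient.inductionOn with
  | h r =>
    simp only [quotientFunc_mk]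
    exact t.holo'.slash _ _

theorem quotientFunc_one (t : ModularForm 𝒢 kt) :
    quotientFunc t ((1 : 𝒮ℒ) : 𝒬) = t := by
  change quotientFunc t ⟦(1 : 𝒮ℒ)⟧ = t
  rw [quotientFunc_mk]
  simp

variable [𝒢.IsFiniteRelIndex 𝒮ℒ]

/-- enumeration of the cosets -/
noncomputable def enum (𝒢 : Subgroup (GL (Fin 2) ℝ)) [𝒢.IsFiniteRelIndex 𝒮ℒ] :
    Fin (Nat.card (𝒮ℒ ⧸ (𝒢.subgroupOf 𝒮ℒ))) ≃ (𝒮ℒ ⧸ (𝒢.subgroupOf 𝒮ℒ)) :=
  (Finite.equivFin _).symm

theorem coe_trace_pow (t : ModularForm 𝒢 kt) (j : ℕ) :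
    ⇑(ModularForm.trace 𝒮ℒ (t.pow j)) =
      ∑ i : Fin (Nat.card 𝒬), quotientFunc t (enum 𝒢 i) ^ j := by
  letI := Fintype.ofFinite 𝒬
  rw [ModularForm.coe_trace]
  simp only [quotientFunc_pow]
  exact (Fintype.sum_equiv (enum 𝒢) _ _ fun i => rfl).symm

theorem coe_trace_pow_mul (t : ModularForm 𝒢 kt) (f : ModularForm 𝒢 k) (j : ℕ) :
    ⇑(ModularForm.trace 𝒮ℒ ((t.pow j).mul f)) =
      ∑ i : Fin (Nat.card 𝒬), quotientFunc t (enum 𝒢 i) ^ j * quotientFunc f (enum 𝒢 i) := by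
  letI := Fintype.ofFinite 𝒬
  rw [ModularForm.coe_trace]
  simp only [quotientFunc_mul, quotientFunc_pow]
  exact (Fintype.sum_equiv (enum 𝒢) _ _ fun i => rfl).symm


/-- The matrix of traces `Tr(t^(m+l))` as functions on `ℍ`. -/
noncomputable def traceMat (t : ModularForm 𝒢 kt) :
    Matrix (Fin (Nat.card 𝒬)) (Fin (Nat.card 𝒬)) (ℍ → ℂ) :=
  Matrix.of fun m l => ⇑(ModularForm.trace 𝒮ℒ (t.pow ((m : ℕ) + (l : ℕ))))

/-- The vector `Tr(t^l f)` as functions on `ℍ`. -/
noncomputable def traceVec (t : ModularForm 𝒢 kt) (f : ModularForm 𝒢 k) :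
    Fin (Nat.card 𝒬) → (ℍ → ℂ) :=
  fun l => ⇑(ModularForm.trace 𝒮ℒ ((t.pow (l : ℕ)).mul f))

theorem isMF_traceMat (t : ModularForm 𝒢 kt) (m l : Fin (Nat.card 𝒬)) :
    IsMF ((m : ℕ) * kt + (l : ℕ) * kt) (traceMat t m l) :=
  ⟨ModularForm.mcast (by push_cast; ring) (ModularForm.trace 𝒮ℒ (t.pow ((m : ℕ) + (l : ℕ)))), rfl⟩

theorem isMF_traceVec (t : ModularForm 𝒢 kt) (f : ModularForm 𝒢 k) (l : Fin (Nat.card 𝒬)) :
    IsMF ((l : ℕ) * kt + k) (traceVec t f l) :=
  ⟨ModularForm.trace 𝒮ℒ ((t.pow (l : ℕ)).mul f), rfl⟩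

/-- The discriminant function `D = det(Tr t^(m+l))`. -/
noncomputable def discFun (t : ModularForm 𝒢 kt) : ℍ → ℂ := (traceMat t).det

/-- The coefficient functions `c_m = ∑_l adj(A)_{m l} Tr(t^l f)`. -/
noncomputable def coeffFun (t : ModularForm 𝒢 kt) (f : ModularForm 𝒢 k) (m : Fin (Nat.card 𝒬)) :
    ℍ → ℂ :=
  ∑ l, (traceMat t).adjugate m l * traceVec t f l

/-- total weight `W = 2 * kt * ∑_{i<μ} i`. -/
noncomputable def totalWeight (𝒢 : Subgroup (GL (Fin 2) ℝ)) (kt : ℤ) : ℤ :=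
  ∑ i : Fin (Nat.card (𝒮ℒ ⧸ (𝒢.subgroupOf 𝒮ℒ))), ((i : ℕ) : ℤ) * kt +
    ∑ i : Fin (Nat.card (𝒮ℒ ⧸ (𝒢.subgroupOf 𝒮ℒ))), ((i : ℕ) : ℤ) * kt

theorem isMF_discFun (t : ModularForm 𝒢 kt) : IsMF (totalWeight 𝒢 kt) (discFun t) :=
  IsMF.det _ _ _ (isMF_traceMat t)

theorem isMF_coeffFun (t : ModularForm 𝒢 kt) (f : ModularForm 𝒢 k) (m : Fin (Nat.card 𝒬)) :
    IsMF (totalWeight 𝒢 kt + k - (m : ℕ) * kt) (coeffFun t f m) := by
  refine IsMF.sum _ fun l _ => ?_
  have h1 := IsMF.adjugate _ _ _ (isMF_traceMat t) m l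
  exact (h1.mul (isMF_traceVec t f l)).cast (by unfold totalWeight; ring)

theorem traceMat_apply_apply (t : ModularForm 𝒢 kt) (τ : ℍ) :
    (traceMat t).map (fun g => g τ) =
      (vandermonde fun i => quotientFunc t (enum 𝒢 i) τ)ᵀ *
        vandermonde fun i => quotientFunc t (enum 𝒢 i) τ := by
  ext m l
  rw [vandermonde_transpose_mul_vandermonde]
  simp only [traceMat, Matrix.map_apply, Matrix.of_apply]
  rw [coe_trace_pow, Finset.sum_apply]
  rfl

theorem discFun_apply (t : ModularForm 𝒢 kt) (τ : ℍ) :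
    discFun t τ = ((vandermonde fun i => quotientFunc t (enum 𝒢 i) τ)ᵀ *
        vandermonde fun i => quotientFunc t (enum 𝒢 i) τ).det := by
  rw [← traceMat_apply_apply]
  exact RingHom.map_det (Pi.evalRingHom (fun _ : ℍ => ℂ) τ) (traceMat t)

theorem interpolation_identity (t : ModularForm 𝒢 kt) (f : ModularForm 𝒢 k) (τ : ℍ) :
    discFun t τ * f τ = ∑ m, coeffFun t f m τ * t τ ^ (m : ℕ) := by
  have key := vandermonde_interpolation (fun i => quotientFunc t (enum 𝒢 i) τ)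
    (fun i => quotientFunc f (enum 𝒢 i) τ) ((enum 𝒢).symm ((1 : 𝒮ℒ) : 𝒬))
  simp only [Equiv.apply_symm_apply, quotientFunc_one] at key
  rw [discFun_apply, ← key]
  refine Finset.sum_congr rfl fun m _ => ?_
  congr 1
  simp only [coeffFun, Finset.sum_apply, Pi.mul_apply]
  refine Finset.sum_congr rfl fun l _ => ?_
  congr 1
  · rw [← traceMat_apply_apply]
    have := RingHom.map_adjugate (Pi.evalRingHom (fun _ : ℍ => ℂ) τ) (traceMat t)
    exact (congrFun (congrFun this m) l).symm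
  · simp only [traceVec]
    rw [coe_trace_pow_mul, Finset.sum_apply]
    rfl


theorem discFun_eq_prod (t : ModularForm 𝒢 kt) :
    discFun t = ∏ p ∈ (Finset.univ : Finset (Fin (Nat.card 𝒬))).sigma (fun i => Finset.Ioi i),
      (quotientFunc t (enum 𝒢 p.2) - quotientFunc t (enum 𝒢 p.1)) ^ 2 := by
  funext τ
  rw [discFun_apply, det_mul, det_transpose, det_vandermonde, Finset.prod_apply,
    Finset.prod_sigma', ← sq, ← Finset.prod_pow]
  rfl

theorem discFun_ne_zero (t : ModularForm 𝒢 kt)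
    (hinj : Function.Injective (fun q : 𝒬 => quotientFunc t q)) : discFun t ≠ 0 := by
  intro h0
  rw [discFun_eq_prod, UpperHalfPlane.prod_eq_zero_iff] at h0
  · obtain ⟨⟨i, j⟩, hp, hz⟩ := h0
    simp only [Finset.mem_sigma, Finset.mem_univ, Finset.mem_Ioi, true_and] at hp
    have h1 : quotientFunc t (enum 𝒢 j) - quotientFunc t (enum 𝒢 i) = 0 := by
      funext τ
      have := congrFun hz τ
      simpa using this
    have h2 : enum 𝒢 j = enum 𝒢 i := hinj (sub_eq_zero.mp h1)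
    exact (ne_of_gt hp) ((enum 𝒢).injective h2)
  · intro p _
    exact ((mdifferentiable_quotientFunc t _).sub (mdifferentiable_quotientFunc t _)).pow 2

/-- If the stabiliser of `t` in `SL(2,ℤ)` is contained in `𝒢`, the conjugates of `t` are
pairwise distinct. -/
theorem injective_quotientFunc_of_stabilizer (t : ModularForm 𝒢 kt)
    (hstab : ∀ h ∈ 𝒮ℒ, (⇑t) ∣[kt] h = ⇑t → h ∈ 𝒢) :
    Function.Injective (fun q : 𝒬 => quotientFunc t q) := by
  intro q q' hqq'
  induction q using Quotient.inductionOn with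
  | h r =>
  induction q' using Quotient.inductionOn with
  | h r' =>
    simp only [quotientFunc_mk] at hqq'
    -- t ∣ r⁻¹ = t ∣ r'⁻¹  ⇒  t ∣ (r⁻¹ r') = t
    have h1 : (⇑t) ∣[kt] ((r.val⁻¹ * r'.val : GL (Fin 2) ℝ)) = ⇑t := by
      rw [SlashAction.slash_mul, hqq', ← SlashAction.slash_mul, inv_mul_cancel,
        SlashAction.slash_one]
    have h2 : (r.val⁻¹ * r'.val : GL (Fin 2) ℝ) ∈ 𝒢 :=
      hstab _ (mul_mem (inv_mem r.2) r'.2) h1
    apply Quotient.sound
    exact QuotientGroup.leftRel_apply.mpr (Subgroup.mem_subgroupOf.mpr h2)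

/-- **P4 main theorem** (function form). -/
theorem exists_interpolation_fun (t : ModularForm 𝒢 kt) (f : ModularForm 𝒢 k)
    (hinj : Function.Injective (fun q : 𝒬 => quotientFunc t q)) :
    ∃ (D : ModularForm 𝒮ℒ (totalWeight 𝒢 kt))
      (c : (m : Fin (Nat.card 𝒬)) → ModularForm 𝒮ℒ (totalWeight 𝒢 kt + k - (m : ℕ) * kt)),
      D ≠ 0 ∧ ∀ τ : ℍ, D τ * f τ = ∑ m, c m τ * t τ ^ (m : ℕ) := by
  obtain ⟨D, hD⟩ := isMF_discFun t
  choose c hc using isMF_coeffFun t f
  refine ⟨D, c, ?_, fun τ => ?_⟩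
  · intro h0
    apply discFun_ne_zero t hinj
    rw [← hD, h0]
    rfl
  · rw [hD]
    simp only [hc]
    exact interpolation_identity t f τ

end Trace

theorem sum_fin_cast_mul (n : ℕ) (kt : ℤ) :
    2 * ∑ i : Fin n, ((i : ℕ) : ℤ) * kt = kt * ((n : ℤ) * ((n : ℤ) - 1)) := by
  rw [← Finset.sum_mul, Fin.sum_univ_eq_sum_range (fun i => ((i : ℕ) : ℤ)) n]
  have h := Finset.sum_range_id_mul_two n
  have h2 : (∑ i ∈ Finset.range n, (i : ℤ)) * 2 = (n : ℤ) * ((n : ℤ) - 1) := by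
    have := congrArg (fun x : ℕ => (x : ℤ)) h
    simp only [Nat.cast_mul, Nat.cast_sum, Nat.cast_ofNat] at this
    rw [this]
    rcases n with _ | n
    · simp
    · simp
  linear_combination kt * h2

theorem totalWeight_eq (𝒢 : Subgroup (GL (Fin 2) ℝ)) (kt : ℤ) :
    totalWeight 𝒢 kt = kt * ((Nat.card (𝒮ℒ ⧸ (𝒢.subgroupOf 𝒮ℒ)) : ℤ) *
      ((Nat.card (𝒮ℒ ⧸ (𝒢.subgroupOf 𝒮ℒ)) : ℤ) - 1)) := by
  unfold totalWeight
  rw [← two_mul, sum_fin_cast_mul]


section QAn

/-- The cusp function (period 1) of `g` is analytic at `0`. -/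
def QAn (g : ℍ → ℂ) : Prop := AnalyticAt ℂ (cuspFunction 1 g) 0

theorem QAn.mul {g g' : ℍ → ℂ} (hg : QAn g) (hg' : QAn g') : QAn (g * g') := by
  unfold QAn at *
  rw [cuspFunction_mul hg.continuousAt hg'.continuousAt]
  exact hg.mul hg'

theorem QAn.add {g g' : ℍ → ℂ} (hg : QAn g) (hg' : QAn g') : QAn (g + g') := by
  unfold QAn at *
  rw [cuspFunction_add hg.continuousAt hg'.continuousAt]
  exact hg.add hg'

theorem QAn.zero : QAn 0 := by
  unfold QAn
  have : cuspFunction 1 0 = 0 := by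
    simpa [cuspFunction, Function.Periodic.cuspFunction]
      using! (tendsto_const_nhds.mono_left nhdsWithin_le_nhds).limUnder_eq
  rw [this]
  exact analyticAt_const

theorem QAn.one : QAn 1 := by
  have h := ModularFormClass.analyticAt_cuspFunction_zero (1 : ModularForm 𝒮ℒ 0) one_pos
    one_mem_strictPeriods_SL
  rwa [ModularForm.one_coe_eq_one] at h

theorem QAn.pow {g : ℍ → ℂ} (hg : QAn g) (n : ℕ) : QAn (g ^ n) := by
  induction n with
  | zero => simpa using QAn.one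
  | succ n ih => rw [pow_succ]; exact ih.mul hg

theorem QAn.sum {ι : Type*} (s : Finset ι) {g : ι → ℍ → ℂ} (h : ∀ i ∈ s, QAn (g i)) :
    QAn (∑ i ∈ s, g i) := by
  classical
  induction s using Finset.induction_on with
  | empty => simpa using QAn.zero
  | insert i t hi IH =>
    rw [Finset.sum_insert hi]
    exact (h i (Finset.mem_insert_self i t)).add
      (IH fun j hj => h j (Finset.mem_insert_of_mem hj))

theorem qExpansion_pow_of_QAn {g : ℍ → ℂ} (hg : QAn g) (n : ℕ) :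
    qExpansion 1 (g ^ n) = qExpansion 1 g ^ n := by
  induction n with
  | zero => simpa using qExpansion_one 1
  | succ n ih => rw [pow_succ, qExpansion_mul (hg.pow n) hg, ih, pow_succ]

theorem qExpansion_sum_of_QAn {ι : Type*} (s : Finset ι) {g : ι → ℍ → ℂ}
    (h : ∀ i ∈ s, QAn (g i)) :
    qExpansion 1 (∑ i ∈ s, g i) = ∑ i ∈ s, qExpansion 1 (g i) := by
  classical
  induction s using Finset.induction_on with
  | empty => simpa using qExpansion_zero 1
  | insert i t hi IH =>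
    rw [Finset.sum_insert hi, Finset.sum_insert hi, qExpansion_add
      (h i (Finset.mem_insert_self i t))
      (QAn.sum t fun j hj => h j (Finset.mem_insert_of_mem hj)),
      IH fun j hj => h j (Finset.mem_insert_of_mem hj)]

theorem QAn.of_modularForm {Γ : Subgroup (GL (Fin 2) ℝ)} {k : ℤ} (f : ModularForm Γ k)
    (hΓ : (1 : ℝ) ∈ Γ.strictPeriods) : QAn f :=
  ModularFormClass.analyticAt_cuspFunction_zero f one_pos hΓ

end QAn

section Final

variable {𝒢 : Subgroup (GL (Fin 2) ℝ)} [𝒢.HasDetPlusMinusOne] [𝒢.IsFiniteRelIndex 𝒮ℒ]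
variable {k kt : ℤ}

local notation "𝒬" => 𝒮ℒ ⧸ (𝒢.subgroupOf 𝒮ℒ)

open SlashInvariantForm

/-- **P4 main theorem** (function form + `q`-expansion form). -/
theorem exists_interpolation (t : ModularForm 𝒢 kt) (f : ModularForm 𝒢 k)
    (hinj : Function.Injective (fun q : 𝒬 => quotientFunc t q))
    (h𝒢 : (1 : ℝ) ∈ 𝒢.strictPeriods) :
    ∃ (D : ModularForm 𝒮ℒ (totalWeight 𝒢 kt))
      (c : (m : Fin (Nat.card 𝒬)) → ModularForm 𝒮ℒ (totalWeight 𝒢 kt + k - (m : ℕ) * kt)),
      D ≠ 0 ∧ (∀ τ : ℍ, D τ * f τ = ∑ m, c m τ * t τ ^ (m : ℕ)) ∧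
      qExpansion 1 D * qExpansion 1 f = ∑ m, qExpansion 1 (c m) * qExpansion 1 t ^ (m : ℕ) := by
  obtain ⟨D, c, hD, hid⟩ := exists_interpolation_fun t f hinj
  refine ⟨D, c, hD, hid, ?_⟩
  have hSL := one_mem_strictPeriods_SL
  have hfun : (⇑D * ⇑f : ℍ → ℂ) = ∑ m, ⇑(c m) * ⇑t ^ (m : ℕ) := by
    funext τ
    simp only [Pi.mul_apply, Finset.sum_apply, Pi.pow_apply]
    exact hid τ
  have h1 := congrArg (qExpansion 1) hfun
  rw [qExpansion_mul (QAn.of_modularForm D hSL) (QAn.of_modularForm f h𝒢),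
    qExpansion_sum_of_QAn] at h1
  · rw [h1]
    refine Finset.sum_congr rfl fun m _ => ?_
    rw [qExpansion_mul (QAn.of_modularForm (c m) hSL) ((QAn.of_modularForm t h𝒢).pow _),
      qExpansion_pow_of_QAn (QAn.of_modularForm t h𝒢)]
  · intro m _
    exact (QAn.of_modularForm (c m) hSL).mul ((QAn.of_modularForm t h𝒢).pow _)

end Final

end Fermat.Agent.S23.Interp
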