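import Mathlib
import Fermat.Agent.S23.Defs
import Fermat.Agent.S23.DeltaN
import Fermat.Agent.S23.LevelOneGalois
import Fermat.Prelude.Thm_UpperHalfPlane_qCoeff_heckeT
import Fermat.Prelude.Thm_CongruenceSubgroup_one_mem_strictPeriods_Gamma0

/-!
# Package P2 of the S23 plan, in the shape of `Skeleton.lean`

Facts about `tN N = (τ ↦ Δ(N τ))`:
* `TN.tN_isMF` / `TN.tN_isCF`: it is a modular (even cusp) form of weight 12 on `Γ₀(N)`;
* `TN.tN_qExpansion_int`: its `q`-expansion has integer coefficients;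
* `TN.mem_Gamma0_of_tN_slash_eq`: its stabiliser in `SL(2, ℤ)` is `Γ₀(N)`.
-/

set_option autoImplicit false

namespace Fermat.Agent.S23.TN

open UpperHalfPlane ModularForm Matrix MatrixGroups CongruenceSubgroup EisensteinSeries
open scoped ModularForm Real

noncomputable section

local notation "Δ" => ModularForm.discriminant

/-! ### Relation between `tN` and `deltaNFun` -/

theorem tN_apply {N : ℕ} (hN : N ≠ 0) (τ : ℍ) : tN N τ = Δ (heckeDiagMatrix N • τ) := by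
  have hpos : 0 < N := Nat.pos_of_ne_zero hN
  rw [tN, dif_pos hpos]
  congr 1
  apply UpperHalfPlane.ext
  rw [coe_heckeDiagMatrix_smul hN]

theorem deltaNFun_eq_smul_tN {N : ℕ} (hN : N ≠ 0) :
    deltaNFun N = ((N : ℂ) ^ (11 : ℤ)) • tN N := by
  ext τ
  rw [deltaNFun_apply hN, Pi.smul_apply, smul_eq_mul, tN_apply hN]

theorem tN_eq_smul_deltaNFun {N : ℕ} (hN : N ≠ 0) :
    tN N = ((N : ℂ) ^ (11 : ℤ))⁻¹ • deltaNFun N := by
  have h : ((N : ℂ) ^ (11 : ℤ)) ≠ 0 := zpow_ne_zero _ (Nat.cast_ne_zero.mpr hN)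
  rw [deltaNFun_eq_smul_tN hN, smul_smul, inv_mul_cancel₀ h, one_smul]

/-! ### P2a -/

/-- `tN N` as a cusp form of weight 12 on `Γ₀(N)`. -/
def tNCuspForm (N : ℕ) [NeZero N] : CuspForm (Gamma0 N) 12 :=
  ((N : ℂ) ^ (11 : ℤ))⁻¹ • deltaN N

theorem coe_tNCuspForm (N : ℕ) [NeZero N] : ⇑(tNCuspForm N) = tN N := by
  rw [tN_eq_smul_deltaNFun (NeZero.ne N)]
  rfl

theorem tN_isCF (N : ℕ) [NeZero N] : IsCF (Gamma0 N) 12 (tN N) :=
  ⟨tNCuspForm N, coe_tNCuspForm N⟩

/-- `tN N` as a modular form of weight 12 on `Γ₀(N)`. -/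
def tNModularForm (N : ℕ) [NeZero N] : ModularForm (Gamma0 N) 12 :=
  ModularFormClass.modularForm (tNCuspForm N)

theorem coe_tNModularForm (N : ℕ) [NeZero N] : ⇑(tNModularForm N) = tN N :=
  coe_tNCuspForm N

/-- P2a. `t_N` is a modular form of weight 12 for `Γ₀(N)`. -/
theorem tN_isMF (N : ℕ) [NeZero N] : IsMF (Gamma0 N) 12 (tN N) :=
  ⟨tNModularForm N, coe_tNModularForm N⟩

theorem tN_ne_zero (N : ℕ) [NeZero N] (τ : ℍ) : tN N τ ≠ 0 := by
  rw [tN_apply (NeZero.ne N)]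
  exact discriminant_ne_zero _

/-! ### P2c -/

/-- P2c. The stabiliser of `t_N` in `SL(2,ℤ)` is contained in `Γ₀(N)`. -/
theorem mem_Gamma0_of_tN_slash_eq (N : ℕ) [NeZero N] (γ : SL(2, ℤ))
    (h : (tN N) ∣[(12 : ℤ)] γ = tN N) : γ ∈ Gamma0 N := by
  apply mem_Gamma0_of_slash_deltaNFun_eq (NeZero.ne N)
  rw [deltaNFun_eq_smul_tN (NeZero.ne N), ModularForm.SL_smul_slash, h]

theorem tN_slash_eq_iff (N : ℕ) [NeZero N] (γ : SL(2, ℤ)) :
    (tN N) ∣[(12 : ℤ)] γ = tN N ↔ γ ∈ Gamma0 N := by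
  refine ⟨mem_Gamma0_of_tN_slash_eq N γ, fun h => ?_⟩
  rw [tN_eq_smul_deltaNFun (NeZero.ne N), ModularForm.SL_smul_slash,
    deltaNFun_slash_of_mem_Gamma0 N h]


/-! ### P2b: integrality of the `q`-expansion -/

section Integrality

open PowerSeries in
/-- `∑_{n ≥ 1} σ_k(n) q^n` as an integer power series. -/
def sigmaSeries (k : ℕ) : PowerSeries ℤ :=
  PowerSeries.mk fun n => if n = 0 then 0 else (ArithmeticFunction.sigma k n : ℤ)

theorem coeff_sigmaSeries (k n : ℕ) :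
    PowerSeries.coeff n (sigmaSeries k) =
      if n = 0 then 0 else (ArithmeticFunction.sigma k n : ℤ) := by
  simp [sigmaSeries]

theorem qExpansion_E4 :
    qExpansion 1 E₄ =
      PowerSeries.map (Int.castRingHom ℂ) (1 + PowerSeries.C (240 : ℤ) * sigmaSeries 3) := by
  ext m
  rw [E_qExpansion_coeff _ ⟨2, rfl⟩ m, show bernoulli 4 = -1 / 30 by decide +kernel]
  simp only [PowerSeries.coeff_map, map_add, PowerSeries.coeff_one, PowerSeries.coeff_C_mul,
    coeff_sigmaSeries]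
  split_ifs with h
  · simp
  · simp
    norm_num

theorem qExpansion_E6 :
    qExpansion 1 E₆ =
      PowerSeries.map (Int.castRingHom ℂ) (1 - PowerSeries.C (504 : ℤ) * sigmaSeries 5) := by
  ext m
  rw [E_qExpansion_coeff _ ⟨3, rfl⟩ m, show bernoulli 6 = 1 / 42 by decide +kernel]
  simp only [PowerSeries.coeff_map, map_sub, PowerSeries.coeff_one, PowerSeries.coeff_C_mul,
    coeff_sigmaSeries]
  split_ifs with h
  · simp
  · simp
    norm_num

theorem twelve_dvd (d : ℤ) : (12 : ℤ) ∣ 5 * d ^ 3 + 7 * d ^ 5 := by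
  have h : ∀ x : ZMod 12, 5 * x ^ 3 + 7 * x ^ 5 = 0 := by decide
  have h1 := h (d : ZMod 12)
  have h2 : ((5 * d ^ 3 + 7 * d ^ 5 : ℤ) : ZMod 12) = 0 := by
    push_cast
    exact h1
  exact (ZMod.intCast_zmod_eq_zero_iff_dvd _ 12).mp h2

theorem twelve_dvd_sigma (n : ℕ) :
    (12 : ℤ) ∣ 5 * (ArithmeticFunction.sigma 3 n : ℤ) + 7 * (ArithmeticFunction.sigma 5 n : ℤ) := by
  rw [ArithmeticFunction.sigma_apply, ArithmeticFunction.sigma_apply]
  push_cast
  rw [Finset.mul_sum, Finset.mul_sum, ← Finset.sum_add_distrib]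
  exact Finset.dvd_sum fun d _ => twelve_dvd d

/-- `(5 ∑ σ₃(n) qⁿ + 7 ∑ σ₅(n) qⁿ) / 12`. -/
def w0 : PowerSeries ℤ :=
  PowerSeries.mk fun n => if n = 0 then 0 else
    (5 * (ArithmeticFunction.sigma 3 n : ℤ) + 7 * (ArithmeticFunction.sigma 5 n : ℤ)) / 12

theorem five_seven :
    PowerSeries.C (5 : ℤ) * sigmaSeries 3 + PowerSeries.C (7 : ℤ) * sigmaSeries 5 =
      PowerSeries.C (12 : ℤ) * w0 := by
  ext n
  simp only [map_add, PowerSeries.coeff_C_mul, coeff_sigmaSeries, w0, PowerSeries.coeff_mk]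
  split_ifs with h
  · simp
  · exact (Int.mul_ediv_cancel' (twelve_dvd_sigma n)).symm

/-- The integer power series of Ramanujan's `τ` function: `Δ = ∑ τ(n) qⁿ`. -/
def tauSeries : PowerSeries ℤ :=
  w0 + PowerSeries.C (100 : ℤ) * sigmaSeries 3 ^ 2 + PowerSeries.C (8000 : ℤ) * sigmaSeries 3 ^ 3 -
    PowerSeries.C (147 : ℤ) * sigmaSeries 5 ^ 2

theorem e4_cube_sub_e6_sq :
    (1 + PowerSeries.C (240 : ℤ) * sigmaSeries 3) ^ 3 -
      (1 - PowerSeries.C (504 : ℤ) * sigmaSeries 5) ^ 2 = PowerSeries.C (1728 : ℤ) * tauSeries := by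
  have h1 : (1 + PowerSeries.C (240 : ℤ) * sigmaSeries 3) ^ 3 -
      (1 - PowerSeries.C (504 : ℤ) * sigmaSeries 5) ^ 2 =
      PowerSeries.C (144 : ℤ) * (PowerSeries.C (5 : ℤ) * sigmaSeries 3 +
        PowerSeries.C (7 : ℤ) * sigmaSeries 5) +
      PowerSeries.C (1728 : ℤ) * (PowerSeries.C (100 : ℤ) * sigmaSeries 3 ^ 2 +
        PowerSeries.C (8000 : ℤ) * sigmaSeries 3 ^ 3 -
        PowerSeries.C (147 : ℤ) * sigmaSeries 5 ^ 2) := by
    simp only [map_ofNat]
    ring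
  rw [h1, five_seven, tauSeries]
  simp only [map_ofNat]
  ring

/-- **Integrality of Ramanujan's τ**: the `q`-expansion of `Δ` has integer coefficients. -/
theorem qExpansion_discriminant_eq_map_tauSeries :
    qExpansion 1 Δ = PowerSeries.map (Int.castRingHom ℂ) tauSeries := by
  rw [discriminant_eq_smul_e4e6Form,
    ModularForm.qExpansion_smul one_pos one_mem_strictPeriods_SL, qExpansion_e4e6Form,
    qExpansion_E4, qExpansion_E6, ← map_pow, ← map_pow, ← map_sub, e4_cube_sub_e6_sq]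
  ext n
  rw [PowerSeries.coeff_smul, PowerSeries.coeff_map, PowerSeries.coeff_map,
    PowerSeries.coeff_C_mul]
  simp only [smul_eq_mul, eq_intCast]
  push_cast
  ring

theorem qExpansion_discriminant_int (n : ℕ) :
    ∃ m : ℤ, (qExpansion 1 Δ).coeff n = (m : ℂ) :=
  ⟨PowerSeries.coeff n tauSeries, by rw [qExpansion_discriminant_eq_map_tauSeries]; simp⟩

end Integrality

/-! ### The `q`-expansion of `tN` -/

section QExp

theorem hasSum_tN {N : ℕ} (hN : N ≠ 0) (τ : ℍ) :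
    HasSum (fun m : ℕ => (if N ∣ m then (qExpansion 1 Δ).coeff (m / N) else 0) •
      Function.Periodic.qParam 1 τ ^ m) (tN N τ) := by
  have hper : Function.Periodic ((Δ : ℍ → ℂ) ∘ UpperHalfPlane.ofComplex) 1 :=
    SlashInvariantFormClass.periodic_comp_ofComplex CuspForm.discriminant one_mem_strictPeriods_SL
  have hhol : MDifferentiable (modelWithCornersSelf ℂ ℂ) (modelWithCornersSelf ℂ ℂ) (Δ : ℍ → ℂ) :=
    CuspForm.discriminant.holo'
  have hbdd : UpperHalfPlane.IsBoundedAtImInfty (Δ : ℍ → ℂ) :=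
    discriminant_isZeroAtImInfty.isBoundedAtImInfty
  have h := P2MW.S_UpperHalfPlane_qCoeff_heckeT.M4cP1W2.hasSum_diag hN hper hhol hbdd 1 τ
  rw [tN_apply hN]
  simp only [sub_self, zpow_zero, one_mul] at h
  convert h using 1
  funext m
  split_ifs with hm
  · rfl
  · simp

/-- The `q`-expansion of `tN N = Δ(N ·)`: the `n`-th coefficient is `τ(n / N)` if `N ∣ n`, else `0`. -/
theorem qExpansion_tN_coeff (N : ℕ) [NeZero N] (n : ℕ) :
    (qExpansion 1 (tN N)).coeff n =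
      if N ∣ n then (qExpansion 1 Δ).coeff (n / N) else 0 := by
  have h := ModularFormClass.qExpansion_coeff_unique (f := tNCuspForm N)
    (c := fun m : ℕ => if N ∣ m then (qExpansion 1 Δ).coeff (m / N) else 0) one_pos
    (CongruenceSubgroup.one_mem_strictPeriods_Gamma0 N)
    (fun τ => by rw [coe_tNCuspForm]; exact hasSum_tN (NeZero.ne N) τ) n
  rw [coe_tNCuspForm] at h
  exact h.symm

/-- P2b. `t_N` has integer `q`-expansion. -/
theorem tN_qExpansion_int (N : ℕ) [NeZero N] (n : ℕ) :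
    ∃ m : ℤ, (qExpansion 1 (tN N)).coeff n = (m : ℂ) := by
  rw [qExpansion_tN_coeff]
  split_ifs with h
  · exact qExpansion_discriminant_int _
  · exact ⟨0, by simp⟩

end QExp

end

end Fermat.Agent.S23.TN
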