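import Mathlib
import Fermat.Statements.S23
import Fermat.Agent.S23.Defs
import Fermat.Agent.S23.TN
import Fermat.Agent.S23.Interpolation
import Fermat.Agent.S23.EsymmStructure
import Fermat.Agent.S23.Conj

/-!
# S23 project, P4b: the interpolation half of `StructureThm` (in the `tN` normalisation)

Every cusp form `f` on `Γ₀(N)` satisfies `D * f = ∑_m c_m * tN^m` with `D ≠ 0`, `c_m` level-one
modular forms, `μ = [SL(2,ℤ) : Γ₀(N)]` (the same `μ` as in `EsymmStructure.mu`).
-/

set_option autoImplicit false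

open UpperHalfPlane ModularForm CongruenceSubgroup
open scoped MatrixGroups ModularForm Manifold

noncomputable section

namespace Fermat.Agent.S23.InterpStructure

open Fermat.Agent.S23 Fermat.Agent.S23.Interp

/-- The index `μ = [SL(2,ℤ) : Γ₀(N)]` (same expression as `EsymmStructure.mu`). -/
abbrev mu (N : ℕ) : ℕ :=
  Nat.card (𝒮ℒ ⧸ ((Gamma0 N : Subgroup (GL (Fin 2) ℝ)).subgroupOf 𝒮ℒ))

/-- The conjugates of `tN` under `SL(2,ℤ)` are pairwise distinct. -/
theorem injective_quotientFunc_tN (N : ℕ) [NeZero N] :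
    Function.Injective (fun q : 𝒮ℒ ⧸ ((Gamma0 N : Subgroup (GL (Fin 2) ℝ)).subgroupOf 𝒮ℒ) =>
      SlashInvariantForm.quotientFunc (TN.tNModularForm N) q) := by
  apply injective_quotientFunc_of_stabilizer
  intro h hh hstab
  obtain ⟨γ, rfl⟩ := MonoidHom.mem_range.mp hh
  rw [TN.coe_tNModularForm] at hstab
  have h1 : (tN N) ∣[(12 : ℤ)] γ = tN N := by
    rw [ModularForm.SL_slash]
    exact hstab
  exact Subgroup.mem_map_of_mem _ (TN.mem_Gamma0_of_tN_slash_eq N γ h1)

/-- The interpolation half of `StructureThm`, with `μ = mu N`. -/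
theorem interp_half (N : ℕ) [NeZero N] (k : ℤ) (f : CuspForm (Gamma0 N) k) :
    ∃ (wD : ℤ) (D : ℍ → ℂ) (c : Fin (mu N) → ℍ → ℂ),
      IsMF 𝒮ℒ wD D ∧ D ≠ 0 ∧
      (∀ m : Fin (mu N), IsMF 𝒮ℒ (wD + k - 12 * (m : ℕ)) (c m)) ∧
      (∀ τ, D τ * f τ = ∑ m : Fin (mu N), c m τ * tN N τ ^ (m : ℕ)) := by
  obtain ⟨D, c, hD, hid⟩ := exists_interpolation_fun (TN.tNModularForm N)
    (ModularFormClass.modularForm f) (injective_quotientFunc_tN N)
  refine ⟨totalWeight (Gamma0 N : Subgroup (GL (Fin 2) ℝ)) 12, ⇑D, fun m => ⇑(c m), ⟨D, rfl⟩, ?_,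
    fun m => ?_, fun τ => ?_⟩
  · intro h0
    exact hD (DFunLike.coe_injective h0)
  · exact ⟨ModularForm.mcast (by ring) (c m), rfl⟩
  · have := hid τ
    rw [TN.coe_tNModularForm] at this
    exact this

/-- **P3+P4**: the structure theorem, in the exact shape `StructureThm N k` of `Conj.lean`. -/
theorem structureThm (N : ℕ) [NeZero N] (k : ℤ) : StructureThm N k := by
  intro f
  obtain ⟨wD, D, c, hD, hD0, hc, hid⟩ := interp_half N k f
  obtain ⟨a, ha, hmonic⟩ := EsymmStructure.monic_half N k f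
  exact ⟨mu N, wD, D, c, a, EsymmStructure.mu_pos N, hD, hD0, hc, ha, hid, hmonic⟩

end Fermat.Agent.S23.InterpStructure
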