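import Mathlib
import Fermat.Prelude.Def_CuspForm_IntegralStructure
import Fermat.Prelude.Thm_CongruenceSubgroup_one_mem_strictPeriods_Gamma0
import Fermat.Prelude.Thm_ModularForm_sturm_bound_Gamma0

set_option autoImplicit false

/-!
# S23 assembly skeleton (helper63)

Final glue for the `Aut(ℂ)`-descent route to `CuspForm.HasIntegralStructure`:
the outputs of the other packages enter as explicit hypotheses.
-/

namespace Fermat.Agent.S23.Assemble

open Function

/-- Abstract Galois descent along an injective coefficient map.  `hfix` is the statement that the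
fixed field of `Aut(ℂ)` is `ℚ` (package P6a). -/
theorem span_rational_eq_top_of_stable
    (hfix : ∀ x : ℂ, (∀ σ : ℂ ≃+* ℂ, σ x = x) → ∃ r : ℚ, (r : ℂ) = x)
    {V : Type*} [AddCommGroup V] [Module ℂ V] [FiniteDimensional ℂ V] {ι : Type*}
    (c : V →ₗ[ℂ] (ι → ℂ)) (hc : Injective c)
    (hstab : ∀ (σ : ℂ ≃+* ℂ) (v : V), ∃ w : V, ∀ i, c w i = σ (c v i)) :
    Submodule.span ℂ {v : V | ∀ i, ∃ r : ℚ, c v i = (r : ℂ)} = ⊤ := by
  classical
  -- coordinate functionals
  let φ : ι → Module.Dual ℂ V := fun i => (LinearMap.proj i).comp c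
  obtain ⟨κ, a, -, hspan, hli⟩ := exists_linearIndependent' ℂ φ
  have : Finite κ := hli.finite
  have : Fintype κ := Fintype.ofFinite κ
  -- the restricted coordinate map
  let Φ : V →ₗ[ℂ] (κ → ℂ) := LinearMap.pi fun j => φ (a j)
  have hΦinj : Injective Φ := by
    rw [injective_iff_map_eq_zero]
    intro v hv
    apply hc
    rw [map_zero]
    funext i
    -- φ i is in the span of the φ (a j)
    have hi : φ i ∈ Submodule.span ℂ (Set.range (φ ∘ a)) := by
      rw [hspan]; exact Submodule.subset_span ⟨i, rfl⟩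
    have : ∀ ψ ∈ Submodule.span ℂ (Set.range (φ ∘ a)), ψ v = 0 := by
      intro ψ hψ
      induction hψ using Submodule.span_induction with
      | mem x hx =>
        obtain ⟨j, rfl⟩ := hx
        exact congrFun hv j
      | zero => rfl
      | add x y _ _ hx hy => simp [hx, hy]
      | smul r x _ hx => simp [hx]
    exact this _ hi
  have hcard : Module.finrank ℂ V = Module.finrank ℂ (κ → ℂ) := by
    rw [Module.finrank_fintype_fun_eq_card]
    have h1 : Module.finrank ℂ V ≤ Fintype.card κ := by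
      have := LinearMap.finrank_le_finrank_of_injective hΦinj
      rwa [Module.finrank_fintype_fun_eq_card] at this
    have h2 : Fintype.card κ ≤ Module.finrank ℂ V := by
      have := hli.fintype_card_le_finrank
      rwa [Subspace.dual_finrank_eq] at this
    omega
  have hΦsurj : Surjective Φ :=
    (LinearMap.injective_iff_surjective_of_finrank_eq_finrank hcard).mp hΦinj
  choose e he using fun j : κ => hΦsurj (Pi.single j 1)
  -- each `e j` is rational
  have hrat : ∀ j, e j ∈ {v : V | ∀ i, ∃ r : ℚ, c v i = (r : ℂ)} := by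
    intro j i
    obtain ⟨r, hr⟩ := hfix (c (e j) i) (fun σ => by
      obtain ⟨w, hw⟩ := hstab σ (e j)
      have hwe : w = e j := by
        apply hΦinj
        funext j'
        have h1 : Φ w j' = σ (Φ (e j) j') := hw (a j')
        rw [h1, he j]
        by_cases hjj : j' = j
        · subst hjj; simp
        · simp [hjj]
      rw [← hw i, hwe])
    exact ⟨r, hr.symm⟩
  -- the `e j` span
  rw [eq_top_iff]
  intro v _
  have hv : v = ∑ j, (Φ v j) • e j := by
    apply hΦinj
    rw [map_sum]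
    funext j'
    simp only [map_smul, he, Finset.sum_apply, Pi.smul_apply, smul_eq_mul, Pi.single_apply,
      mul_ite, mul_one, mul_zero, Finset.sum_ite_eq, Finset.mem_univ, if_true]
  rw [hv]
  exact Submodule.sum_mem _ fun j _ => Submodule.smul_mem _ _ (Submodule.subset_span (hrat j))

end Fermat.Agent.S23.Assemble

namespace Fermat.Agent.S23.Assemble

open UpperHalfPlane ModularFormClass

local notation "Γ₀(" N ")" => CongruenceSubgroup.Gamma0 N

theorem one_mem_strictPeriods (N : ℕ) :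
    (1 : ℝ) ∈ (Subgroup.map (Matrix.SpecialLinearGroup.mapGL ℝ) Γ₀(N)).strictPeriods :=
  CongruenceSubgroup.one_mem_strictPeriods_Gamma0 N

theorem qCoeff_add {N : ℕ} {k : ℤ} (f g : CuspForm Γ₀(N) k) (n : ℕ) :
    qCoeff ⇑(f + g) n = qCoeff ⇑f n + qCoeff ⇑g n := by
  simp only [qCoeff, FunLike.coe_add]
  rw [ModularForm.qExpansion_add one_pos (one_mem_strictPeriods N) f g, map_add]

theorem qCoeff_smul {N : ℕ} {k : ℤ} (a : ℂ) (f : CuspForm Γ₀(N) k) (n : ℕ) :
    qCoeff ⇑(a • f) n = a * qCoeff ⇑f n := by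
  have h1 : ⇑(a • f) = a • ⇑f := by
    ext z
    simp
  simp only [qCoeff, h1]
  rw [ModularForm.qExpansion_smul one_pos (one_mem_strictPeriods N) a f]
  simp

/-- The `q`-coefficient map as a `ℂ`-linear map. -/
noncomputable def coeffMap (N : ℕ) (k : ℤ) : CuspForm Γ₀(N) k →ₗ[ℂ] (ℕ → ℂ) where
  toFun f n := qCoeff ⇑f n
  map_add' f g := by
    funext n
    exact qCoeff_add f g n
  map_smul' a f := by
    funext n
    simp only [RingHom.id_apply, Pi.smul_apply, smul_eq_mul]
    exact qCoeff_smul a f n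

@[simp] theorem coeffMap_apply {N : ℕ} {k : ℤ} (f : CuspForm Γ₀(N) k) (n : ℕ) :
    coeffMap N k f n = qCoeff ⇑f n := rfl

/-- Sturm bound index. -/
noncomputable def sturmB (N : ℕ) (k : ℤ) : ℕ := (k * (Γ₀(N)).index).toNat / 12

theorem eq_zero_of_coeff_eq_zero {N : ℕ} [NeZero N] {k : ℤ} (f : CuspForm Γ₀(N) k)
    (hf : ∀ n ≤ sturmB N k, qCoeff ⇑f n = 0) : f = 0 := by
  have hmf : (ModularFormClass.modularForm f : ModularForm Γ₀(N) k) = 0 := by
    refine ModularForm.sturm_bound_Gamma0 N _ fun n hn ↦ ?_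
    simpa [qCoeff] using hf n hn
  have hcoe : (⇑f : ℍ → ℂ) = 0 := by
    have := congrArg (fun F : ModularForm Γ₀(N) k ↦ (⇑F : ℍ → ℂ)) hmf
    simpa using this
  exact DFunLike.coe_injective (hcoe.trans FunLike.coe_zero.symm)

theorem coeffMap_injective (N : ℕ) [NeZero N] (k : ℤ) : Function.Injective (coeffMap N k) := by
  rw [injective_iff_map_eq_zero]
  intro f hf
  exact eq_zero_of_coeff_eq_zero f fun n _ => congrFun hf n

/-- Finite-dimensionality of cusp forms of level `Γ₀(N)` (from the Sturm bound). -/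
theorem finiteDimensional_cuspForm (N : ℕ) [NeZero N] (k : ℤ) :
    FiniteDimensional ℂ (CuspForm Γ₀(N) k) := by
  let T : CuspForm Γ₀(N) k →ₗ[ℂ] (Fin (sturmB N k + 1) → ℂ) :=
    (LinearMap.funLeft ℂ ℂ (fun i : Fin (sturmB N k + 1) => (i : ℕ))).comp (coeffMap N k)
  have hT : Function.Injective T := by
    rw [injective_iff_map_eq_zero]
    intro f hf
    refine eq_zero_of_coeff_eq_zero f fun n hn => ?_
    have := congrFun hf ⟨n, Nat.lt_succ_of_le hn⟩
    simpa [T, LinearMap.funLeft] using this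
  exact FiniteDimensional.of_injective T hT

/-- **Final glue for S23** (all weights).  Inputs:
* `hfix`  : the fixed field of `Aut(ℂ)` is `ℚ` (P6a);
* `I1`    : `Aut(ℂ)`-stability of the space of `q`-expansions (P5);
* `I3`    : bounded denominators (P7 + P1 + P3 + P4). -/
theorem hasIntegralStructure_of (N : ℕ) [NeZero N] (k : ℤ)
    (hfix : ∀ x : ℂ, (∀ σ : ℂ ≃+* ℂ, σ x = x) → ∃ r : ℚ, (r : ℂ) = x)
    (I1 : ∀ (σ : ℂ ≃+* ℂ) (f : CuspForm Γ₀(N) k), ∃ g : CuspForm Γ₀(N) k,
      ∀ n, qCoeff ⇑g n = σ (qCoeff ⇑f n))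
    (I3 : ∀ f : CuspForm Γ₀(N) k, (∀ n, ∃ r : ℚ, qCoeff ⇑f n = (r : ℂ)) →
      ∃ M : ℕ, 0 < M ∧ ∀ n, ∃ z : ℤ, (M : ℂ) * qCoeff ⇑f n = (z : ℂ)) :
    CuspForm.HasIntegralStructure N k := by
  have := finiteDimensional_cuspForm N k
  have hdesc := span_rational_eq_top_of_stable hfix (coeffMap N k) (coeffMap_injective N k)
    (fun σ f => I1 σ f)
  unfold CuspForm.HasIntegralStructure
  rw [eq_top_iff, ← hdesc, Submodule.span_le]
  intro f hf
  obtain ⟨M, hM, hMf⟩ := I3 f hf
  have hMf' : (M : ℂ) • f ∈ CuspForm.intLattice N k := by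
    apply Submodule.subset_span
    intro n
    obtain ⟨z, hz⟩ := hMf n
    exact ⟨z, by rw [qCoeff_smul, hz]⟩
  have hM0 : (M : ℂ) ≠ 0 := by exact_mod_cast hM.ne'
  have : f = (M : ℂ)⁻¹ • ((M : ℂ) • f) := by
    rw [smul_smul, inv_mul_cancel₀ hM0, one_smul]
  rw [this]
  exact Submodule.smul_mem _ _ (Submodule.subset_span hMf')

end Fermat.Agent.S23.Assemble
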