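import Mathlib

/-!
# Galois descent for finite-dimensional spaces of coefficient sequences

Package P6 of the S23 plan.

* `Fermat.Agent.S23.mem_range_of_forall_ringAut_fixed` : the fixed field of `Aut(ℂ)` is `ℚ`.
* descent lemma for finite-dimensional `Aut(ℂ)`-stable subspaces of `ℕ → ℂ`.
-/

set_option autoImplicit false

noncomputable section

namespace Fermat.Agent.S23.Descent

open MvPolynomial

section ExtendAut

variable {K : Type*} [Field K] [Algebra K ℂ]

/-- Given a transcendence basis `x` of `ℂ` over a subfield-like `K`, any ring automorphism of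
the polynomial ring `K[ι]` extends to a ring automorphism of `ℂ`. -/
theorem exists_ringAut_extending {ι : Type*} (x : ι → ℂ) (hx : IsTranscendenceBasis K x)
    (E : MvPolynomial ι K ≃+* MvPolynomial ι K) :
    ∃ σ : ℂ ≃+* ℂ, ∀ P : MvPolynomial ι K, σ (aeval x P) = aeval x (E P) := by
  classical
  have := IsAlgClosed.isAlgClosure_of_transcendence_basis x hx
  let e : MvPolynomial ι K ≃ₐ[K] Algebra.adjoin K (Set.range x) := hx.1.aevalEquiv
  let E' : Algebra.adjoin K (Set.range x) ≃+* Algebra.adjoin K (Set.range x) :=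
    e.symm.toRingEquiv.trans (E.trans e.toRingEquiv)
  refine ⟨IsAlgClosure.equivOfEquiv ℂ ℂ E', fun P => ?_⟩
  have h1 : aeval x P = algebraMap (Algebra.adjoin K (Set.range x)) ℂ (e P) := by
    simp [e]
  have h2 : aeval x (E P) = algebraMap (Algebra.adjoin K (Set.range x)) ℂ (e (E P)) := by
    simp [e]
  rw [h1, h2, IsAlgClosure.equivOfEquiv_algebraMap]
  congr 1
  simp [E']

end ExtendAut

section FixedField

/-- An algebraic irrational complex number is moved by some ring automorphism of `ℂ`. -/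
theorem exists_ringAut_ne_of_isAlgebraic {z : ℂ} (hz : IsAlgebraic ℚ z)
    (hzQ : z ∉ Set.range (algebraMap ℚ ℂ)) : ∃ σ : ℂ ≃+* ℂ, σ z ≠ z := by
  classical
  let K₀ : IntermediateField ℚ ℂ := algebraicClosure ℚ ℂ
  have hzK : z ∈ K₀ := mem_algebraicClosure_iff.2 hz
  let z₀ : K₀ := ⟨z, hzK⟩
  have hz₀ : z₀ ∉ Set.range (algebraMap ℚ K₀) := by
    rintro ⟨q, hq⟩
    exact hzQ ⟨q, by rw [← show ((z₀ : K₀) : ℂ) = z from rfl, ← hq]; rfl⟩
  have : IsAlgClosure ℚ K₀ := algebraicClosure.isAlgClosure ℚ ℂ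
  have : IsGalois ℚ K₀ := IsAlgClosure.isGalois ℚ K₀
  rw [InfiniteGalois.mem_range_algebraMap_iff_fixed] at hz₀
  push Not at hz₀
  obtain ⟨τ, hτ⟩ := hz₀
  obtain ⟨ι, x, hx⟩ := exists_isTranscendenceBasis' K₀ ℂ
  obtain ⟨σ, hσ⟩ := exists_ringAut_extending x hx (MvPolynomial.mapEquiv ι τ.toRingEquiv)
  refine ⟨σ, fun h => hτ ?_⟩
  have h1 := hσ (C z₀)
  simp only [MvPolynomial.mapEquiv_apply, MvPolynomial.map_C, MvPolynomial.aeval_C] at h1
  apply Subtype.ext
  have h2 : algebraMap K₀ ℂ z₀ = z := rfl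
  rw [h2, h] at h1
  exact h1.symm

/-- A transcendental complex number is moved by some ring automorphism of `ℂ`. -/
theorem exists_ringAut_ne_of_transcendental {z : ℂ} (hz : Transcendental ℚ z) :
    ∃ σ : ℂ ≃+* ℂ, σ z ≠ z := by
  classical
  have hind : AlgebraicIndepOn ℚ id ({z} : Set ℂ) := by
    show AlgebraicIndependent ℚ (fun i : ({z} : Set ℂ) => id i.1)
    rw [algebraicIndependent_unique_type_iff]
    exact hz
  obtain ⟨t, hzt, ht⟩ := exists_isTranscendenceBasis_superset hind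
  let i₀ : t := ⟨z, hzt rfl⟩
  let δ : t → ℚ := fun i => if i = i₀ then 1 else 0
  let f : MvPolynomial t ℚ →ₐ[ℚ] MvPolynomial t ℚ := aeval (fun i => X i + C (δ i))
  let g : MvPolynomial t ℚ →ₐ[ℚ] MvPolynomial t ℚ := aeval (fun i => X i - C (δ i))
  have hfg : f.comp g = AlgHom.id ℚ _ := by
    apply MvPolynomial.algHom_ext
    intro i
    simp [f, g]
  have hgf : g.comp f = AlgHom.id ℚ _ := by
    apply MvPolynomial.algHom_ext
    intro i
    simp [f, g]
  let E : MvPolynomial t ℚ ≃ₐ[ℚ] MvPolynomial t ℚ := AlgEquiv.ofAlgHom f g hfg hgf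
  obtain ⟨σ, hσ⟩ := exists_ringAut_extending (K := ℚ) ((↑) : t → ℂ) ht E.toRingEquiv
  refine ⟨σ, fun h => ?_⟩
  have h1 := hσ (X i₀)
  simp only [aeval_X] at h1
  have h2 : E.toRingEquiv (X i₀) = X i₀ + C 1 := by
    simp [E, f, δ]
  rw [h2] at h1
  simp only [map_add, aeval_X, map_one] at h1
  have h3 : ((i₀ : t) : ℂ) = z := rfl
  rw [h3, h] at h1
  simp at h1

/-- **The fixed field of `Aut(ℂ)` is `ℚ`.** -/
theorem mem_range_of_forall_ringAut_fixed (z : ℂ) (h : ∀ σ : ℂ ≃+* ℂ, σ z = z) :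
    z ∈ Set.range (algebraMap ℚ ℂ) := by
  by_contra hzQ
  by_cases hz : IsAlgebraic ℚ z
  · obtain ⟨σ, hσ⟩ := exists_ringAut_ne_of_isAlgebraic hz hzQ
    exact hσ (h σ)
  · obtain ⟨σ, hσ⟩ := exists_ringAut_ne_of_transcendental hz
    exact hσ (h σ)

end FixedField

section Descent

/-- The set of rational sequences. -/
def IsRatSeq (a : ℕ → ℂ) : Prop := ∀ n, a n ∈ Set.range (algebraMap ℚ ℂ)

/-- Coefficientwise action of a ring automorphism of `ℂ` on sequences. -/
def conjSeq (σ : ℂ ≃+* ℂ) (a : ℕ → ℂ) : ℕ → ℂ := fun n => σ (a n)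

@[simp] theorem conjSeq_apply (σ : ℂ ≃+* ℂ) (a : ℕ → ℂ) (n : ℕ) : conjSeq σ a n = σ (a n) := rfl

/-- A sequence fixed by all automorphisms of `ℂ` is rational. -/
theorem isRatSeq_of_forall_conjSeq_eq {a : ℕ → ℂ} (h : ∀ σ : ℂ ≃+* ℂ, conjSeq σ a = a) :
    IsRatSeq a := fun n =>
  mem_range_of_forall_ringAut_fixed (a n) fun σ => congrFun (h σ) n

variable (V : Submodule ℂ (ℕ → ℂ)) (F : Finset ℕ)

/-- The `F`-support of a sequence. -/
def suppOn (v : ℕ → ℂ) : Finset ℕ := by
  classical exact F.filter fun n => v n ≠ 0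

theorem mem_suppOn {v : ℕ → ℂ} {n : ℕ} : n ∈ suppOn F v ↔ n ∈ F ∧ v n ≠ 0 := by
  classical simp [suppOn]

variable {V F}

theorem suppOn_eq_empty_iff (hF : ∀ v ∈ V, (∀ n ∈ F, v n = 0) → v = 0) {v : ℕ → ℂ} (hv : v ∈ V) :
    suppOn F v = ∅ ↔ v = 0 := by
  constructor
  · intro h
    refine hF v hv fun n hn => ?_
    by_contra hne
    have : n ∈ suppOn F v := (mem_suppOn F).2 ⟨hn, hne⟩
    rw [h] at this
    exact absurd this (Finset.notMem_empty n)
  · rintro rfl
    ext n
    simp [mem_suppOn]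

/-- Key lemma: every nonzero vector of `V` dominates (support-wise) a nonzero rational vector. -/
theorem exists_rat_le_supp (hF : ∀ v ∈ V, (∀ n ∈ F, v n = 0) → v = 0)
    (hσ : ∀ σ : ℂ ≃+* ℂ, ∀ v ∈ V, conjSeq σ v ∈ V) :
    ∀ (m : ℕ) (v : ℕ → ℂ), v ∈ V → v ≠ 0 → (suppOn F v).card ≤ m →
      ∃ u ∈ V, u ≠ 0 ∧ suppOn F u ⊆ suppOn F v ∧ IsRatSeq u := by
  intro m
  induction m with
  | zero =>
    intro v hv hv0 hcard
    exfalso
    apply hv0
    rw [← suppOn_eq_empty_iff hF hv]
    exact Finset.card_eq_zero.1 (Nat.le_zero.1 hcard)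
  | succ m ih =>
    intro v hv hv0 hcard
    by_cases hex : ∃ u' ∈ V, u' ≠ 0 ∧ suppOn F u' ⊂ suppOn F v
    · obtain ⟨u', hu'V, hu'0, hu's⟩ := hex
      have hc : (suppOn F u').card ≤ m := by
        have := Finset.card_lt_card hu's
        omega
      obtain ⟨u, huV, hu0, hus, hur⟩ := ih u' hu'V hu'0 hc
      exact ⟨u, huV, hu0, hus.trans hu's.subset, hur⟩
    · push Not at hex
      -- `v` has minimal support
      have hne : (suppOn F v).Nonempty := by
        rw [Finset.nonempty_iff_ne_empty, Ne, suppOn_eq_empty_iff hF hv]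
        exact hv0
      obtain ⟨i, hi⟩ := hne
      obtain ⟨hiF, hvi⟩ := (mem_suppOn F).1 hi
      let u : ℕ → ℂ := (v i)⁻¹ • v
      have huV : u ∈ V := V.smul_mem _ hv
      have hui : u i = 1 := by simp [u, hvi]
      have hu0 : u ≠ 0 := fun h => by
        have := congrFun h i
        rw [hui] at this
        exact one_ne_zero this
      have hus : suppOn F u ⊆ suppOn F v := by
        intro n hn
        obtain ⟨hnF, hun⟩ := (mem_suppOn F).1 hn
        refine (mem_suppOn F).2 ⟨hnF, fun h0 => hun ?_⟩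
        simp [u, h0]
      refine ⟨u, huV, hu0, hus, isRatSeq_of_forall_conjSeq_eq fun σ => ?_⟩
      -- `σ u - u` has strictly smaller support, hence vanishes
      have hwV : conjSeq σ u - u ∈ V := V.sub_mem (hσ σ u huV) huV
      have hws : suppOn F (conjSeq σ u - u) ⊂ suppOn F v := by
        refine ⟨fun n hn => ?_, fun hsub => ?_⟩
        · obtain ⟨hnF, hwn⟩ := (mem_suppOn F).1 hn
          refine hus ((mem_suppOn F).2 ⟨hnF, fun h0 => hwn ?_⟩)
          simp [h0]
        · have := hsub hi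
          obtain ⟨-, hwi⟩ := (mem_suppOn F).1 this
          apply hwi
          simp [hui]
      have hw0 : conjSeq σ u - u = 0 := by
        by_contra hw
        exact hex _ hwV hw hws
      exact sub_eq_zero.1 hw0

/-- **Galois descent.** A subspace `V` of sequences, detected by finitely many coordinates and
stable under the coefficientwise action of `Aut(ℂ)`, is spanned by its rational vectors. -/
theorem le_span_isRatSeq (hF : ∀ v ∈ V, (∀ n ∈ F, v n = 0) → v = 0)
    (hσ : ∀ σ : ℂ ≃+* ℂ, ∀ v ∈ V, conjSeq σ v ∈ V) :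
    V ≤ Submodule.span ℂ {a | a ∈ V ∧ IsRatSeq a} := by
  have key : ∀ (m : ℕ) (v : ℕ → ℂ), v ∈ V → (suppOn F v).card ≤ m →
      v ∈ Submodule.span ℂ {a | a ∈ V ∧ IsRatSeq a} := by
    intro m
    induction m with
    | zero =>
      intro v hv hcard
      have : v = 0 := by
        rw [← suppOn_eq_empty_iff hF hv]
        exact Finset.card_eq_zero.1 (Nat.le_zero.1 hcard)
      rw [this]
      exact Submodule.zero_mem _
    | succ m ih =>
      intro v hv hcard
      by_cases hv0 : v = 0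
      · rw [hv0]; exact Submodule.zero_mem _
      obtain ⟨u, huV, hu0, hus, hur⟩ := exists_rat_le_supp hF hσ _ v hv hv0 le_rfl
      have hne : (suppOn F u).Nonempty := by
        rw [Finset.nonempty_iff_ne_empty, Ne, suppOn_eq_empty_iff hF huV]
        exact hu0
      obtain ⟨i, hi⟩ := hne
      obtain ⟨hiF, hui⟩ := (mem_suppOn F).1 hi
      let c : ℂ := v i / u i
      have hv'V : v - c • u ∈ V := V.sub_mem hv (V.smul_mem _ huV)
      have hv's : suppOn F (v - c • u) ⊂ suppOn F v := by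
        refine ⟨fun n hn => ?_, fun hsub => ?_⟩
        · obtain ⟨hnF, hwn⟩ := (mem_suppOn F).1 hn
          refine (mem_suppOn F).2 ⟨hnF, fun h0 => hwn ?_⟩
          have hun : u n = 0 := by
            by_contra hun
            have := hus ((mem_suppOn F).2 ⟨hnF, hun⟩)
            exact ((mem_suppOn F).1 this).2 h0
          simp [h0, hun]
        · have := hsub (hus hi)
          obtain ⟨-, hwi⟩ := (mem_suppOn F).1 this
          apply hwi
          simp [c, hui]
      have hc : (suppOn F (v - c • u)).card ≤ m := by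
        have := Finset.card_lt_card hv's
        omega
      have h1 := ih _ hv'V hc
      have h2 : c • u ∈ Submodule.span ℂ {a | a ∈ V ∧ IsRatSeq a} :=
        Submodule.smul_mem _ _ (Submodule.subset_span ⟨huV, hur⟩)
      have := Submodule.add_mem _ h1 h2
      simpa using this
  intro v hv
  exact key _ v hv le_rfl

theorem span_isRatSeq_eq (hF : ∀ v ∈ V, (∀ n ∈ F, v n = 0) → v = 0)
    (hσ : ∀ σ : ℂ ≃+* ℂ, ∀ v ∈ V, conjSeq σ v ∈ V) :
    Submodule.span ℂ {a | a ∈ V ∧ IsRatSeq a} = V :=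
  le_antisymm (Submodule.span_le.2 fun _ ha => ha.1) (le_span_isRatSeq hF hσ)

end Descent

section FiniteDim

/-- A finite-dimensional space of sequences is detected by finitely many coordinates. -/
theorem exists_finset_detecting (V : Submodule ℂ (ℕ → ℂ)) [FiniteDimensional ℂ V] :
    ∃ F : Finset ℕ, ∀ v ∈ V, (∀ n ∈ F, v n = 0) → v = 0 := by
  let K : ℕ → Submodule ℂ V := fun m =>
    { carrier := {v | ∀ n < m, (v : ℕ → ℂ) n = 0}
      add_mem' := fun {a b} ha hb n hn => by simp [ha n hn, hb n hn]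
      zero_mem' := fun n _ => rfl
      smul_mem' := fun c a ha n hn => by simp [ha n hn] }
  have hK : Antitone K := fun m m' hmm' v hv n hn => hv n (lt_of_lt_of_le hn hmm')
  obtain ⟨n, hn⟩ := IsArtinian.monotone_stabilizes
    (⟨fun m => OrderDual.toDual (K m), fun m m' h => hK h⟩ : ℕ →o (Submodule ℂ V)ᵒᵈ)
  refine ⟨Finset.range n, fun v hv h0 => ?_⟩
  have hvn : (⟨v, hv⟩ : V) ∈ K n := fun j hj => h0 j (Finset.mem_range.2 hj)
  funext j
  have hj : (⟨v, hv⟩ : V) ∈ K (max n (j + 1)) := by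
    have h := hn (max n (j + 1)) (le_max_left _ _)
    have h' : K n = K (max n (j + 1)) := h
    rw [← h']
    exact hvn
  exact hj j (lt_of_lt_of_le (Nat.lt_succ_self j) (le_max_right _ _))

/-- **Galois descent**, finite-dimensional version. -/
theorem span_isRatSeq_eq_of_finiteDimensional (V : Submodule ℂ (ℕ → ℂ)) [FiniteDimensional ℂ V]
    (hσ : ∀ σ : ℂ ≃+* ℂ, ∀ v ∈ V, conjSeq σ v ∈ V) :
    Submodule.span ℂ {a | a ∈ V ∧ IsRatSeq a} = V := by
  obtain ⟨F, hF⟩ := exists_finset_detecting V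
  exact span_isRatSeq_eq hF hσ

end FiniteDim

end Fermat.Agent.S23.Descent
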