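import Mathlib
import Fermat.Statements.S23
import Fermat.Agent.S23.Defs
import Fermat.Agent.S23.TN

/-!
# S23 project, P2b: the `q`-expansion of `t_N = Δ(N·)` is `∑ τ(n) q^{Nn}`.
-/

set_option autoImplicit false

open UpperHalfPlane ModularForm CongruenceSubgroup Function
open scoped MatrixGroups ModularForm Manifold

namespace Fermat.Agent.S23.TNq

open Fermat.Agent.S23

variable (N : ℕ) [NeZero N]

/-- **P2b**: the `q`-expansion of `t_N = Δ(N·)` is `∑ τ(n) q^{N n}`. -/
theorem coeff_qExpansion_tN (n : ℕ) :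
    (qExpansion 1 (tN N)).coeff n =
      if N ∣ n then (qExpansion 1 ModularForm.discriminant).coeff (n / N) else 0 := by
  have hN : N ≠ 0 := NeZero.ne N
  have hNpos : 0 < N := Nat.pos_of_ne_zero hN
  obtain ⟨T, hT⟩ := TN.tN_isMF N
  set c : ℕ → ℂ := fun n ↦
    if N ∣ n then (qExpansion 1 ModularForm.discriminant).coeff (n / N) else 0 with hc
  have h1 : (1 : ℝ) ∈ (Gamma0 N : Subgroup (GL (Fin 2) ℝ)).strictPeriods := by
    simp [CongruenceSubgroup.strictPeriods_Gamma0]
  have hsum : ∀ τ : ℍ, HasSum (fun m ↦ c m • Periodic.qParam 1 τ ^ m) (T τ) := by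
    intro τ
    have hpos : 0 < ((N : ℂ) * τ).im := by
      have : (0 : ℝ) < N := by exact_mod_cast hNpos
      simpa using mul_pos this τ.im_pos
    set τ' : ℍ := ⟨(N : ℂ) * τ, hpos⟩ with hτ'
    have hval : T τ = ModularForm.discriminant τ' := by
      rw [hT, tN, dif_pos hNpos]
    have hq : Periodic.qParam 1 τ' = Periodic.qParam 1 τ ^ N := by
      simp only [Periodic.qParam, ← Complex.exp_nat_mul, hτ']
      congr 1
      push_cast
      ring
    have hs := ModularForm.hasSum_qExpansion (f := CuspForm.discriminant) (h := 1) one_pos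
      one_mem_strictPeriods_SL τ'
    rw [CuspForm.coe_discriminant] at hs
    change HasSum _ (ModularForm.discriminant τ') at hs
    simp_rw [hq, ← pow_mul] at hs
    have hinj : Injective (fun m : ℕ ↦ N * m) := mul_right_injective₀ hN
    have hsupp : ∀ x ∉ Set.range (fun m : ℕ ↦ N * m),
        (fun m ↦ c m • Periodic.qParam 1 τ ^ m) x = 0 := by
      intro x hx
      have : ¬ N ∣ x := by
        rintro ⟨d, rfl⟩
        exact hx ⟨d, rfl⟩
      simp [hc, this]
    rw [hval]
    refine (hinj.hasSum_iff hsupp).mp ?_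
    convert hs using 1
    ext m
    simp [hc, Nat.mul_div_cancel_left _ hNpos]
  have key := ModularFormClass.qExpansion_coeff_unique (f := T) one_pos h1 hsum n
  rw [← hT]
  exact key.symm

end Fermat.Agent.S23.TNq
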