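import Mathlib
import Fermat.Statements.S23
import Fermat.Agent.S23.Defs
import Fermat.Agent.S23.QNice
import Fermat.Agent.S23.Conj
import Fermat.Agent.S23.LevelOneGalois
import Fermat.Agent.S23.Descent
import Fermat.Agent.S23.Assemble
import Fermat.Agent.S23.TN
import Fermat.Agent.S23.TNq

/-!
# S23 project: final assembly (all weights), with the not-yet-landed packages as hypotheses.
-/

set_option autoImplicit false

open UpperHalfPlane ModularForm CongruenceSubgroup Function
open scoped MatrixGroups ModularForm Manifold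

namespace Fermat.Agent.S23

/-- P1 output in the shape used by `Conj.lean`. -/
theorem levelOneConj : LevelOneConj := fun σ w g =>
  exists_levelOne_qExpansion_map (σ : ℂ →+* ℂ) w g

/-- `t_N` has rational `q`-expansion coefficients. -/
theorem tN_rat (N : ℕ) [NeZero N] (n : ℕ) :
    ∃ r : ℚ, (qExpansion 1 (tN N)).coeff n = (r : ℂ) := by
  rw [TNq.coeff_qExpansion_tN]
  split_ifs
  · exact (mem_ratSeries_iff _).mp qExpansion_discriminant_mem_ratSeries _
  · exact ⟨0, by simp⟩

/-- The bounded-denominator statement (I3 of `Assemble.hasIntegralStructure_of`). -/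
def BoundedDenThm (N : ℕ) (k : ℤ) : Prop :=
  ∀ f : CuspForm (Gamma0 N) k, (∀ n, ∃ r : ℚ, ModularFormClass.qCoeff ⇑f n = (r : ℂ)) →
    ∃ M : ℕ, 0 < M ∧ ∀ n, ∃ z : ℤ, (M : ℂ) * ModularFormClass.qCoeff ⇑f n = (z : ℂ)

/-- **Integral structure in all weights**, from the package outputs. -/
theorem hasIntegralStructure_of_packages (N : ℕ) [NeZero N] (k : ℤ)
    (hS : StructureThm N k) (hC : ConstructThm N k) (hB : BoundedDenThm N k) :
    CuspForm.HasIntegralStructure N k := by
  refine Assemble.hasIntegralStructure_of N k ?_ ?_ hB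
  · intro x hx
    obtain ⟨r, hr⟩ := Descent.mem_range_of_forall_ringAut_fixed x hx
    exact ⟨r, hr⟩
  · intro σ f
    obtain ⟨g, hg⟩ := exists_conj_of N k levelOneConj (TN.tN_isMF N) (tN_rat N) hS hC σ f
    exact ⟨g, hg⟩

end Fermat.Agent.S23
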