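import Mathlib
import Fermat.Statements.S23
import Fermat.Agent.S23.Main
import Fermat.Agent.S23.BoundedDenForms
import Fermat.Agent.S23.InterpStructure
import Fermat.Agent.S23.ConstructThm

/-!
# S23 project: final theorem `HasIntegralStructure N k` for all `N ≥ 1`, `k : ℤ`.
-/

set_option autoImplicit false

open UpperHalfPlane ModularForm CongruenceSubgroup Function
open scoped MatrixGroups ModularForm Manifold

namespace Fermat.Agent.S23.Final

open Fermat.Agent.S23

/-- The substitution `q ↦ q^N` on power series, as a linear map. -/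
noncomputable def expandLin (N : ℕ) : PowerSeries ℂ →ₗ[ℂ] PowerSeries ℂ where
  toFun p := PowerSeries.mk fun n => if N ∣ n then PowerSeries.coeff (n / N) p else 0
  map_add' p q := by
    ext n
    simp only [PowerSeries.coeff_mk, map_add]
    split_ifs <;> simp
  map_smul' c p := by
    ext n
    simp only [PowerSeries.coeff_mk, PowerSeries.coeff_smul, RingHom.id_apply, smul_eq_mul]
    split_ifs <;> simp

lemma coeff_expandLin (N : ℕ) (p : PowerSeries ℂ) (n : ℕ) :
    PowerSeries.coeff n (expandLin N p) = if N ∣ n then PowerSeries.coeff (n / N) p else 0 := by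
  simp [expandLin]

lemma expandLin_mem_intSpan (N : ℕ) {p : PowerSeries ℂ} (hp : p ∈ BDForms.intSpan) :
    expandLin N p ∈ BDForms.intSpan := by
  induction hp using Submodule.span_induction with
  | mem x hx =>
    obtain ⟨q, -, rfl⟩ := hx
    apply BDForms.mem_intSpan_of_int_coeff
    intro n
    rw [coeff_expandLin]
    split_ifs
    · exact ⟨PowerSeries.coeff (n / N) q, by simp⟩
    · exact ⟨0, by simp⟩
  | zero => rw [map_zero]; exact Submodule.zero_mem _
  | add x y _ _ hx hy => rw [map_add]; exact Submodule.add_mem _ hx hy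
  | smul c x _ hx => rw [map_smul]; exact Submodule.smul_mem _ c hx

/-- The `q`-expansion of `t_N` lies in the `ℂ`-span of integral power series. -/
theorem qExpansion_tN_mem_intSpan (N : ℕ) [NeZero N] :
    qExpansion 1 (tN N) ∈ BDForms.intSpan := by
  have : qExpansion 1 (tN N) = expandLin N (qExpansion 1 ModularForm.discriminant) := by
    ext n
    rw [coeff_expandLin, TNq.coeff_qExpansion_tN]
  rw [this]
  exact expandLin_mem_intSpan N BDForms.qExpansion_discriminant_mem_intSpan

/-- Bounded denominators (variant of `BDForms.bounded_denominators_nat_of` needing only that the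
`q`-expansion of `t_N` lies in `intSpan`). -/
theorem bounded_denominators_nat (N : ℕ) [NeZero N] (k : ℤ)
    (hS : StructureThm N k) (f : CuspForm (Gamma0 N) k)
    (hf : ∀ n, ∃ r : ℚ, (qExpansion 1 f).coeff n = (r : ℂ)) :
    ∃ M : ℕ, 0 < M ∧ ∀ n, ∃ z : ℤ, (M : ℂ) * (qExpansion 1 f).coeff n = (z : ℂ) := by
  classical
  have htMF := TN.tN_isMF N
  obtain ⟨μ, wD, D, c, a, hμ, hD, hD0, hc, ha, hDf, hPf⟩ := hS f
  let 𝒩 := qNiceSubring
  let Dn : 𝒩 := ⟨D, QNice.of_isMF_levelOne hD⟩
  let cn : Fin μ → 𝒩 := fun m => ⟨c m, QNice.of_isMF_levelOne (hc m)⟩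
  let an : Fin μ → 𝒩 := fun l => ⟨a l, QNice.of_isMF_levelOne (ha l).isMF⟩
  let tn : 𝒩 := ⟨tN N, QNice.of_isMF_Gamma0 htMF⟩
  let fn : 𝒩 := ⟨f, QNice.of_isMF_Gamma0 ⟨ModularFormClass.modularForm f, rfl⟩⟩
  have hG : Dn * fn = ∑ m : Fin μ, cn m * tn ^ (m : ℕ) := by
    apply Subtype.ext
    funext τ
    simp only [cn, tn, Dn, fn, Subring.coe_mul, Pi.mul_apply, AddSubmonoidClass.coe_finsetSum,
      Finset.sum_apply, SubmonoidClass.coe_pow, Pi.pow_apply]
    exact hDf τ
  have hP : fn ^ μ + ∑ l : Fin μ, an l * fn ^ (l : ℕ) = 0 := by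
    apply Subtype.ext
    funext τ
    simp only [an, fn, Subring.coe_add, Subring.coe_mul, Pi.add_apply, Pi.mul_apply,
      AddSubmonoidClass.coe_finsetSum, Finset.sum_apply, SubmonoidClass.coe_pow, Pi.pow_apply,
      ZeroMemClass.coe_zero, Pi.zero_apply]
    exact hPf τ
  have hDmem : qExpHom Dn ∈ BDForms.intSpan := BDForms.qExpansion_mem_intSpan_of_isMF hD
  have hcmem : ∀ m, qExpHom (cn m) ∈ BDForms.intSpan :=
    fun m => BDForms.qExpansion_mem_intSpan_of_isMF (hc m)
  have hamem : ∀ l, qExpHom (an l) ∈ BDForms.intSpan :=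
    fun l => BDForms.qExpansion_mem_intSpan_of_isMF (ha l).isMF
  have htmem : qExpHom tn ∈ BDForms.intSpan := qExpansion_tN_mem_intSpan N
  have hDne : qExpHom Dn ≠ 0 := by
    intro h0
    have := qExpHom_injective (h0.trans (map_zero _).symm)
    exact hD0 (congrArg Subtype.val this)
  have hG' : qExpHom Dn * qExpHom fn = ∑ m : Fin μ, qExpHom (cn m) * qExpHom tn ^ (m : ℕ) := by
    rw [← map_mul, hG]
    simp only [map_sum, map_mul, map_pow]
  have hP' : qExpHom fn ^ μ + ∑ l : Fin μ, qExpHom (an l) * qExpHom fn ^ (l : ℕ) = 0 := by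
    have := congrArg qExpHom hP
    simpa only [map_add, map_pow, map_sum, map_mul, map_zero] using this
  exact BoundedDen.exists_nat_smul_int Set.univ (qExpHom fn) hf (qExpHom Dn)
    (∑ m : Fin μ, qExpHom (cn m) * qExpHom tn ^ (m : ℕ)) hDmem
    (BDForms.sum_mem_intSpan _ fun m _ =>
      BDForms.mul_mem_intSpan (hcmem m) (BDForms.pow_mem_intSpan htmem _))
    hDne hG' μ (fun l => qExpHom (an l)) hamem hP'

theorem boundedDenThm (N : ℕ) [NeZero N] (k : ℤ) : BoundedDenThm N k :=
  fun f hf => bounded_denominators_nat N k (InterpStructure.structureThm N k) f hf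

/-- **Integral structure of `S_k(Γ₀(N))` for every level `N ≥ 1` and every weight `k`.** -/
theorem hasIntegralStructure (N : ℕ) [NeZero N] (k : ℤ) : CuspForm.HasIntegralStructure N k :=
  hasIntegralStructure_of_packages N k (InterpStructure.structureThm N k)
    (Construct.constructThm N k (TN.tN_isMF N)) (boundedDenThm N k)

end Fermat.Agent.S23.Final
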