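import Fermat.Agent.S22.Trivial
import Fermat.Agent.Lib.HeckeFiniteOfIntegral

/-!
# S22 from the integral structure (all weights)

`Module.Finite ℤ (heckeAlgebra N k S)` for all `N k S`, given `HasIntegralStructure N k` for all
`k ≥ 1` (the output of the S23 route).  The case `k ≤ 0` is `Fermat.Agent.S22.result_of_nonpos`.
-/

set_option autoImplicit false

namespace Fermat.Agent.S23.S22Corollary

theorem moduleFinite_heckeAlgebra
    (H : ∀ (N : ℕ) [NeZero N] (k : ℤ), 1 ≤ k → CuspForm.HasIntegralStructure N k)
    (N : ℕ) [NeZero N] (k : ℤ) (S : Set ℕ) :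
    Module.Finite ℤ (CuspForm.heckeAlgebra N k S) := by
  rcases le_or_gt k 0 with hk | hk
  · exact Fermat.Agent.S22.result_of_nonpos hk S
  · exact Fermat.Agent.Lib.HeckeFiniteOfIntegral.moduleFinite_heckeAlgebra_of_hasIntegralStructure
      N (by omega) S (H N k (by omega))

end Fermat.Agent.S23.S22Corollary
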