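import Mathlib
import Fermat.Agent.S23.Defs

/-!
# S23 project, package P2c (independent backup by helper52)

The stabiliser in `SL(2,ℤ)` of `t_N = Δ(N ·)` (weight 12 slash action) is contained in `Γ₀(N)`.

Route: for `γ = !![a, b; c, d]`, factor `!![N a, N b; c, d] = γ₁ * !![A, B; 0, D]` with
`γ₁ ∈ SL(2,ℤ)`, `A = gcd (N a) c`, `A * D = N`.  Then `(t_N ∣[12] γ) z = D⁻¹² Δ((A z + B) / D)` and
comparing the decay at `i∞` with that of `t_N z = Δ(N z)` forces `D = 1`, i.e. `N ∣ c`.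
-/

set_option autoImplicit false

open UpperHalfPlane ModularForm CongruenceSubgroup Filter Complex
open scoped MatrixGroups ModularForm Manifold Topology Real

namespace Fermat.Agent.S23.Stab52

local notation "Δ" => ModularForm.discriminant
local notation "𝕢" => Function.Periodic.qParam

/-- The product factor of `Δ`, so that `Δ τ = 𝕢 1 τ * prodFactor τ`. -/
noncomputable def prodFactor (τ : ℍ) : ℂ := ∏' n : ℕ, (1 - eta_q n τ) ^ 24

lemma discriminant_eq (τ : ℍ) : Δ τ = 𝕢 1 τ * prodFactor τ :=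
  ModularForm.discriminant_eq_q_prod τ

lemma tendsto_prodFactor : Tendsto prodFactor atImInfty (𝓝 1) :=
  ModularForm.tendsto_atImInfty_tprod_one_sub_eta_q_pow

lemma norm_discriminant (τ : ℍ) :
    ‖Δ τ‖ = Real.exp (-2 * π * τ.im) * ‖prodFactor τ‖ := by
  rw [discriminant_eq, norm_mul, Function.Periodic.norm_qParam]
  simp

/-- `Δ` transforms with weight 12 under `SL(2,ℤ)`. -/
lemma discriminant_smul (g : SL(2, ℤ)) (w : ℍ) :
    Δ (g • w) = ((g 1 0 : ℂ) * w + (g 1 1 : ℂ)) ^ (12 : ℤ) * Δ w := by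
  have h := SlashInvariantForm.slash_action_generators_SL2Z
    ModularForm.discriminant_S_invariant ModularForm.discriminant_T_invariant g
  exact (ModularForm.slash_action_eq'_iff 12 Δ g w).mp (congrFun h w)

/-- The point `(A z + B) / D` of the upper half plane, for `0 < A`, `0 < D`. -/
noncomputable def affPt (A B D : ℤ) (hA : 0 < A) (hD : 0 < D) (z : ℍ) : ℍ :=
  ⟨((A : ℂ) * z + (B : ℂ)) / (D : ℂ), by
    have hA' : (0 : ℝ) < A := by exact_mod_cast hA
    have hD' : (0 : ℝ) < D := by exact_mod_cast hD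
    have : (((A : ℂ) * z + (B : ℂ)) / (D : ℂ)).im = (A : ℝ) * z.im / (D : ℝ) := by
      have hD'' : (D : ℂ) = ((D : ℝ) : ℂ) := by push_cast; rfl
      rw [hD'', Complex.div_ofReal_im]
      simp
    rw [this]
    exact div_pos (mul_pos hA' z.im_pos) hD'⟩

lemma affPt_coe (A B D : ℤ) (hA : 0 < A) (hD : 0 < D) (z : ℍ) :
    (affPt A B D hA hD z : ℂ) = ((A : ℂ) * z + (B : ℂ)) / (D : ℂ) := rfl

lemma affPt_im (A B D : ℤ) (hA : 0 < A) (hD : 0 < D) (z : ℍ) :
    (affPt A B D hA hD z).im = (A : ℝ) * z.im / (D : ℝ) := by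
  change (((A : ℂ) * z + (B : ℂ)) / (D : ℂ)).im = _
  have hD'' : (D : ℂ) = ((D : ℝ) : ℂ) := by push_cast; rfl
  rw [hD'', Complex.div_ofReal_im]
  simp

lemma tendsto_affPt (A B D : ℤ) (hA : 0 < A) (hD : 0 < D) :
    Tendsto (affPt A B D hA hD) atImInfty atImInfty := by
  rw [atImInfty, tendsto_comap_iff]
  have hA' : (0 : ℝ) < A := by exact_mod_cast hA
  have hD' : (0 : ℝ) < D := by exact_mod_cast hD
  have : (UpperHalfPlane.im ∘ affPt A B D hA hD) = fun z : ℍ => ((A : ℝ) / (D : ℝ)) * z.im := by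
    funext z
    simp only [Function.comp_apply, affPt_im]
    ring
  rw [this]
  exact (tendsto_comap).const_mul_atTop (div_pos hA' hD')


/-- Hermite-type factorisation `!![N a, N b; c, d] = g₁ * !![A, B; 0, D]`. -/
lemma hermite (N : ℤ) (hN : 0 < N) (γ : SL(2, ℤ)) :
    ∃ (g₁ : SL(2, ℤ)) (A B D : ℤ), 0 < A ∧ 0 < D ∧ A * D = N ∧ A ∣ γ 1 0 ∧
      g₁ 0 0 * A = N * γ 0 0 ∧ g₁ 1 0 * A = γ 1 0 ∧
      g₁ 0 0 * B + g₁ 0 1 * D = N * γ 0 1 ∧ g₁ 1 0 * B + g₁ 1 1 * D = γ 1 1 := by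
  set a := γ 0 0 with ha
  set b := γ 0 1 with hb
  set c := γ 1 0 with hc
  set d := γ 1 1 with hd
  have hdet : a * d - b * c = 1 := by
    have := γ.det_coe
    rw [Matrix.det_fin_two] at this
    simpa [ha, hb, hc, hd] using this
  set g : ℕ := Int.gcd (N * a) c with hg
  have hgpos : 0 < g := by
    rw [hg, Int.gcd_pos_iff]
    by_contra hcon
    push Not at hcon
    obtain ⟨h1, h2⟩ := hcon
    have ha0 : a = 0 := by
      rcases mul_eq_zero.mp h1 with h | h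
      · omega
      · exact h
    rw [ha0, h2] at hdet
    simp at hdet
  have hgpos' : (0 : ℤ) < (g : ℤ) := by exact_mod_cast hgpos
  have hg1 : (g : ℤ) ∣ N * a := Int.gcd_dvd_left _ _
  have hg2 : (g : ℤ) ∣ c := Int.gcd_dvd_right _ _
  set a' := N * a / g with ha'
  set c' := c / g with hc'
  have hga : a' * g = N * a := Int.ediv_mul_cancel hg1
  have hgc : c' * g = c := Int.ediv_mul_cancel hg2
  have hcop : Int.gcd a' c' = 1 := Int.gcd_div_gcd_div_gcd hgpos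
  have hbez : a' * Int.gcdA a' c' + c' * Int.gcdB a' c' = 1 := by
    have := Int.gcd_eq_gcd_ab a' c'
    rw [hcop] at this
    exact_mod_cast this.symm
  set v := Int.gcdA a' c' with hv
  set u := -Int.gcdB a' c' with hu
  have hdet1 : a' * v - u * c' = 1 := by rw [hu]; linarith
  let g₁ : SL(2, ℤ) := ⟨!![a', u; c', v], by rw [Matrix.det_fin_two_of]; exact hdet1⟩
  refine ⟨g₁, g, v * N * b - u * d, a' * d - c' * N * b, hgpos', ?_, ?_, hg2, ?_, ?_, ?_, ?_⟩
  · -- 0 < D, from A * D = N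
    have hAD : (g : ℤ) * (a' * d - c' * N * b) = N := by
      have : (g : ℤ) * (a' * d - c' * N * b) = (a' * g) * d - (c' * g) * N * b := by ring
      rw [this, hga, hgc]
      have : N * a * d - c * N * b = N * (a * d - b * c) := by ring
      rw [this, hdet, mul_one]
    by_contra hneg
    push Not at hneg
    have : (g : ℤ) * (a' * d - c' * N * b) ≤ 0 :=
      mul_nonpos_of_nonneg_of_nonpos hgpos'.le hneg
    omega
  · have : (g : ℤ) * (a' * d - c' * N * b) = (a' * g) * d - (c' * g) * N * b := by ring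
    rw [this, hga, hgc]
    have : N * a * d - c * N * b = N * (a * d - b * c) := by ring
    rw [this, hdet, mul_one]
  · show a' * (g : ℤ) = N * a
    exact hga
  · show c' * (g : ℤ) = c
    exact hgc
  · show a' * (v * N * b - u * d) + u * (a' * d - c' * N * b) = N * b
    have : a' * (v * N * b - u * d) + u * (a' * d - c' * N * b) = (a' * v - u * c') * (N * b) := by
      ring
    rw [this, hdet1, one_mul]
  · show c' * (v * N * b - u * d) + v * (a' * d - c' * N * b) = d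
    have : c' * (v * N * b - u * d) + v * (a' * d - c' * N * b) = (a' * v - u * c') * d := by
      ring
    rw [this, hdet1, one_mul]


lemma tN_apply (N : ℕ) (hN : 0 < N) (τ : ℍ) (h : 0 < ((N : ℂ) * (τ : ℂ)).im) :
    tN N τ = Δ ⟨(N : ℂ) * τ, h⟩ := by
  unfold tN
  rw [dif_pos hN]

/-- The key formula `(t_N ∣[12] γ) z = D⁻¹² Δ((A z + B) / D)`. -/
lemma tN_slash_apply (N : ℕ) (hN : 0 < N) (γ g₁ : SL(2, ℤ)) (A B D : ℤ) (hA : 0 < A) (hD : 0 < D)
    (h00 : g₁ 0 0 * A = N * γ 0 0) (h10 : g₁ 1 0 * A = γ 1 0)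
    (h01 : g₁ 0 0 * B + g₁ 0 1 * D = N * γ 0 1) (h11 : g₁ 1 0 * B + g₁ 1 1 * D = γ 1 1)
    (z : ℍ) :
    ((tN N) ∣[(12 : ℤ)] γ) z = ((D : ℂ) ^ (12 : ℤ))⁻¹ * Δ (affPt A B D hA hD z) := by
  set w := affPt A B D hA hD z with hw
  have hDne : (D : ℂ) ≠ 0 := by exact_mod_cast hD.ne'
  have hwc : (w : ℂ) = ((A : ℂ) * z + (B : ℂ)) / (D : ℂ) := rfl
  -- denominators
  have hden : ((γ 1 0 : ℤ) : ℂ) * z + ((γ 1 1 : ℤ) : ℂ) ≠ 0 := by
    have := denom_ne_zero (γ : GL (Fin 2) ℝ) z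
    simpa [denom] using this
  have hden1 : ((g₁ 1 0 : ℤ) : ℂ) * w + ((g₁ 1 1 : ℤ) : ℂ) ≠ 0 := by
    have := denom_ne_zero (g₁ : GL (Fin 2) ℝ) w
    simpa [denom] using this
  -- relation between denominators
  have hrel : ((g₁ 1 0 : ℤ) : ℂ) * w + ((g₁ 1 1 : ℤ) : ℂ)
      = (((γ 1 0 : ℤ) : ℂ) * z + ((γ 1 1 : ℤ) : ℂ)) / (D : ℂ) := by
    rw [hwc]
    have e10 : ((γ 1 0 : ℤ) : ℂ) = ((g₁ 1 0 : ℤ) : ℂ) * (A : ℂ) := by
      rw [← h10]; push_cast; ring
    have e11 : ((γ 1 1 : ℤ) : ℂ) = ((g₁ 1 0 : ℤ) : ℂ) * (B : ℂ) + ((g₁ 1 1 : ℤ) : ℂ) * (D : ℂ) := by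
      rw [← h11]; push_cast; ring
    rw [e10, e11]
    field_simp
    ring
  -- the point N * (γ • z) equals g₁ • w
  have hpt : ((N : ℂ) * ((γ • z : ℍ) : ℂ)) = ((g₁ • w : ℍ) : ℂ) := by
    rw [coe_specialLinearGroup_apply, coe_specialLinearGroup_apply]
    simp only [algebraMap_int_eq, Int.coe_castRingHom, Complex.ofReal_intCast]
    have e00 : (N : ℂ) * ((γ 0 0 : ℤ) : ℂ) = ((g₁ 0 0 : ℤ) : ℂ) * (A : ℂ) := by
      have := congrArg (fun x : ℤ => (x : ℂ)) h00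
      push_cast at this
      rw [this]
    have e01 : (N : ℂ) * ((γ 0 1 : ℤ) : ℂ)
        = ((g₁ 0 0 : ℤ) : ℂ) * (B : ℂ) + ((g₁ 0 1 : ℤ) : ℂ) * (D : ℂ) := by
      have := congrArg (fun x : ℤ => (x : ℂ)) h01
      push_cast at this
      rw [this]
    rw [hrel]
    rw [hwc]
    have hnum : (N : ℂ) * (((γ 0 0 : ℤ) : ℂ) * z + ((γ 0 1 : ℤ) : ℂ))
        = (((g₁ 0 0 : ℤ) : ℂ) * (((A : ℂ) * z + (B : ℂ)) / (D : ℂ)) + ((g₁ 0 1 : ℤ) : ℂ)) * (D : ℂ) := by
      rw [mul_add, ← mul_assoc, e00, e01]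
      field_simp
      ring
    rw [mul_div_assoc', hnum]
    field_simp
  have him : 0 < ((N : ℂ) * ((γ • z : ℍ) : ℂ)).im := by
    rw [hpt]; exact (g₁ • w).im_pos
  have hpt' : (⟨(N : ℂ) * ((γ • z : ℍ) : ℂ), him⟩ : ℍ) = g₁ • w := UpperHalfPlane.ext hpt
  rw [ModularForm.SL_slash_apply, tN_apply N hN _ him, hpt', discriminant_smul, hrel]
  have hdenom : denom γ z = ((γ 1 0 : ℤ) : ℂ) * z + ((γ 1 1 : ℤ) : ℂ) := by
    simp [denom]
  rw [hdenom, div_zpow, zpow_neg]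
  field_simp


lemma tN_eq_affPt (N : ℕ) (hN : 0 < N) (z : ℍ) :
    tN N z = Δ (affPt (N : ℤ) 0 1 (by exact_mod_cast hN) one_pos z) := by
  have him : 0 < ((N : ℂ) * (z : ℂ)).im := by
    have : ((N : ℂ) * (z : ℂ)).im = (N : ℝ) * z.im := by simp
    rw [this]
    exact mul_pos (by exact_mod_cast hN) z.im_pos
  rw [tN_apply N hN z him]
  congr 1
  apply UpperHalfPlane.ext
  simp [affPt_coe]

/-- Growth comparison: the identity `D⁻¹² Δ((A z + B) / D) = Δ(N z)` for all `z` with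
`A * D = N`, `0 < A`, `0 < D` forces `D = 1`. -/
lemma D_eq_one (N : ℕ) (hN : 0 < N) (A B D : ℤ) (hA : 0 < A) (hD : 0 < D) (hAD : A * D = N)
    (h : ∀ z : ℍ, ((D : ℂ) ^ (12 : ℤ))⁻¹ * Δ (affPt A B D hA hD z) =
      Δ (affPt (N : ℤ) 0 1 (by exact_mod_cast hN) one_pos z)) : D = 1 := by
  by_contra hD1
  have hD2 : 2 ≤ D := by omega
  have hA' : (0 : ℝ) < A := by exact_mod_cast hA
  have hD' : (0 : ℝ) < D := by exact_mod_cast hD
  have hN' : (0 : ℝ) < N := by exact_mod_cast hN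
  have hADr : (A : ℝ) * (D : ℝ) = (N : ℝ) := by exact_mod_cast hAD
  have hlt : (A : ℝ) / (D : ℝ) < (N : ℝ) := by
    rw [div_lt_iff₀ hD', ← hADr]
    have hD2' : (2 : ℝ) ≤ D := by exact_mod_cast hD2
    nlinarith
  set κ : ℝ := 2 * π * ((N : ℝ) - (A : ℝ) / (D : ℝ)) with hκ
  have hκpos : 0 < κ := by
    have : 0 < (N : ℝ) - (A : ℝ) / (D : ℝ) := by linarith
    positivity
  set φ := affPt A B D hA hD with hφ
  set ψ := affPt (N : ℤ) 0 1 (by exact_mod_cast hN) one_pos with hψ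
  -- the norm identity
  have hnorm : ∀ z : ℍ, Real.exp (κ * z.im) * ‖prodFactor (φ z)‖
      = (D : ℝ) ^ (12 : ℕ) * ‖prodFactor (ψ z)‖ := by
    intro z
    have h1 := congrArg norm (h z)
    rw [norm_mul, norm_inv, norm_zpow, norm_discriminant, norm_discriminant] at h1
    have hφim : (φ z).im = (A : ℝ) * z.im / (D : ℝ) := affPt_im A B D hA hD z
    have hψim : (ψ z).im = (N : ℝ) * z.im := by
      have := affPt_im (N : ℤ) 0 1 (by exact_mod_cast hN) one_pos z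
      simpa using this
    rw [hφim, hψim] at h1
    have hDn : ‖(D : ℂ)‖ = (D : ℝ) := by
      rw [show (D : ℂ) = ((D : ℝ) : ℂ) by push_cast; rfl, Complex.norm_real]
      exact abs_of_pos hD'
    rw [hDn] at h1
    have hexp : Real.exp (κ * z.im)
        = Real.exp (-2 * π * ((A : ℝ) * z.im / (D : ℝ))) / Real.exp (-2 * π * ((N : ℝ) * z.im)) := by
      rw [← Real.exp_sub]
      congr 1
      rw [hκ]
      ring
    rw [hexp]
    have hE2 : Real.exp (-2 * π * ((N : ℝ) * z.im)) ≠ 0 := (Real.exp_pos _).ne'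
    have hDpow : ((D : ℝ) ^ (12 : ℤ)) ≠ 0 := zpow_ne_zero _ hD'.ne'
    have hDpow' : ((D : ℝ) ^ (12 : ℤ)) = (D : ℝ) ^ (12 : ℕ) := by norm_cast
    rw [hDpow'] at h1
    have hDpow'' : ((D : ℝ) ^ (12 : ℕ)) ≠ 0 := pow_ne_zero _ hD'.ne'
    field_simp
    field_simp at h1
    linarith
  -- left side tends to infinity
  have hL : Tendsto (fun z : ℍ => Real.exp (κ * z.im) * ‖prodFactor (φ z)‖) atImInfty atTop := by
    have h1 : Tendsto (fun z : ℍ => Real.exp (κ * z.im)) atImInfty atTop := by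
      refine Real.tendsto_exp_atTop.comp ?_
      have : Tendsto (fun z : ℍ => z.im) atImInfty atTop := tendsto_comap
      exact this.const_mul_atTop hκpos
    have h2 : Tendsto (fun z : ℍ => ‖prodFactor (φ z)‖) atImInfty (𝓝 1) := by
      have := (tendsto_prodFactor.comp (tendsto_affPt A B D hA hD)).norm
      simpa using this
    exact h1.atTop_mul_pos one_pos h2
  have hR : Tendsto (fun z : ℍ => (D : ℝ) ^ (12 : ℕ) * ‖prodFactor (ψ z)‖) atImInfty
      (𝓝 ((D : ℝ) ^ (12 : ℕ) * 1)) := by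
    have h2 : Tendsto (fun z : ℍ => ‖prodFactor (ψ z)‖) atImInfty (𝓝 1) := by
      have := (tendsto_prodFactor.comp
        (tendsto_affPt (N : ℤ) 0 1 (by exact_mod_cast hN) one_pos)).norm
      simpa using this
    exact h2.const_mul _
  have hL' : Tendsto (fun z : ℍ => (D : ℝ) ^ (12 : ℕ) * ‖prodFactor (ψ z)‖) atImInfty atTop :=
    hL.congr hnorm
  exact not_tendsto_nhds_of_tendsto_atTop hL' _ hR

/-- **P2c.** The stabiliser of `t_N` in `SL(2,ℤ)` is contained in `Γ₀(N)`. -/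
theorem mem_Gamma0_of_tN_slash_eq (N : ℕ) [NeZero N] (γ : SL(2, ℤ))
    (h : (tN N) ∣[(12 : ℤ)] γ = tN N) : γ ∈ Gamma0 N := by
  have hN : 0 < N := Nat.pos_of_ne_zero (NeZero.ne N)
  obtain ⟨g₁, A, B, D, hA, hD, hAD, hAc, h00, h10, h01, h11⟩ :=
    hermite (N : ℤ) (by exact_mod_cast hN) γ
  have hD1 : D = 1 := by
    refine D_eq_one N hN A B D hA hD hAD fun z => ?_
    rw [← tN_slash_apply N hN γ g₁ A B D hA hD h00 h10 h01 h11 z, h, tN_eq_affPt N hN z]
  rw [hD1, mul_one] at hAD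
  rw [hAD] at hAc
  rw [Gamma0_mem]
  exact (ZMod.intCast_zmod_eq_zero_iff_dvd _ N).mpr hAc

end Fermat.Agent.S23.Stab52
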