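import Fermat.Agent.S23.Descent
import Fermat.Prelude.Def_FLTPrelim_Modularity
import Fermat.Prelude.Thm_ModularForm_sturm_bound_Gamma0
import Fermat.Prelude.Thm_CongruenceSubgroup_one_mem_strictPeriods_Gamma0

/-!
# Galois descent for cusp forms (package P6 of the S23 plan, cusp-form level)

If `S_k(Γ₀(N))` is stable under the coefficientwise action of `Aut(ℂ)` on `q`-expansions,
then it is spanned by forms with rational `q`-expansion coefficients.
-/

set_option autoImplicit false

noncomputable section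

namespace Fermat.Agent.S23.Descent

open ModularFormClass UpperHalfPlane CongruenceSubgroup

variable (N : ℕ) [NeZero N] (k : ℤ)

omit [NeZero N] in
theorem one_mem_strictPeriods_Gamma0' :
    (1 : ℝ) ∈ (Subgroup.map (Matrix.SpecialLinearGroup.mapGL ℝ) (Gamma0 N)).strictPeriods :=
  CongruenceSubgroup.one_mem_strictPeriods_Gamma0 N

/-- The `q`-coefficient map as a linear map into sequences. -/
def qCoeffₗ : CuspForm (Gamma0 N) k →ₗ[ℂ] (ℕ → ℂ) where
  toFun f := fun n => qCoeff f n
  map_add' f g := by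
    funext n
    simp only [qCoeff, Pi.add_apply]
    rw [FunLike.coe_add, ModularForm.qExpansion_add one_pos (one_mem_strictPeriods_Gamma0' N) f g]
    simp
  map_smul' c f := by
    funext n
    simp only [qCoeff, Pi.smul_apply, RingHom.id_apply]
    rw [FunLike.coe_smul,
      ModularForm.qExpansion_smul one_pos (one_mem_strictPeriods_Gamma0' N) c f]
    simp

@[simp] theorem qCoeffₗ_apply (f : CuspForm (Gamma0 N) k) (n : ℕ) :
    qCoeffₗ N k f n = qCoeff f n := rfl

/-- Sturm: a cusp form is determined by its first few `q`-coefficients. -/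
theorem eq_zero_of_qCoeff_eq_zero (f : CuspForm (Gamma0 N) k)
    (h : ∀ n ∈ Finset.range ((k * (Gamma0 N).index).toNat / 12 + 1), qCoeff f n = 0) : f = 0 := by
  have hzero : CuspForm.toModularFormₗ f = 0 := by
    apply ModularForm.sturm_bound_Gamma0 N
    intro n hn
    exact h n (Finset.mem_range.2 (Nat.lt_succ_of_le hn))
  exact CuspForm.toModularFormₗ_injective (by simpa using hzero)

theorem qCoeffₗ_injective : Function.Injective (qCoeffₗ N k) := by
  rw [← LinearMap.ker_eq_bot, Submodule.eq_bot_iff]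
  intro f hf
  apply eq_zero_of_qCoeff_eq_zero N k f
  intro n _
  have := congrFun (LinearMap.mem_ker.1 hf) n
  simpa using this

/-- **Galois descent for cusp forms.** -/
theorem span_rational_eq_top
    (hstable : ∀ (σ : ℂ ≃+* ℂ) (f : CuspForm (Gamma0 N) k),
      ∃ g : CuspForm (Gamma0 N) k, ∀ n, qCoeff g n = σ (qCoeff f n)) :
    Submodule.span ℂ {f : CuspForm (Gamma0 N) k |
      ∀ n, qCoeff f n ∈ Set.range (algebraMap ℚ ℂ)} = ⊤ := by
  let V : Submodule ℂ (ℕ → ℂ) := LinearMap.range (qCoeffₗ N k)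
  let F : Finset ℕ := Finset.range ((k * (Gamma0 N).index).toNat / 12 + 1)
  have hF : ∀ v ∈ V, (∀ n ∈ F, v n = 0) → v = 0 := by
    rintro _ ⟨f, rfl⟩ h
    rw [eq_zero_of_qCoeff_eq_zero N k f (fun n hn => by simpa using h n hn), map_zero]
  have hσ : ∀ σ : ℂ ≃+* ℂ, ∀ v ∈ V, conjSeq σ v ∈ V := by
    rintro σ _ ⟨f, rfl⟩
    obtain ⟨g, hg⟩ := hstable σ f
    exact ⟨g, funext fun n => by simp [hg n]⟩
  have hspan := le_span_isRatSeq hF hσ
  rw [eq_top_iff]
  intro f _
  have hf : qCoeffₗ N k f ∈ Submodule.span ℂ {a | a ∈ V ∧ IsRatSeq a} := hspan ⟨f, rfl⟩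
  -- pull the span back along the injective map `qCoeffₗ`
  have hle : Submodule.span ℂ {a | a ∈ V ∧ IsRatSeq a} ≤
      (Submodule.span ℂ {f : CuspForm (Gamma0 N) k |
        ∀ n, qCoeff f n ∈ Set.range (algebraMap ℚ ℂ)}).map (qCoeffₗ N k) := by
    rw [Submodule.span_le]
    rintro _ ⟨⟨g, rfl⟩, hr⟩
    exact ⟨g, Submodule.subset_span (fun n => hr n), rfl⟩
  obtain ⟨g, hg, hgf⟩ := hle hf
  rwa [← qCoeffₗ_injective N k hgf]

end Fermat.Agent.S23.Descent
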