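import Fermat.Agent.S23.Descent

/-!
# P6 in the exact shape of `Fermat.Agent.S23.Skel` (wrappers around `Descent.lean`)
-/

set_option autoImplicit false

noncomputable section

namespace Fermat.Agent.S23.Descent

/-- P6a in skeleton shape. -/
theorem exists_ringEquiv_ne (x : ℂ) (hx : x ∉ Set.range ((↑) : ℚ → ℂ)) :
    ∃ σ : ℂ ≃+* ℂ, σ x ≠ x := by
  by_contra h
  push Not at h
  obtain ⟨q, hq⟩ := mem_range_of_forall_ringAut_fixed x h
  exact hx ⟨q, by rw [← hq]; simp⟩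

/-- P6b in skeleton shape. -/
theorem descent_span {V : Type*} [AddCommGroup V] [Module ℂ V] [FiniteDimensional ℂ V]
    (φ : V →ₗ[ℂ] (ℕ → ℂ)) (hφ : Function.Injective φ)
    (hσ : ∀ σ : ℂ ≃+* ℂ, ∀ v : V, ∃ w : V, ∀ n, φ w n = σ (φ v n)) :
    Submodule.span ℂ {v : V | ∀ n, ∃ r : ℚ, φ v n = (r : ℂ)} = ⊤ := by
  let W : Submodule ℂ (ℕ → ℂ) := LinearMap.range φ
  have : FiniteDimensional ℂ W := LinearMap.finiteDimensional_range φ
  have hW : ∀ σ : ℂ ≃+* ℂ, ∀ a ∈ W, conjSeq σ a ∈ W := by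
    rintro σ _ ⟨v, rfl⟩
    obtain ⟨w, hw⟩ := hσ σ v
    exact ⟨w, funext fun n => by simp [hw n]⟩
  have hspan := span_isRatSeq_eq_of_finiteDimensional W hW
  rw [eq_top_iff]
  intro v _
  have hv : φ v ∈ Submodule.span ℂ {a | a ∈ W ∧ IsRatSeq a} := by
    rw [hspan]; exact ⟨v, rfl⟩
  have hle : Submodule.span ℂ {a | a ∈ W ∧ IsRatSeq a} ≤
      (Submodule.span ℂ {v : V | ∀ n, ∃ r : ℚ, φ v n = (r : ℂ)}).map φ := by
    rw [Submodule.span_le]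
    rintro _ ⟨⟨u, rfl⟩, hr⟩
    refine ⟨u, Submodule.subset_span fun n => ?_, rfl⟩
    obtain ⟨r, hr'⟩ := hr n
    exact ⟨r, by rw [← hr']; simp⟩
  obtain ⟨u, hu, huv⟩ := hle hv
  rwa [← hφ huv]

end Fermat.Agent.S23.Descent
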