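import Mathlib

set_option autoImplicit false

open UpperHalfPlane Filter Topology
open scoped Manifold

namespace Fermat.Agent.S23.Division

/-- Cauchy bound for roots of monic polynomials. -/
lemma norm_le_of_monic_root {μ : ℕ} (x : ℂ) (a : Fin μ → ℂ)
    (h : x ^ μ + ∑ l : Fin μ, a l * x ^ (l : ℕ) = 0) :
    ‖x‖ ≤ max 1 (∑ l, ‖a l‖) := by
  by_contra hcon
  push Not at hcon
  have h1 : 1 < ‖x‖ := lt_of_le_of_lt (le_max_left _ _) hcon
  have h2 : ∑ l, ‖a l‖ < ‖x‖ := lt_of_le_of_lt (le_max_right _ _) hcon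
  have hμ : 0 < μ := by
    rcases Nat.eq_zero_or_pos μ with rfl | hμ
    · simp at h
    · exact hμ
  have hx : x ^ μ = - ∑ l : Fin μ, a l * x ^ (l : ℕ) := eq_neg_of_add_eq_zero_left h
  have hxn : ‖x‖ ^ μ ≤ (∑ l, ‖a l‖) * ‖x‖ ^ (μ - 1) := by
    calc ‖x‖ ^ μ = ‖x ^ μ‖ := (norm_pow _ _).symm
      _ = ‖∑ l : Fin μ, a l * x ^ (l : ℕ)‖ := by rw [hx, norm_neg]
      _ ≤ ∑ l : Fin μ, ‖a l * x ^ (l : ℕ)‖ := norm_sum_le _ _
      _ ≤ ∑ l : Fin μ, ‖a l‖ * ‖x‖ ^ (μ - 1) := by
          refine Finset.sum_le_sum fun l _ => ?_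
          rw [norm_mul, norm_pow]
          refine mul_le_mul_of_nonneg_left ?_ (norm_nonneg _)
          exact pow_le_pow_right₀ h1.le (by have := l.2; omega)
      _ = (∑ l, ‖a l‖) * ‖x‖ ^ (μ - 1) := by rw [Finset.sum_mul]
  have hpos : 0 < ‖x‖ ^ (μ - 1) := pow_pos (lt_trans zero_lt_one h1) _
  have : ‖x‖ ^ μ = ‖x‖ * ‖x‖ ^ (μ - 1) := by
    rw [← pow_succ']; congr 1; omega
  rw [this] at hxn
  have := le_of_mul_le_mul_right hxn hpos
  linarith

/-- Roots of a monic polynomial with small coefficients are small. -/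
lemma norm_pow_le_of_monic_root {μ : ℕ} (x : ℂ) (a : Fin μ → ℂ)
    (h : x ^ μ + ∑ l : Fin μ, a l * x ^ (l : ℕ) = 0) :
    ‖x‖ ^ μ ≤ (∑ l, ‖a l‖) * max 1 ((∑ l, ‖a l‖) ^ μ) := by
  set s := ∑ l, ‖a l‖ with hs
  have hs0 : 0 ≤ s := Finset.sum_nonneg fun _ _ => norm_nonneg _
  have hx : x ^ μ = - ∑ l : Fin μ, a l * x ^ (l : ℕ) := eq_neg_of_add_eq_zero_left h
  have hb := norm_le_of_monic_root x a h
  have key : ‖x‖ ^ μ ≤ ∑ l : Fin μ, ‖a l‖ * ‖x‖ ^ (l : ℕ) := by
    calc ‖x‖ ^ μ = ‖x ^ μ‖ := (norm_pow _ _).symm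
      _ = ‖∑ l : Fin μ, a l * x ^ (l : ℕ)‖ := by rw [hx, norm_neg]
      _ ≤ ∑ l : Fin μ, ‖a l * x ^ (l : ℕ)‖ := norm_sum_le _ _
      _ = ∑ l : Fin μ, ‖a l‖ * ‖x‖ ^ (l : ℕ) := by simp [norm_mul, norm_pow]
  refine key.trans ?_
  rw [hs, Finset.sum_mul]
  refine Finset.sum_le_sum fun l _ => ?_
  refine mul_le_mul_of_nonneg_left ?_ (norm_nonneg _)
  rcases le_total ‖x‖ 1 with h1 | h1
  · exact (pow_le_one₀ (norm_nonneg _) h1).trans (le_max_left _ _)
  · have hxs : ‖x‖ ≤ s := by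
      rcases le_max_iff.mp hb with h' | h'
      · have : ‖x‖ = 1 := le_antisymm h' h1
        by_contra hc
        push Not at hc
        -- s < ‖x‖ = 1 ; then from key: 1 = ‖x‖^μ ≤ s < 1
        have : ‖x‖ ^ μ ≤ s := by
          refine key.trans ?_
          rw [hs]
          refine Finset.sum_le_sum fun l _ => ?_
          rw [this, one_pow, mul_one]
        rw [‹‖x‖ = 1›, one_pow] at this
        linarith
      · exact h'
    have h1s : 1 ≤ s := h1.trans hxs
    calc ‖x‖ ^ (l : ℕ) ≤ ‖x‖ ^ μ := pow_le_pow_right₀ h1 l.2.le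
      _ ≤ s ^ μ := pow_le_pow_left₀ (norm_nonneg _) hxs _
      _ ≤ max 1 (s ^ μ) := le_max_right _ _

/-- **Division lemma**: if `G` is integral over `D` (both holomorphic on `ℍ`, `D ≠ 0`) with
continuous coefficients, then `G / D` extends to a holomorphic function on `ℍ`. -/
theorem exists_mdiff_quotient {μ : ℕ} (G D : ℍ → ℂ) (hG : MDiff G) (hD : MDiff D) (hD0 : D ≠ 0)
    (a : Fin μ → ℍ → ℂ) (ha : ∀ l, Continuous (a l))
    (h : ∀ τ, G τ ^ μ + ∑ l : Fin μ, a l τ * G τ ^ (l : ℕ) * D τ ^ (μ - l) = 0) :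
    ∃ F : ℍ → ℂ, MDiff F ∧ ∀ τ, D τ * F τ = G τ := by
  set U : Set ℂ := {z | 0 < z.im} with hU
  have hUo : IsOpen U := isOpen_upperHalfPlaneSet
  set g : ℂ → ℂ := G ∘ ofComplex with hg
  set d : ℂ → ℂ := D ∘ ofComplex with hd
  have hgA : AnalyticOnNhd ℂ g U := (UpperHalfPlane.mdifferentiable_iff.mp hG).analyticOnNhd hUo
  have hdA : AnalyticOnNhd ℂ d U := (UpperHalfPlane.mdifferentiable_iff.mp hD).analyticOnNhd hUo
  set hq : ℂ → ℂ := g / d with hhq
  have hqM : MeromorphicOn hq U := fun x hx =>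
    (hgA x hx).meromorphicAt.div (hdA x hx).meromorphicAt
  set Ft : ℂ → ℂ := toMeromorphicNFOn hq U with hFt
  -- `d` is eventually nonzero in punctured neighbourhoods
  have hd_ne : ∀ x ∈ U, ∀ᶠ z in 𝓝[≠] x, d z ≠ 0 := by
    intro x hx
    rcases (hdA x hx).eventually_eq_zero_or_eventually_ne_zero with h0 | h0
    · exfalso
      apply hD0
      refine eq_zero_of_frequently (τ := ⟨x, hx⟩) hD ?_
      have h0' : ∀ᶠ z in 𝓝 x, z ∈ U → d z = 0 := h0.mono fun z hz _ => hz
      have : ∀ᶠ w : ℍ in 𝓝 (⟨x, hx⟩ : ℍ), D w = 0 := by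
        have hc : ContinuousAt (fun w : ℍ => (w : ℂ)) (⟨x, hx⟩ : ℍ) :=
          UpperHalfPlane.continuous_coe.continuousAt
        have := hc.eventually (p := fun z => z ∈ U → d z = 0) h0'
        filter_upwards [this] with w hw
        have := hw w.2
        simpa [hd, Function.comp] using this
      exact (this.filter_mono nhdsWithin_le_nhds).frequently
    · exact h0
  -- `U` is a punctured-neighbourhood-eventual set
  have hU_ev : ∀ x ∈ U, ∀ᶠ z in 𝓝[≠] x, z ∈ U := fun x hx =>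
    (hUo.mem_nhds hx |> fun h => mem_nhdsWithin_of_mem_nhds h)
  -- the polynomial identity for `hq`
  have hpoly : ∀ x ∈ U, ∀ᶠ z in 𝓝[≠] x,
      hq z ^ μ + ∑ l : Fin μ, a l (ofComplex z) * hq z ^ (l : ℕ) = 0 := by
    intro x hx
    filter_upwards [hd_ne x hx, hU_ev x hx] with z hz hzU
    have hτ := h (ofComplex z)
    have hdz : D (ofComplex z) ≠ 0 := hz
    have : hq z = G (ofComplex z) / D (ofComplex z) := rfl
    rw [this]
    have hDμ : D (ofComplex z) ^ μ ≠ 0 := pow_ne_zero _ hdz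
    apply mul_right_cancel₀ hDμ
    rw [zero_mul, add_mul, div_pow, div_mul_cancel₀ _ hDμ, Finset.sum_mul, ← hτ]
    congr 1
    refine Finset.sum_congr rfl fun l _ => ?_
    have hl : (l : ℕ) ≤ μ := l.2.le
    rw [div_pow, mul_assoc, mul_assoc]
    congr 1
    rw [div_mul_eq_mul_div, div_eq_iff (pow_ne_zero _ hdz), mul_assoc, ← pow_add]
    congr 2
    omega
  -- order of `hq` is nonnegative everywhere on `U`
  have hord : ∀ x ∈ U, 0 ≤ meromorphicOrderAt hq x := by
    intro x hx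
    by_contra hneg
    push Not at hneg
    have htend := tendsto_cobounded_of_meromorphicOrderAt_neg hneg
    -- the coefficients are bounded near x
    have hcont : ∀ l, ContinuousAt (fun z => a l (ofComplex z)) x := by
      intro l
      have : ContinuousAt ofComplex x := by
        have := (mdifferentiableAt_ofComplex hx).continuousAt
        exact this
      exact (ha l).continuousAt.comp this
    have hsum_cont : ContinuousAt (fun z => ∑ l : Fin μ, ‖a l (ofComplex z)‖) x := by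
      refine tendsto_finsetSum _ fun l _ => ?_
      exact (hcont l).norm
    set C := ∑ l : Fin μ, ‖a l (ofComplex x)‖ with hC
    have hbd : ∀ᶠ z in 𝓝[≠] x, (∑ l : Fin μ, ‖a l (ofComplex z)‖) < C + 1 :=
      (hsum_cont.eventually (gt_mem_nhds (lt_add_one C))).filter_mono nhdsWithin_le_nhds
    have hC0 : 0 ≤ C := Finset.sum_nonneg fun _ _ => norm_nonneg _
    have hlarge : ∀ᶠ z in 𝓝[≠] x, C + 1 < ‖hq z‖ := by
      have := tendsto_norm_cobounded_atTop.comp htend
      exact this.eventually (eventually_gt_atTop (C + 1))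
    have hx_ne : (𝓝[≠] x).NeBot := inferInstance
    obtain ⟨z, hz1, hz2, hz3⟩ := (hpoly x hx |>.and (hbd.and hlarge)).exists
    have := norm_le_of_monic_root (hq z) (fun l => a l (ofComplex z)) hz1
    rcases le_max_iff.mp this with h' | h'
    · linarith
    · linarith
  -- hence `Ft` is analytic on `U`
  have hFtA : AnalyticOnNhd ℂ Ft U := by
    intro x hx
    have hNF := meromorphicNFOn_toMeromorphicNFOn hq U hx
    rw [← hNF.meromorphicOrderAt_nonneg_iff_analyticAt, meromorphicOrderAt_toMeromorphicNFOn hqM hx]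
    exact hord x hx
  refine ⟨fun τ => Ft τ, ?_, ?_⟩
  · rw [UpperHalfPlane.mdifferentiable_iff]
    refine hFtA.differentiableOn.congr fun z hz => ?_
    simp [Function.comp, ofComplex_apply_of_im_pos hz]
  · intro τ
    have hx : (τ : ℂ) ∈ U := τ.2
    have hev : ∀ᶠ z in 𝓝[≠] (τ : ℂ), d z * Ft z = g z := by
      filter_upwards [hqM.toMeromorphicNFOn_eq_self_on_nhdsNE hx, hd_ne _ hx] with z hz hdz
      rw [hFt, hz, hhq, Pi.div_apply, mul_div_cancel₀ _ hdz]
    have hcont1 : ContinuousAt (fun z => d z * Ft z) (τ : ℂ) :=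
      ((hdA _ hx).continuousAt).mul ((hFtA _ hx).continuousAt)
    have hcont2 : ContinuousAt g (τ : ℂ) := (hgA _ hx).continuousAt
    have := (ContinuousAt.eventuallyEq_nhds_iff_eventuallyEq_nhdsNE hcont1 hcont2).mp hev
    have := this.eq_of_nhds
    simpa [hd, hg, Function.comp] using this

end Fermat.Agent.S23.Division
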