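import Mathlib

set_option autoImplicit false

namespace Fermat.Agent.S23

open MvPolynomial

/-- Any ring automorphism of the polynomial ring on a transcendence basis of an algebraically
closed field `K` over `R` extends to a ring automorphism of `K`. -/
theorem exists_ringEquiv_extending_mvPolynomial {R K ι : Type*} [CommRing R] [Field K]
    [Algebra R K] [IsAlgClosed K] (v : ι → K) (hv : IsTranscendenceBasis R v)
    (e : MvPolynomial ι R ≃+* MvPolynomial ι R) :
    ∃ σ : K ≃+* K, ∀ p : MvPolynomial ι R, σ (aeval v p) = aeval v (e p) := by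
  let _ := IsAlgClosed.isAlgClosure_of_transcendence_basis v hv
  let e' : Algebra.adjoin R (Set.range v) ≃+* Algebra.adjoin R (Set.range v) :=
    hv.1.aevalEquiv.symm.toRingEquiv.trans (e.trans hv.1.aevalEquiv.toRingEquiv)
  refine ⟨IsAlgClosure.equivOfEquiv K K e', fun p => ?_⟩
  rw [← hv.1.algebraMap_aevalEquiv, IsAlgClosure.equivOfEquiv_algebraMap,
    ← hv.1.algebraMap_aevalEquiv]
  congr 1
  simp [e']

/-- Every ring automorphism of a subfield `A` of an algebraically closed field `E` extends to a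
ring automorphism of `E`. -/
theorem exists_ringEquiv_extending_subfield {F E : Type*} [Field F] [Field E] [Algebra F E]
    [IsAlgClosed E] (A : IntermediateField F E) (τ : A ≃+* A) :
    ∃ σ : E ≃+* E, ∀ a : A, σ (a : E) = (τ a : E) := by
  obtain ⟨ι, v, hv⟩ := exists_isTranscendenceBasis' A E
  obtain ⟨σ, hσ⟩ := exists_ringEquiv_extending_mvPolynomial v hv (MvPolynomial.mapEquiv ι τ)
  refine ⟨σ, fun a => ?_⟩
  have := hσ (C a)
  simpa using this

/-- The translation automorphism `X i₀ ↦ X i₀ + 1` of a polynomial ring. -/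
noncomputable def translateEquiv {R ι : Type*} [CommRing R] [DecidableEq ι] (i₀ : ι) :
    MvPolynomial ι R ≃ₐ[R] MvPolynomial ι R :=
  AlgEquiv.ofAlgHom
    (aeval fun i => X i + C (if i = i₀ then (1 : R) else 0))
    (aeval fun i => X i - C (if i = i₀ then (1 : R) else 0))
    (by ext i; simp)
    (by ext i; simp)

@[simp] lemma translateEquiv_X_self {R ι : Type*} [CommRing R] [DecidableEq ι] (i₀ : ι) :
    translateEquiv (R := R) i₀ (X i₀) = X i₀ + 1 := by
  simp [translateEquiv]

@[simp] lemma translateEquiv_C {R ι : Type*} [CommRing R] [DecidableEq ι] (i₀ : ι) (a : R) :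
    translateEquiv (R := R) i₀ (C a) = C a := by
  simp [translateEquiv]

/-- In an algebraically closed field `E` of characteristic zero over a subfield `F`, an element fixed
by all ring automorphisms of `E` that fix `F` pointwise lies in `F`. -/
theorem mem_range_algebraMap_of_forall_ringEquiv {F E : Type*} [Field F] [Field E] [Algebra F E]
    [IsAlgClosed E] [CharZero F] (x : E)
    (h : ∀ σ : E ≃+* E, (∀ a : F, σ (algebraMap F E a) = algebraMap F E a) → σ x = x) :
    x ∈ Set.range (algebraMap F E) := by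
  classical
  by_cases hx : IsAlgebraic F x
  · -- algebraic case: use the Galois group of the algebraic closure of `F` in `E`
    let A : IntermediateField F E := algebraicClosure F E
    have hxA : x ∈ A := mem_algebraicClosure_iff.mpr hx
    have : IsAlgClosure F A := algebraicClosure.isAlgClosure F E
    have : Normal F A := IsAlgClosure.normal F A
    have : IsGalois F A := ⟨⟩
    by_contra hnot
    have hnot' : (⟨x, hxA⟩ : A) ∉ Set.range (algebraMap F A) := by
      rintro ⟨a, ha⟩
      exact hnot ⟨a, by rw [IsScalarTower.algebraMap_apply F A E, ha]; rfl⟩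
    rw [InfiniteGalois.mem_range_algebraMap_iff_fixed] at hnot'
    push Not at hnot'
    obtain ⟨τ, hτ⟩ := hnot'
    obtain ⟨σ, hσ⟩ := exists_ringEquiv_extending_subfield A (τ : A ≃+* A)
    have h1 : σ x = x := by
      apply h σ
      intro a
      have h3 := hσ (algebraMap F A a)
      have h4 : (τ : A ≃+* A) (algebraMap F A a) = algebraMap F A a := τ.commutes a
      rw [h4] at h3
      exact h3
    have h2 := hσ ⟨x, hxA⟩
    simp only at h2
    rw [h1] at h2
    exact hτ (Subtype.ext h2.symm)
  · -- transcendental case: translate `x` to `x + 1`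
    exfalso
    have hx' : Transcendental F x := hx
    have hind : AlgebraicIndepOn F id ({x} : Set E) :=
      algebraicIndependent_unique_type_iff.mpr hx'
    obtain ⟨s, hxs, hs⟩ := exists_isTranscendenceBasis_superset hind
    let i₀ : s := ⟨x, hxs rfl⟩
    obtain ⟨σ, hσ⟩ := exists_ringEquiv_extending_mvPolynomial _ hs
      (translateEquiv (R := F) i₀ : MvPolynomial s F ≃+* MvPolynomial s F)
    have h1 : σ x = x := by
      apply h σ
      intro a
      have h3 := hσ (C a)
      have h4 : (translateEquiv (R := F) i₀ : MvPolynomial s F ≃+* MvPolynomial s F) (C a) = C a :=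
        translateEquiv_C i₀ a
      rw [h4, aeval_C] at h3
      exact h3
    have h2 := hσ (X i₀)
    have h5 : (translateEquiv (R := F) i₀ : MvPolynomial s F ≃+* MvPolynomial s F) (X i₀)
        = X i₀ + 1 := translateEquiv_X_self i₀
    rw [h5, map_add, map_one, aeval_X] at h2
    have h6 : ((i₀ : s) : E) = x := rfl
    rw [h6, h1] at h2
    simp at h2

/-- **The fixed field of `Aut(ℂ)` is `ℚ`.** -/
theorem exists_rat_of_forall_ringEquiv_eq (x : ℂ) (h : ∀ σ : ℂ ≃+* ℂ, σ x = x) :
    ∃ r : ℚ, (r : ℂ) = x := by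
  obtain ⟨r, hr⟩ := mem_range_algebraMap_of_forall_ringEquiv (F := ℚ) x (fun σ _ => h σ)
  exact ⟨r, by rw [← hr]; simp⟩

end Fermat.Agent.S23

namespace Fermat.Agent.S23

section Descent

variable {X ι : Type*} [AddCommGroup X] [Module ℂ X]

/-- A point of `X` all of whose coordinates (with respect to the functionals `c`) are rational. -/
def IsRatPoint (c : ι → X →ₗ[ℂ] ℂ) (f : X) : Prop := ∀ i, ∃ r : ℚ, (r : ℂ) = c i f

lemma IsRatPoint.smul_rat {c : ι → X →ₗ[ℂ] ℂ} {f : X} (hf : IsRatPoint c f) (r : ℚ) :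
    IsRatPoint c ((r : ℂ) • f) := by
  intro i
  obtain ⟨s, hs⟩ := hf i
  exact ⟨r * s, by rw [map_smul, smul_eq_mul, ← hs]; push_cast; ring⟩

/-- The hyperplane section `{f ∈ W | c i₀ f = 0}`. -/
def hyperplaneSection (c : ι → X →ₗ[ℂ] ℂ) (W : Submodule ℂ X) (i₀ : ι) : Submodule ℂ X :=
  W ⊓ LinearMap.ker (c i₀)

lemma hyperplaneSection_le (c : ι → X →ₗ[ℂ] ℂ) (W : Submodule ℂ X) (i₀ : ι) :
    hyperplaneSection c W i₀ ≤ W := inf_le_left

lemma mem_hyperplaneSection {c : ι → X →ₗ[ℂ] ℂ} {W : Submodule ℂ X} {i₀ : ι} {f : X} :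
    f ∈ hyperplaneSection c W i₀ ↔ f ∈ W ∧ c i₀ f = 0 := by
  simp [hyperplaneSection]

variable (c : ι → X →ₗ[ℂ] ℂ) (A : (ℂ ≃+* ℂ) → X →+ X)

lemma hyperplaneSection_stable (hA : ∀ σ i x, c i (A σ x) = σ (c i x))
    {W : Submodule ℂ X} (hW : ∀ σ, ∀ f ∈ W, A σ f ∈ W) (i₀ : ι) :
    ∀ σ, ∀ f ∈ hyperplaneSection c W i₀, A σ f ∈ hyperplaneSection c W i₀ := by
  intro σ f hf
  rw [mem_hyperplaneSection] at hf ⊢
  exact ⟨hW σ f hf.1, by rw [hA, hf.2, map_zero]⟩

lemma finrank_hyperplaneSection_lt {W : Submodule ℂ X} [FiniteDimensional ℂ W] {i₀ : ι} {w : X}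
    (hw : w ∈ W) (hw0 : c i₀ w ≠ 0) :
    Module.finrank ℂ (hyperplaneSection c W i₀) < Module.finrank ℂ W := by
  apply Submodule.finrank_lt_finrank_of_lt
  refine lt_of_le_of_ne (hyperplaneSection_le c W i₀) ?_
  intro h
  have : w ∈ hyperplaneSection c W i₀ := by rw [h]; exact hw
  exact hw0 (mem_hyperplaneSection.mp this).2

include A in
/-- A nonzero finite-dimensional subspace stable under all coefficientwise automorphisms contains a
nonzero rational point. -/
theorem exists_ratPoint_ne_zero (hc : ∀ x : X, (∀ i, c i x = 0) → x = 0)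
    (hA : ∀ σ i x, c i (A σ x) = σ (c i x)) :
    ∀ (n : ℕ) (W : Submodule ℂ X) [FiniteDimensional ℂ W], Module.finrank ℂ W = n → W ≠ ⊥ →
      (∀ σ, ∀ f ∈ W, A σ f ∈ W) → ∃ f ∈ W, f ≠ 0 ∧ IsRatPoint c f := by
  intro n
  induction n using Nat.strong_induction_on with
  | _ n ih =>
    intro W _ hn hW0 hW
    obtain ⟨w, hwW, hw0⟩ := (Submodule.ne_bot_iff W).mp hW0
    obtain ⟨i₀, hi₀⟩ : ∃ i, c i w ≠ 0 := by
      by_contra hcon
      push Not at hcon
      exact hw0 (hc w hcon)
    set w' : X := (c i₀ w)⁻¹ • w with hw'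
    have hw'W : w' ∈ W := W.smul_mem _ hwW
    have hw'1 : c i₀ w' = 1 := by
      rw [hw', map_smul, smul_eq_mul, inv_mul_cancel₀ hi₀]
    have hlt := finrank_hyperplaneSection_lt c hwW hi₀
    have hst := hyperplaneSection_stable c A hA hW i₀
    have : FiniteDimensional ℂ (hyperplaneSection c W i₀) :=
      Submodule.finiteDimensional_of_le (hyperplaneSection_le c W i₀)
    by_cases h1 : hyperplaneSection c W i₀ = ⊥
    · -- then `w'` itself is rational
      refine ⟨w', hw'W, ?_, ?_⟩
      · intro h0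
        rw [h0, map_zero] at hw'1
        exact zero_ne_one hw'1
      · have hfix : ∀ σ, A σ w' = w' := by
          intro σ
          have hmem : A σ w' - w' ∈ hyperplaneSection c W i₀ := by
            rw [mem_hyperplaneSection]
            refine ⟨W.sub_mem (hW σ _ hw'W) hw'W, ?_⟩
            rw [map_sub, hA, hw'1, map_one, sub_self]
          rw [h1, Submodule.mem_bot, sub_eq_zero] at hmem
          exact hmem
        intro i
        apply exists_rat_of_forall_ringEquiv_eq
        intro σ
        rw [← hA, hfix]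
    · obtain ⟨f, hf, hf0, hfr⟩ :=
        ih _ (lt_of_lt_of_eq hlt hn) (hyperplaneSection c W i₀) rfl h1 hst
      exact ⟨f, hyperplaneSection_le c W i₀ hf, hf0, hfr⟩

include A in
/-- **Galois descent.** A finite-dimensional subspace `W` of `X`, stable under the coefficientwise
action of all field automorphisms of `ℂ`, is spanned by its rational points. -/
theorem span_ratPoints_eq (hc : ∀ x : X, (∀ i, c i x = 0) → x = 0)
    (hA : ∀ σ i x, c i (A σ x) = σ (c i x)) :
    ∀ (n : ℕ) (W : Submodule ℂ X) [FiniteDimensional ℂ W], Module.finrank ℂ W = n →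
      (∀ σ, ∀ f ∈ W, A σ f ∈ W) →
      Submodule.span ℂ {f | f ∈ W ∧ IsRatPoint c f} = W := by
  intro n
  induction n using Nat.strong_induction_on with
  | _ n ih =>
    intro W _ hn hW
    apply le_antisymm
    · exact Submodule.span_le.mpr fun f hf => hf.1
    by_cases hW0 : W = ⊥
    · rw [hW0]; exact bot_le
    obtain ⟨w, hwW, hw0, hwr⟩ := exists_ratPoint_ne_zero c A hc hA _ W rfl hW0 hW
    obtain ⟨i₀, hi₀⟩ : ∃ i, c i w ≠ 0 := by
      by_contra hcon
      push Not at hcon
      exact hw0 (hc w hcon)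
    obtain ⟨r, hr⟩ := hwr i₀
    have hr0 : (r : ℂ) ≠ 0 := hr ▸ hi₀
    set w' : X := ((r⁻¹ : ℚ) : ℂ) • w with hw'
    have hw'W : w' ∈ W := W.smul_mem _ hwW
    have hw'r : IsRatPoint c w' := hwr.smul_rat _
    have hw'1 : c i₀ w' = 1 := by
      rw [hw', map_smul, smul_eq_mul, ← hr]
      push_cast
      exact inv_mul_cancel₀ hr0
    have hlt := finrank_hyperplaneSection_lt c hwW hi₀
    have hst := hyperplaneSection_stable c A hA hW i₀
    have : FiniteDimensional ℂ (hyperplaneSection c W i₀) :=
      Submodule.finiteDimensional_of_le (hyperplaneSection_le c W i₀)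
    have ih' := ih _ (lt_of_lt_of_eq hlt hn) (hyperplaneSection c W i₀) rfl hst
    have hsub : hyperplaneSection c W i₀ ≤ Submodule.span ℂ {f | f ∈ W ∧ IsRatPoint c f} := by
      rw [← ih']
      exact Submodule.span_mono fun f hf => ⟨hyperplaneSection_le c W i₀ hf.1, hf.2⟩
    intro f hf
    have hdecomp : f = c i₀ f • w' + (f - c i₀ f • w') := by abel
    rw [hdecomp]
    refine Submodule.add_mem _ (Submodule.smul_mem _ _ (Submodule.subset_span ⟨hw'W, hw'r⟩))
      (hsub ?_)
    rw [mem_hyperplaneSection]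
    refine ⟨W.sub_mem hf (W.smul_mem _ hw'W), ?_⟩
    rw [map_sub, map_smul, hw'1, smul_eq_mul, mul_one, sub_self]

end Descent

/-- **Galois descent for power series.** A finite-dimensional space of complex power series
which is stable under the coefficientwise action of every field automorphism of `ℂ` is spanned
by its elements with rational coefficients. -/
theorem span_rat_powerSeries_eq (W : Submodule ℂ (PowerSeries ℂ)) [FiniteDimensional ℂ W]
    (hW : ∀ σ : ℂ ≃+* ℂ, ∀ f ∈ W, PowerSeries.map (σ : ℂ →+* ℂ) f ∈ W) :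
    Submodule.span ℂ {f | f ∈ W ∧ ∃ g : PowerSeries ℚ,
      PowerSeries.map (algebraMap ℚ ℂ) g = f} = W := by
  have key := span_ratPoints_eq (X := PowerSeries ℂ) (ι := ℕ)
    (fun n => PowerSeries.coeff (R := ℂ) n)
    (fun σ => (PowerSeries.map (σ : ℂ →+* ℂ)).toAddMonoidHom)
    (fun x hx => PowerSeries.ext fun n => by simpa using hx n)
    (fun σ n x => by simp) _ W rfl hW
  refine Eq.trans ?_ key
  congr 1
  ext f
  refine and_congr_right fun _ => ?_
  constructor
  · rintro ⟨g, rfl⟩ n
    exact ⟨PowerSeries.coeff n g, by simp⟩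
  · intro h
    choose r hr using h
    exact ⟨PowerSeries.mk r, PowerSeries.ext fun n => by simp [hr n]⟩

end Fermat.Agent.S23
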