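import Mathlib
import Fermat.Prelude.Def_CuspForm_HeckeAlgebra
import Fermat.Prelude.Def_CuspForm_IntegralStructure
import Fermat.Prelude.Thm_CuspForm_intLattice_fg
import Fermat.Prelude.Thm_CuspForm_mem_intLattice_of_mem_heckeAlgebra

set_option autoImplicit false

/-!
# S22 from an integral structure (helper63)

If the integral lattice spans `S_k(Γ₀(N))` over `ℂ` (`CuspForm.HasIntegralStructure N k`), then the
Hecke algebra embeds into `End_ℤ` of that finitely generated lattice, hence is a finite `ℤ`-module.
-/

namespace Fermat.Agent.S23.HeckeFinite

theorem moduleFinite_heckeAlgebra_of_hasIntegralStructure (N : ℕ) [NeZero N] (k : ℤ)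
    (hk : 1 ≤ k) (S : Set ℕ) (h : CuspForm.HasIntegralStructure N k) :
    Module.Finite ℤ (CuspForm.heckeAlgebra N k S) := by
  classical
  set L := CuspForm.intLattice N k with hL
  have hfin : Module.Finite ℤ L := Module.Finite.iff_fg.mpr (CuspForm.intLattice_fg N k)
  have htf : IsAddTorsionFree (CuspForm (CongruenceSubgroup.Gamma0 N) k) :=
    ⟨fun n hn a b hab => by
      have h : (n : ℂ) • a = (n : ℂ) • b := by
        simp only [Nat.cast_smul_eq_nsmul]
        exact hab
      exact smul_right_injective _ (Nat.cast_ne_zero.mpr hn) h⟩
  have hfree : Module.Free ℤ L := Module.free_of_finite_type_torsion_free'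
  -- restriction to the lattice
  let Ψ : (CuspForm.heckeAlgebra N k S) →ₗ[ℤ] (L →ₗ[ℤ] L) :=
    { toFun := fun t =>
        { toFun := fun x => ⟨(t : Module.End ℂ _) (x : CuspForm (CongruenceSubgroup.Gamma0 N) k),
            CuspForm.mem_intLattice_of_mem_heckeAlgebra hk t.2 x.2⟩
          map_add' := by
            intro x y
            apply Subtype.ext
            simp
          map_smul' := by
            intro n x
            apply Subtype.ext
            simp }
      map_add' := by
        intro s t
        apply LinearMap.ext
        intro x
        apply Subtype.ext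
        simp
      map_smul' := by
        intro n t
        apply LinearMap.ext
        intro x
        apply Subtype.ext
        simp }
  have hΨ : Function.Injective Ψ := by
    rw [injective_iff_map_eq_zero]
    intro t ht
    apply Subtype.ext
    apply LinearMap.ext
    intro f
    have hf : f ∈ Submodule.span ℂ ((L : Submodule ℤ _) : Set (CuspForm _ k)) := by
      have := h
      unfold CuspForm.HasIntegralStructure at this
      rw [this]; trivial
    induction hf using Submodule.span_induction with
    | mem x hx =>
      have := congrArg (fun F : L →ₗ[ℤ] L =>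
        ((F ⟨x, hx⟩ : L) : CuspForm (CongruenceSubgroup.Gamma0 N) k)) ht
      simpa [Ψ] using this
    | zero => simp
    | add x y _ _ hx hy => simp [hx, hy]
    | smul a x _ hx => simp [hx]
  exact Module.Finite.of_injective Ψ hΨ

end Fermat.Agent.S23.HeckeFinite
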