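import Mathlib
import Fermat.Prelude.Def_CuspForm_HeckeAlgebra
import Fermat.Prelude.Def_CuspForm_IntegralStructure
import Fermat.Prelude.Thm_CuspForm_intLattice_fg
import Fermat.Prelude.Thm_CuspForm_mem_intLattice_of_mem_heckeAlgebra

set_option autoImplicit false

namespace Fermat.Agent.S23

/-- Abstract finiteness: a `ℤ`-subalgebra `A` of `End_ℂ V` preserving a finitely generated
`ℤ`-lattice `L` whose `ℂ`-span is everything is a finitely generated `ℤ`-module. -/
theorem moduleFinite_of_stable_lattice {V : Type*} [AddCommGroup V] [Module ℂ V]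
    (A : Subalgebra ℤ (Module.End ℂ V)) (L : Submodule ℤ V) (hfg : L.FG)
    (hspan : Submodule.span ℂ (L : Set V) = ⊤)
    (hstab : ∀ t ∈ A, ∀ v ∈ L, t v ∈ L) : Module.Finite ℤ A := by
  classical
  obtain ⟨s, hs⟩ := hfg
  have : IsNoetherian ℤ L := isNoetherian_of_fg_of_noetherian L ⟨s, hs⟩
  -- evaluation at the generators
  let ev : A →ₗ[ℤ] ({x // x ∈ s} → L) :=
    { toFun := fun t g => ⟨(t : Module.End ℂ V) g.1, hstab t t.2 g.1 (hs ▸ Submodule.subset_span (Finset.mem_coe.mpr g.2))⟩
      map_add' := by
        intro t t'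
        ext g
        simp
      map_smul' := by
        intro n t
        ext g
        simp }
  have hinj : Function.Injective ev := by
    rw [← LinearMap.ker_eq_bot, LinearMap.ker_eq_bot']
    intro t ht
    have h0 : ∀ g ∈ s, (t : Module.End ℂ V) g = 0 := by
      intro g hg
      have := congrArg (fun f => ((f ⟨g, hg⟩ : L) : V)) ht
      simpa [ev] using this
    -- `t` kills `L`
    have hL : ∀ v ∈ L, (t : Module.End ℂ V) v = 0 := by
      intro v hv
      rw [← hs] at hv
      refine Submodule.span_induction (p := fun v _ => (t : Module.End ℂ V) v = 0)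
        (fun g hg => h0 g hg) (map_zero _) (fun x y _ _ hx hy => by rw [map_add, hx, hy, add_zero])
        (fun n x _ hx => ?_) hv
      rw [← Int.cast_smul_eq_zsmul ℂ n x, map_smul, hx, smul_zero]
    -- hence `t` kills the `ℂ`-span of `L`, i.e. everything
    have hV : ∀ v : V, (t : Module.End ℂ V) v = 0 := by
      intro v
      have hv : v ∈ Submodule.span ℂ (L : Set V) := by rw [hspan]; trivial
      refine Submodule.span_induction (p := fun v _ => (t : Module.End ℂ V) v = 0)
        (fun g hg => hL g hg) (map_zero _) (fun x y _ _ hx hy => by rw [map_add, hx, hy, add_zero])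
        (fun c x _ hx => by rw [map_smul, hx, smul_zero]) hv
    apply Subtype.ext
    ext v
    simpa using hV v
  exact Module.Finite.of_injective ev hinj

/-- If `S_k(Γ₀(N))` has an integral structure (for a weight `k ≥ 1`), then the Hecke algebra is a
finitely generated `ℤ`-module. -/
theorem moduleFinite_heckeAlgebra_of_hasIntegralStructure (N : ℕ) [NeZero N] {k : ℤ} (hk : 1 ≤ k)
    (S : Set ℕ) (h : CuspForm.HasIntegralStructure N k) :
    Module.Finite ℤ (CuspForm.heckeAlgebra N k S) :=
  moduleFinite_of_stable_lattice (CuspForm.heckeAlgebra N k S) (CuspForm.intLattice N k)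
    (CuspForm.intLattice_fg N k) h
    (fun _ ht _ hv => CuspForm.mem_intLattice_of_mem_heckeAlgebra hk ht hv)

end Fermat.Agent.S23
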