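import Mathlib
import Fermat.Agent.S23.Defs

/-!
# S23 project, package P4 (backup by helper93): trace interpolation

Let `𝒢, ℋ` be subgroups of `GL(2, ℝ)` with `𝒢 ⊓ ℋ` of finite index in `ℋ`, let `t, f` be modular
forms of level `𝒢` and weights `kt, k`, and suppose the `ℋ`-conjugates of `t` are pairwise distinct.
Then there are modular forms `D ≠ 0`, `c_m` (`m < μ = [ℋ : 𝒢 ⊓ ℋ]`) of level `ℋ` with
`D f = ∑ c_m t^m`.

`D = det (Tr t^(m+l))`, `c_m = det (Tr t^(i+l))` with column `m` replaced by `Tr (t^i f)` (Cramer).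
-/

set_option autoImplicit false

open UpperHalfPlane SlashInvariantForm

open scoped ModularForm Topology Filter Manifold MatrixGroups

noncomputable section

namespace Fermat.Agent.S23.Interp93

open Fermat.Agent.S23

/-! ### Closure properties of `IsMF` -/

section closure

variable {Γ : Subgroup (GL (Fin 2) ℝ)}

lemma isMF_cast {w w' : ℤ} {g : ℍ → ℂ} (h : w = w') (hg : IsMF Γ w g) : IsMF Γ w' g := h ▸ hg

lemma isMF_zero (w : ℤ) : IsMF Γ w 0 := ⟨0, rfl⟩

lemma isMF_add {w : ℤ} {g g' : ℍ → ℂ} (hg : IsMF Γ w g) (hg' : IsMF Γ w g') :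
    IsMF Γ w (g + g') := by
  obtain ⟨G, rfl⟩ := hg
  obtain ⟨G', rfl⟩ := hg'
  exact ⟨G + G', rfl⟩

lemma isMF_neg {w : ℤ} {g : ℍ → ℂ} (hg : IsMF Γ w g) : IsMF Γ w (-g) := by
  obtain ⟨G, rfl⟩ := hg
  exact ⟨-G, rfl⟩

lemma isMF_sum {ι : Type*} (s : Finset ι) {w : ℤ} {g : ι → ℍ → ℂ}
    (h : ∀ i ∈ s, IsMF Γ w (g i)) : IsMF Γ w (∑ i ∈ s, g i) := by
  classical
  induction s using Finset.induction_on with
  | empty => simpa using isMF_zero (Γ := Γ) w
  | insert i t hi IH =>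
    rw [Finset.sum_insert hi]
    exact isMF_add (h i (Finset.mem_insert_self i t))
      (IH fun j hj => h j (Finset.mem_insert_of_mem hj))

lemma isMF_units_smul {w : ℤ} {g : ℍ → ℂ} (ε : ℤˣ) (hg : IsMF Γ w g) : IsMF Γ w (ε • g) := by
  rcases Int.units_eq_one_or ε with rfl | rfl
  · simpa using hg
  · simpa using isMF_neg hg

variable [Γ.HasDetPlusMinusOne]

lemma isMF_one : IsMF Γ 0 1 := ⟨1, ModularForm.one_coe_eq_one⟩

lemma isMF_mul {w w' : ℤ} {g g' : ℍ → ℂ} (hg : IsMF Γ w g) (hg' : IsMF Γ w' g') :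
    IsMF Γ (w + w') (g * g') := by
  obtain ⟨G, rfl⟩ := hg
  obtain ⟨G', rfl⟩ := hg'
  exact ⟨G.mul G', rfl⟩

lemma isMF_prod {ι : Type*} (s : Finset ι) {w : ι → ℤ} {g : ι → ℍ → ℂ}
    (h : ∀ i ∈ s, IsMF Γ (w i) (g i)) : IsMF Γ (∑ i ∈ s, w i) (∏ i ∈ s, g i) := by
  classical
  induction s using Finset.induction_on with
  | empty => simpa using isMF_one (Γ := Γ)
  | insert i t hi IH =>
    rw [Finset.sum_insert hi, Finset.prod_insert hi]
    exact isMF_mul (h i (Finset.mem_insert_self i t))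
      (IH fun j hj => h j (Finset.mem_insert_of_mem hj))

lemma isMF_pow {w : ℤ} {g : ℍ → ℂ} (hg : IsMF Γ w g) (n : ℕ) : IsMF Γ (n * w) (g ^ n) := by
  obtain ⟨G, rfl⟩ := hg
  exact ⟨G.pow n, ModularForm.coe_pow G n⟩

/-- The determinant of a matrix of modular forms whose `(i, j)` entry has weight `r i + s j`
is a modular form of weight `∑ r + ∑ s`. -/
lemma isMF_det {ι : Type*} [Fintype ι] [DecidableEq ι] (A : Matrix ι ι (ℍ → ℂ)) (r s : ι → ℤ)
    (h : ∀ i j, IsMF Γ (r i + s j) (A i j)) : IsMF Γ (∑ i, r i + ∑ j, s j) A.det := by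
  rw [Matrix.det_apply]
  refine isMF_sum _ fun σ _ => isMF_units_smul _ ?_
  have := isMF_prod (Γ := Γ) Finset.univ (w := fun i => r (σ i) + s i) (g := fun i => A (σ i) i)
    (fun i _ => h (σ i) i)
  refine isMF_cast ?_ this
  rw [Finset.sum_add_distrib, Equiv.sum_comp σ r]

end closure

/-! ### Slash of `t ^ j * f` by a matrix of determinant `± 1` -/

lemma slash_pow_mul {A : GL (Fin 2) ℝ} (hA : |A.det.val| = 1) (t f : ℍ → ℂ) (kt k : ℤ) (j : ℕ) :
    (t ^ j * f) ∣[(j : ℤ) * kt + k] A = (t ∣[kt] A) ^ j * (f ∣[k] A) := by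
  induction j with
  | zero => simp
  | succ j ih =>
    have h1 : ((j + 1 : ℕ) : ℤ) * kt + k = kt + ((j : ℤ) * kt + k) := by push_cast; ring
    have h2 : t ^ (j + 1) * f = t * (t ^ j * f) := by ring
    rw [h1, h2, ModularForm.mul_slash, ih, hA, one_smul]
    ring

/-! ### Power sums of conjugates -/

section conjugates

variable {𝒢 ℋ : Subgroup (GL (Fin 2) ℝ)} {kt k : ℤ}

local notation "𝒬" => ℋ ⧸ (𝒢.subgroupOf ℋ)

lemma mdiff_quotientFunc {w : ℤ} (G : ModularForm 𝒢 w) (q : 𝒬) : MDiff (quotientFunc G q) := by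
  induction q using Quotient.inductionOn with
  | h r => exact (ModularForm.translate G r.val⁻¹).holo'

variable [ℋ.HasDetPlusMinusOne]

lemma quotientFunc_of_coe_eq {w : ℤ} (G : ModularForm 𝒢 w) (t : ModularForm 𝒢 kt)
    (f : ModularForm 𝒢 k) (j : ℕ) (hw : w = (j : ℤ) * kt + k) (hG : ⇑G = ⇑t ^ j * ⇑f) (q : 𝒬) :
    quotientFunc G q = quotientFunc t q ^ j * quotientFunc f q := by
  subst hw
  induction q using Quotient.inductionOn with
  | h r =>
    simp only [quotientFunc_mk]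
    rw [hG]
    exact slash_pow_mul (Subgroup.HasDetPlusMinusOne.abs_det (inv_mem r.2)) _ _ _ _ _

variable [𝒢.HasDetPlusMinusOne] [𝒢.IsFiniteRelIndex ℋ]

/-- `∑_q t_q^j f_q` is a modular form of level `ℋ` and weight `j * kt + k`. -/
lemma isMF_sum_pow_mul [Fintype 𝒬] (t : ModularForm 𝒢 kt) (f : ModularForm 𝒢 k) (j : ℕ) :
    IsMF ℋ ((j : ℤ) * kt + k) (∑ q : 𝒬, quotientFunc t q ^ j * quotientFunc f q) := by
  obtain rfl : ‹Fintype 𝒬› = Fintype.ofFinite 𝒬 := Subsingleton.elim _ _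
  obtain ⟨G, hG⟩ : IsMF 𝒢 ((j : ℤ) * kt + k) (⇑t ^ j * ⇑f) :=
    isMF_mul (isMF_pow ⟨t, rfl⟩ j) ⟨f, rfl⟩
  refine ⟨ModularForm.trace ℋ G, ?_⟩
  rw [ModularForm.coe_trace]
  exact Finset.sum_congr rfl fun q _ => quotientFunc_of_coe_eq G t f j rfl hG q

omit [𝒢.IsFiniteRelIndex ℋ] in
lemma quotientFunc_one (q : 𝒬) : quotientFunc (1 : ModularForm 𝒢 0) q = 1 := by
  induction q using Quotient.inductionOn with
  | h r =>
    simp only [quotientFunc_mk, ModularForm.one_coe_eq_one]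
    have hA := Subgroup.HasDetPlusMinusOne.abs_det (inv_mem r.2)
    ext τ
    rw [ModularForm.slash_apply, hA]
    simp

/-- `∑_q t_q^j` is a modular form of level `ℋ` and weight `j * kt`. -/
lemma isMF_sum_pow [Fintype 𝒬] (t : ModularForm 𝒢 kt) (j : ℕ) :
    IsMF ℋ ((j : ℤ) * kt) (∑ q : 𝒬, quotientFunc t q ^ j) := by
  have := isMF_sum_pow_mul (ℋ := ℋ) t (1 : ModularForm 𝒢 0) j
  simp only [quotientFunc_one, mul_one, add_zero] at this
  exact this

end conjugates

/-! ### Linear algebra: Vandermonde + Cramer -/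

lemma vandermonde_sandwich {n : ℕ} (V : Matrix (Fin n) (Fin n) ℂ) :
    V * ((V.transpose * V).adjugate * V.transpose) =
      ((V.transpose * V).det) • (1 : Matrix (Fin n) (Fin n) ℂ) := by
  rw [Matrix.adjugate_mul_distrib, Matrix.mul_assoc, ← Matrix.mul_assoc V, Matrix.mul_adjugate,
    Matrix.adjugate_mul, Matrix.det_mul, Matrix.det_transpose]
  simp [smul_smul]

lemma vandermonde_cramer {n : ℕ} (v F : Fin n → ℂ) (i0 : Fin n) :
    ∑ m : Fin n, (((Matrix.vandermonde v).transpose * Matrix.vandermonde v).updateCol m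
        (((Matrix.vandermonde v).transpose).mulVec F)).det * v i0 ^ (m : ℕ) =
      ((Matrix.vandermonde v).transpose * Matrix.vandermonde v).det * F i0 := by
  set V := Matrix.vandermonde v with hV
  have h1 : ∀ m, ((V.transpose * V).updateCol m (V.transpose.mulVec F)).det =
      ((V.transpose * V).adjugate.mulVec (V.transpose.mulVec F)) m := by
    intro m
    rw [← Matrix.cramer_apply, Matrix.cramer_eq_adjugate_mulVec]
  simp_rw [h1]
  have h2 : ∑ m : Fin n, ((V.transpose * V).adjugate.mulVec (V.transpose.mulVec F)) m *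
      v i0 ^ (m : ℕ) = (V.mulVec ((V.transpose * V).adjugate.mulVec (V.transpose.mulVec F))) i0 := by
    simp only [Matrix.mulVec, dotProduct, hV, Matrix.vandermonde_apply]
    exact Finset.sum_congr rfl fun m _ => mul_comm _ _
  rw [h2, Matrix.mulVec_mulVec, Matrix.mulVec_mulVec, Matrix.mul_assoc, vandermonde_sandwich]
  simp [Matrix.smul_mulVec]

/-! ### The interpolation theorem -/

section main

variable {𝒢 ℋ : Subgroup (GL (Fin 2) ℝ)} {kt k : ℤ}
  [ℋ.HasDetPlusMinusOne] [𝒢.HasDetPlusMinusOne] [𝒢.IsFiniteRelIndex ℋ]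

local notation "𝒬" => ℋ ⧸ (𝒢.subgroupOf ℋ)

/-- **Trace interpolation.** If the `ℋ`-conjugates of `t` are pairwise distinct then every modular
form `f` of level `𝒢` satisfies `D f = ∑_{m < μ} c_m t^m` with `D ≠ 0`, `c_m` of level `ℋ`. -/
theorem exists_interpolation (t : ModularForm 𝒢 kt) (f : ModularForm 𝒢 k)
    (hinj : Function.Injective (fun q : 𝒬 => quotientFunc t q)) :
    ∃ (wD : ℤ) (D : ℍ → ℂ) (c : Fin (Nat.card 𝒬) → ℍ → ℂ),
      IsMF ℋ wD D ∧ D ≠ 0 ∧
      (∀ m : Fin (Nat.card 𝒬), IsMF ℋ (wD + k - kt * ((m : ℕ) : ℤ)) (c m)) ∧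
      ∀ τ, D τ * f τ = ∑ m, c m τ * t τ ^ (m : ℕ) := by
  classical
  let _ : Fintype 𝒬 := Fintype.ofFinite 𝒬
  set n := Nat.card 𝒬 with hn
  let e : 𝒬 ≃ Fin n := Finite.equivFin 𝒬
  let tq : Fin n → ℍ → ℂ := fun i => quotientFunc t (e.symm i)
  let fq : Fin n → ℍ → ℂ := fun i => quotientFunc f (e.symm i)
  let M : Matrix (Fin n) (Fin n) (ℍ → ℂ) := fun m l => ∑ i, tq i ^ ((m : ℕ) + (l : ℕ))
  let b : Fin n → ℍ → ℂ := fun l => ∑ i, tq i ^ (l : ℕ) * fq i
  have htq : ∀ i, MDiff (tq i) := fun i => mdiff_quotientFunc t _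
  have hM : ∀ m l : Fin n, IsMF ℋ (((m : ℕ) : ℤ) * kt + ((l : ℕ) : ℤ) * kt) (M m l) := by
    intro m l
    have h1 := isMF_sum_pow (ℋ := ℋ) t ((m : ℕ) + (l : ℕ))
    rw [← Equiv.sum_comp e.symm] at h1
    exact isMF_cast (by push_cast; ring) h1
  have hb : ∀ l : Fin n, IsMF ℋ (((l : ℕ) : ℤ) * kt + k) (b l) := by
    intro l
    have h1 := isMF_sum_pow_mul (ℋ := ℋ) t f (l : ℕ)
    rw [← Equiv.sum_comp e.symm] at h1
    exact h1
  -- evaluation at a point
  have hev : ∀ τ : ℍ,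
      M.det τ = ((Matrix.vandermonde fun i => tq i τ).transpose *
        Matrix.vandermonde fun i => tq i τ).det ∧
      ∀ m, (M.updateCol m b).det τ =
        (((Matrix.vandermonde fun i => tq i τ).transpose *
          Matrix.vandermonde fun i => tq i τ).updateCol m
          ((Matrix.vandermonde fun i => tq i τ).transpose.mulVec fun i => fq i τ)).det := by
    intro τ
    let ev : (ℍ → ℂ) →+* ℂ := Pi.evalRingHom (fun _ : ℍ => ℂ) τ
    have hMτ : ev.mapMatrix M = (Matrix.vandermonde fun i => tq i τ).transpose *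
        Matrix.vandermonde fun i => tq i τ := by
      ext m l
      rw [RingHom.mapMatrix_apply, Matrix.map_apply, Matrix.mul_apply]
      simp [ev, M, Matrix.vandermonde_apply, pow_add]
    refine ⟨?_, fun m => ?_⟩
    · have := RingHom.map_det ev M
      rw [hMτ] at this
      exact this
    · have := RingHom.map_det ev (M.updateCol m b)
      rw [show ev.mapMatrix (M.updateCol m b) =
        ((Matrix.vandermonde fun i => tq i τ).transpose *
          Matrix.vandermonde fun i => tq i τ).updateCol m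
          ((Matrix.vandermonde fun i => tq i τ).transpose.mulVec fun i => fq i τ) from ?_] at this
      · exact this
      · rw [← hMτ]
        ext i l
        by_cases hl : l = m
        · subst hl
          rw [RingHom.mapMatrix_apply, Matrix.map_apply, Matrix.updateCol_self,
            Matrix.updateCol_self]
          simp [ev, b, Matrix.mulVec, dotProduct, Matrix.vandermonde_apply]
        · rw [RingHom.mapMatrix_apply, Matrix.map_apply, Matrix.updateCol_ne hl,
            Matrix.updateCol_ne hl, RingHom.mapMatrix_apply, Matrix.map_apply]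
  refine ⟨∑ i : Fin n, ((i : ℕ) : ℤ) * kt + ∑ i : Fin n, ((i : ℕ) : ℤ) * kt, M.det,
    fun m => (M.updateCol m b).det, ?_, ?_, ?_, ?_⟩
  · exact isMF_det M _ _ hM
  · -- `D ≠ 0`
    have hne : ∀ i j : Fin n, i ≠ j → tq j - tq i ≠ 0 := by
      intro i j hij h0
      have h1 : tq j = tq i := sub_eq_zero.mp h0
      exact hij (e.symm.injective (hinj h1)).symm
    have hΦ : (∏ i : Fin n, ∏ j ∈ Finset.Ioi i, (tq j - tq i)) ≠ 0 := by
      rw [Ne, UpperHalfPlane.prod_eq_zero_iff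
        (fun i _ => MDifferentiable.prod fun j _ => (htq j).sub (htq i))]
      push Not
      intro i _
      rw [Ne, UpperHalfPlane.prod_eq_zero_iff (fun j _ => (htq j).sub (htq i))]
      push Not
      intro j hj
      exact hne i j (ne_of_lt (Finset.mem_Ioi.mp hj))
    obtain ⟨τ, hτ⟩ : ∃ τ, (∏ i : Fin n, ∏ j ∈ Finset.Ioi i, (tq j - tq i)) τ ≠ 0 := by
      by_contra h
      push Not at h
      exact hΦ (funext h)
    intro hD
    have h0 : M.det τ = 0 := by rw [hD]; rfl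
    rw [(hev τ).1, Matrix.det_mul, Matrix.det_transpose, Matrix.det_vandermonde] at h0
    apply hτ
    simp only [Finset.prod_apply, Pi.sub_apply]
    exact mul_self_eq_zero.mp h0
  · intro m
    have h1 := isMF_det (Γ := ℋ) (M.updateCol m b) (fun i => ((i : ℕ) : ℤ) * kt)
      (Function.update (fun l : Fin n => ((l : ℕ) : ℤ) * kt) m k) ?_
    · refine isMF_cast ?_ h1
      rw [Finset.sum_update_of_mem (Finset.mem_univ m)]
      have h2 := Finset.add_sum_erase Finset.univ (fun l : Fin n => ((l : ℕ) : ℤ) * kt)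
        (Finset.mem_univ m)
      rw [Finset.sdiff_singleton_eq_erase]
      linarith
    · intro i l
      by_cases hl : l = m
      · subst hl
        simpa using hb i
      · simpa [Matrix.updateCol_ne hl, Function.update_of_ne hl] using hM i l
  · intro τ
    obtain ⟨hD, hc⟩ := hev τ
    simp only [hD, hc]
    have h1 := vandermonde_cramer (fun i => tq i τ) (fun i => fq i τ) (e ⟦1⟧)
    have ht : tq (e ⟦1⟧) τ = t τ := by simp [tq]
    have hf : fq (e ⟦1⟧) τ = f τ := by simp [fq]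
    simp only [ht, hf] at h1
    exact h1.symm

omit [ℋ.HasDetPlusMinusOne] [𝒢.HasDetPlusMinusOne] [𝒢.IsFiniteRelIndex ℋ] in
/-- If the stabiliser of `t` in `ℋ` is contained in `𝒢`, the `ℋ`-conjugates of `t` are pairwise
distinct. -/
lemma injective_quotientFunc_of_stabiliser (t : ModularForm 𝒢 kt)
    (hstab : ∀ h ∈ ℋ, (⇑t) ∣[kt] h = ⇑t → h ∈ 𝒢) :
    Function.Injective (fun q : 𝒬 => quotientFunc t q) := by
  intro q q' hqq
  induction q using Quotient.inductionOn with
  | h r =>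
    induction q' using Quotient.inductionOn with
    | h r' =>
      simp only [quotientFunc_mk] at hqq
      have h1 : (⇑t) ∣[kt] (r.val⁻¹ * r'.val) = ⇑t := by
        rw [SlashAction.slash_mul, hqq, ← SlashAction.slash_mul, inv_mul_cancel,
          SlashAction.slash_one]
      have h2 := hstab _ (ℋ.mul_mem (ℋ.inv_mem r.2) r'.2) h1
      exact QuotientGroup.eq.mpr (by simpa [Subgroup.mem_subgroupOf] using h2)

end main

/-! ### Specialisation to `Γ₀(N) ⊆ SL(2, ℤ)` and `t_N = Δ(N ·)` -/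

section Gamma0

open CongruenceSubgroup

/-- **P4 for `Γ₀(N)`** (interpolation half of the structure theorem), assuming the outputs
P2a (`t_N` is a modular form) and P2c (its stabiliser is `Γ₀(N)`). -/
theorem interpolation_Gamma0 (N : ℕ) [NeZero N] (k : ℤ)
    (htMF : IsMF (Gamma0 N) 12 (tN N))
    (hstab : ∀ γ : SL(2, ℤ), (tN N) ∣[(12 : ℤ)] γ = tN N → γ ∈ Gamma0 N)
    (f : CuspForm (Gamma0 N) k) :
    ∃ (wD : ℤ) (D : ℍ → ℂ)
      (c : Fin (Nat.card (𝒮ℒ ⧸ (Gamma0 N : Subgroup (GL (Fin 2) ℝ)).subgroupOf 𝒮ℒ)) → ℍ → ℂ),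
      IsMF 𝒮ℒ wD D ∧ D ≠ 0 ∧
      (∀ m : Fin (Nat.card (𝒮ℒ ⧸ (Gamma0 N : Subgroup (GL (Fin 2) ℝ)).subgroupOf 𝒮ℒ)),
        IsMF 𝒮ℒ (wD + k - 12 * ((m : ℕ) : ℤ)) (c m)) ∧
      ∀ τ, D τ * f τ = ∑ m, c m τ * tN N τ ^ (m : ℕ) := by
  obtain ⟨T, hT⟩ := htMF
  have hinj := injective_quotientFunc_of_stabiliser (ℋ := 𝒮ℒ) T (by
    rintro h ⟨γ, rfl⟩ hs
    rw [hT] at hs
    exact Subgroup.mem_map_of_mem _ (hstab γ hs))
  obtain ⟨wD, D, c, hD, hD0, hc, hid⟩ :=
    exists_interpolation (ℋ := 𝒮ℒ) T (ModularFormClass.modularForm f) hinj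
  refine ⟨wD, D, c, hD, hD0, hc, fun τ => ?_⟩
  have := hid τ
  rw [hT] at this
  exact this

end Gamma0

end Fermat.Agent.S23.Interp93
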