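import Mathlib
import Fermat.Agent.S23.LevelOneIntSpan

set_option autoImplicit false

open UpperHalfPlane ModularForm ModularFormClass MatrixGroups EisensteinSeries

namespace Fermat.Agent.S23.LevelOne

/-- The `ℂ`-span of the power series with integer coefficients. -/
noncomputable def spanInt : Submodule ℂ (PowerSeries ℂ) :=
  Submodule.span ℂ (Set.range (PowerSeries.map (Int.castRingHom ℂ)))

lemma mem_spanInt_of_mem_intSeries {p : PowerSeries ℂ} (hp : p ∈ intSeries) : p ∈ spanInt := by
  obtain ⟨q, rfl⟩ := hp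
  exact Submodule.subset_span ⟨q, rfl⟩

/-- `spanInt` is closed under multiplication. -/
lemma mul_mem_spanInt {x y : PowerSeries ℂ} (hx : x ∈ spanInt) (hy : y ∈ spanInt) :
    x * y ∈ spanInt := by
  refine Submodule.span_induction (p := fun x _ => x * y ∈ spanInt) ?_ ?_ ?_ ?_ hx
  · rintro _ ⟨a, rfl⟩
    refine Submodule.span_induction (p := fun y _ => PowerSeries.map (Int.castRingHom ℂ) a * y ∈ spanInt)
      ?_ ?_ ?_ ?_ hy
    · rintro _ ⟨b, rfl⟩
      rw [← map_mul]
      exact Submodule.subset_span ⟨a * b, rfl⟩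
    · simp
    · intro u v _ _ hu hv
      rw [mul_add]; exact Submodule.add_mem _ hu hv
    · intro c u _ hu
      rw [mul_smul_comm]; exact Submodule.smul_mem _ c hu
  · simp
  · intro u v _ _ hu hv
    rw [add_mul]; exact Submodule.add_mem _ hu hv
  · intro c u _ hu
    rw [smul_mul_assoc]; exact Submodule.smul_mem _ c hu

lemma one_mem_spanInt : (1 : PowerSeries ℂ) ∈ spanInt :=
  Submodule.subset_span ⟨1, by simp⟩

lemma pow_mem_spanInt {x : PowerSeries ℂ} (hx : x ∈ spanInt) (n : ℕ) : x ^ n ∈ spanInt := by
  induction n with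
  | zero => simpa using one_mem_spanInt
  | succ n ih => rw [pow_succ]; exact mul_mem_spanInt ih hx

/-- **L1**: the `q`-expansion of any level-one modular form is a `ℂ`-linear combination of
power series with integer coefficients. -/
theorem levelOne_qExpansion_mem_spanInt (w : ℤ) (g : ModularForm 𝒮ℒ w) :
    qExpansion 1 g ∈ Submodule.span ℂ (Set.range (PowerSeries.map (Int.castRingHom ℂ))) := by
  change qExpansion 1 g ∈ spanInt
  have hg : g ∈ monoSpan w := by rw [monoSpan_eq_top]; exact Submodule.mem_top
  refine Submodule.span_induction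
    (p := fun (g : ModularForm 𝒮ℒ w) _ => qExpansion 1 (g : ℍ → ℂ) ∈ spanInt) ?_ ?_ ?_ ?_ hg
  · rintro _ ⟨a, b, hw, rfl⟩
    exact mem_spanInt_of_mem_intSeries (qExpansion_monomialForm_mem_intSeries a b hw)
  · simp [qExpansion_zero]
  · intro u v _ _ hu hv
    rw [FunLike.coe_add, ModularForm.qExpansion_add one_pos one_mem_strictPeriods_SL]
    exact Submodule.add_mem _ hu hv
  · intro c u _ hu
    rw [FunLike.coe_smul, ModularForm.qExpansion_smul one_pos one_mem_strictPeriods_SL]
    exact Submodule.smul_mem _ c hu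

end Fermat.Agent.S23.LevelOne
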