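import Mathlib
import Fermat.Statements.S23
import Fermat.Agent.S23.Defs

/-!
# S23 / S22 project: SKELETON (interface statements between packages; all `sorry` here are
to be replaced by imports of the finished package files).
-/

set_option autoImplicit false

open UpperHalfPlane ModularForm CongruenceSubgroup
open scoped MatrixGroups ModularForm Manifold

namespace Fermat.Agent.S23.Skel

open Fermat.Agent.S23

/-! ## P1 : level one -/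

/-- P1. `M_w(SL2Z)` is spanned by finitely many forms with integer `q`-expansion
(monomials `E₄^a E₆^b`, `4a+6b=w`). -/
theorem levelOne_intSpan (w : ℤ) : ∃ (n : ℕ) (b : Fin n → ModularForm 𝒮ℒ w),
    (∀ i j, ∃ m : ℤ, (qExpansion 1 (b i)).coeff j = (m : ℂ)) ∧
    ∀ g : ModularForm 𝒮ℒ w, ∃ c : Fin n → ℂ, g = ∑ i, c i • b i := by
  sorry

/-! ## P2 : the form `t_N = Δ(N ·)` -/

/-- P2a. `t_N` is a modular form of weight 12 for `Γ₀(N)`. -/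
theorem tN_isMF (N : ℕ) [NeZero N] : IsMF (Gamma0 N) 12 (tN N) := by
  sorry

/-- P2b. `t_N` has integer `q`-expansion. -/
theorem tN_qExpansion_int (N : ℕ) [NeZero N] (n : ℕ) :
    ∃ m : ℤ, (qExpansion 1 (tN N)).coeff n = (m : ℂ) := by
  sorry

/-- P2c. The stabiliser of `t_N` in `SL(2,ℤ)` is exactly `Γ₀(N)`. -/
theorem mem_Gamma0_of_tN_slash_eq (N : ℕ) [NeZero N] (γ : SL(2, ℤ))
    (h : (tN N) ∣[(12 : ℤ)] γ = tN N) : γ ∈ Gamma0 N := by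
  sorry

/-! ## P3 + P4 : structure theorem -/

/-- P3+P4. Every cusp form `f` on `Γ₀(N)` is (i) `D⁻¹ ∑ c_m t_N^m` with `D, c_m` level-one forms,
and (ii) a root of a monic polynomial whose lower coefficients are level-one cusp forms. -/
theorem structure_thm (N : ℕ) [NeZero N] (k : ℤ) (f : CuspForm (Gamma0 N) k) :
    ∃ (μ : ℕ) (wD : ℤ) (D : ℍ → ℂ) (c a : Fin μ → ℍ → ℂ),
      0 < μ ∧ IsMF 𝒮ℒ wD D ∧ D ≠ 0 ∧
      (∀ m : Fin μ, IsMF 𝒮ℒ (wD + k - 12 * (m : ℕ)) (c m)) ∧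
      (∀ l : Fin μ, IsCF 𝒮ℒ (k * ((μ : ℤ) - (l : ℕ))) (a l)) ∧
      (∀ τ, D τ * f τ = ∑ m : Fin μ, c m τ * tN N τ ^ (m : ℕ)) ∧
      (∀ τ, f τ ^ μ + ∑ l : Fin μ, a l τ * f τ ^ (l : ℕ) = 0) := by
  sorry

/-! ## P5 : construction and Galois conjugation -/

/-- P5a. Converse of the structure theorem. -/
theorem construct (N : ℕ) [NeZero N] (k : ℤ) (μ : ℕ) (wD : ℤ) (D : ℍ → ℂ) (c a : Fin μ → ℍ → ℂ)
    (hμ : 0 < μ) (hD : IsMF 𝒮ℒ wD D) (hD0 : D ≠ 0)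
    (hc : ∀ m : Fin μ, IsMF 𝒮ℒ (wD + k - 12 * (m : ℕ)) (c m))
    (ha : ∀ l : Fin μ, IsCF 𝒮ℒ (k * ((μ : ℤ) - (l : ℕ))) (a l))
    (hint : ∀ τ, (∑ m : Fin μ, c m τ * tN N τ ^ (m : ℕ)) ^ μ +
      ∑ l : Fin μ, a l τ * (∑ m : Fin μ, c m τ * tN N τ ^ (m : ℕ)) ^ (l : ℕ) * D τ ^ (μ - l) = 0) :
    ∃ F : CuspForm (Gamma0 N) k, ∀ τ, D τ * F τ = ∑ m : Fin μ, c m τ * tN N τ ^ (m : ℕ) := by
  sorry

/-- P5b. `S_k(Γ₀(N))` is stable under `Aut(ℂ)` acting on `q`-expansion coefficients. -/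
theorem exists_conj (N : ℕ) [NeZero N] (k : ℤ) (σ : ℂ ≃+* ℂ) (f : CuspForm (Gamma0 N) k) :
    ∃ g : CuspForm (Gamma0 N) k, ∀ n, (qExpansion 1 g).coeff n = σ ((qExpansion 1 f).coeff n) := by
  sorry

/-! ## P6 : Galois descent -/

/-- P6a. The fixed field of `Aut(ℂ)` is `ℚ`. -/
theorem exists_ringEquiv_ne (x : ℂ) (hx : x ∉ Set.range ((↑) : ℚ → ℂ)) :
    ∃ σ : ℂ ≃+* ℂ, σ x ≠ x := by
  sorry

/-- P6b. A finite-dimensional space of sequences stable under `Aut(ℂ)` is spanned by its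
rational points. -/
theorem descent_span {V : Type*} [AddCommGroup V] [Module ℂ V] [FiniteDimensional ℂ V]
    (φ : V →ₗ[ℂ] (ℕ → ℂ)) (hφ : Function.Injective φ)
    (hσ : ∀ σ : ℂ ≃+* ℂ, ∀ v : V, ∃ w : V, ∀ n, φ w n = σ (φ v n)) :
    Submodule.span ℂ {v : V | ∀ n, ∃ r : ℚ, φ v n = (r : ℂ)} = ⊤ := by
  sorry

/-! ## P7 : bounded denominators -/

/-- P7a. `ℤ⟦q⟧` is "integrally closed in `ℚ⟦q⟧ ∩ Frac`": if `x ∈ ℚ⟦q⟧`, `v x = u` with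
`u, v ∈ ℤ⟦q⟧`, `v ≠ 0`, and `x` is a root of a monic polynomial over `ℤ⟦q⟧`, then `x ∈ ℤ⟦q⟧`. -/
theorem powerSeries_int_of_integral (x : PowerSeries ℚ) (u v : PowerSeries ℤ) (hv : v ≠ 0)
    (huv : v.map (Int.castRingHom ℚ) * x = u.map (Int.castRingHom ℚ))
    (μ : ℕ) (a : Fin μ → PowerSeries ℤ)
    (hx : x ^ μ + ∑ l : Fin μ, (a l).map (Int.castRingHom ℚ) * x ^ (l : ℕ) = 0) :
    ∃ y : PowerSeries ℤ, y.map (Int.castRingHom ℚ) = x := by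
  sorry

/-- P7b. A cusp form on `Γ₀(N)` with rational `q`-expansion has bounded denominators. -/
theorem bounded_denominators (N : ℕ) [NeZero N] (k : ℤ) (f : CuspForm (Gamma0 N) k)
    (hf : ∀ n, ∃ r : ℚ, (qExpansion 1 f).coeff n = (r : ℂ)) :
    ∃ d : ℤ, d ≠ 0 ∧ ∀ n, ∃ m : ℤ, (d : ℂ) * (qExpansion 1 f).coeff n = (m : ℂ) := by
  sorry

/-! ## P8 : assembly -/

theorem hasIntegralStructure (N : ℕ) [NeZero N] (k : ℤ) : CuspForm.HasIntegralStructure N k := by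
  sorry

end Fermat.Agent.S23.Skel
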