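import Mathlib
import Fermat.Statements.S23
import Fermat.Agent.S23.Defs
import Fermat.Agent.S23.Conj
import Fermat.Agent.S23.DeltaN
import Fermat.Agent.S23.TN
import Fermat.Agent.S23.EsymmStructure
import Fermat.Agent.S23.Interp93

/-!
# S23 project: STRUCTURE GLUE

`StructureThm N k` (the statement of `Skel.structure_thm`, a `Prop`-def in `Conj.lean`) from the
outputs of

* P2 (`DeltaN.lean`, landed): `deltaN N : CuspForm (Gamma0 N) 12`, `deltaN N τ = N ^ 11 * Δ (N τ)`;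
* P3b (monic half): `MonicHalf N k`;
* P4 (interpolation half): `InterpHalf N k`.

The two halves are stated here as `Prop`-defs with index type `Fin (idx N)`,
`idx N = Nat.card (𝒮ℒ ⧸ (Γ₀(N)).subgroupOf 𝒮ℒ)` (the index set of Mathlib's trace / norm).
-/

set_option autoImplicit false

open UpperHalfPlane ModularForm CongruenceSubgroup Function
open scoped MatrixGroups ModularForm Manifold

namespace Fermat.Agent.S23.StructureGlue

open Fermat.Agent.S23

/-! ### small closure lemmas for `IsMF` / `IsCF` -/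

lemma isMF_cast {Γ : Subgroup (GL (Fin 2) ℝ)} {w w' : ℤ} {g : ℍ → ℂ} (h : w = w')
    (hg : IsMF Γ w g) : IsMF Γ w' g := by
  subst h; exact hg

lemma isCF_cast {Γ : Subgroup (GL (Fin 2) ℝ)} {w w' : ℤ} {g : ℍ → ℂ} (h : w = w')
    (hg : IsCF Γ w g) : IsCF Γ w' g := by
  subst h; exact hg

lemma isMF_const_mul {Γ : Subgroup (GL (Fin 2) ℝ)} [Γ.HasDetOne] {w : ℤ} {g : ℍ → ℂ}
    (a : ℂ) (hg : IsMF Γ w g) : IsMF Γ w (fun τ => a * g τ) := by
  obtain ⟨G, rfl⟩ := hg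
  exact ⟨a • G, by ext τ; simp⟩

/-! ### `deltaN` versus `tN` -/

lemma deltaN_eq_tN (N : ℕ) [NeZero N] (τ : ℍ) :
    deltaN N τ = (N : ℂ) ^ 11 * tN N τ := by
  have hN : N ≠ 0 := NeZero.ne N
  have hpos : 0 < N := Nat.pos_of_ne_zero hN
  have h1 : (heckeDiagMatrix N • τ : ℍ) = ⟨(N : ℂ) * τ, by
      have : (0 : ℝ) < N := by exact_mod_cast hpos
      simpa using mul_pos this τ.im_pos⟩ := by
    apply UpperHalfPlane.ext
    rw [ModularForm.coe_heckeDiagMatrix_smul hN]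
  have h2 : ((N : ℂ) ^ (11 : ℤ)) = (N : ℂ) ^ 11 := by
    rw [← zpow_natCast]; rfl
  rw [deltaN_apply, h1, h2]
  simp only [tN, dif_pos hpos]

/-! ### the two halves -/

/-- The index of `Γ₀(N)` in `SL(2, ℤ)`, as the cardinality of the index set used by Mathlib's
`ModularForm.trace` / `ModularForm.norm` and by `Esymm.lean`. -/
noncomputable abbrev idx (N : ℕ) : ℕ :=
  Nat.card (𝒮ℒ ⧸ ((Gamma0 N : Subgroup (GL (Fin 2) ℝ)).subgroupOf 𝒮ℒ))

/-- Output shape of P3b (monic half of the structure theorem). -/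
def MonicHalf (N : ℕ) (k : ℤ) : Prop :=
  ∀ f : CuspForm (Gamma0 N) k,
    0 < idx N ∧ ∃ a : Fin (idx N) → ℍ → ℂ,
      (∀ l : Fin (idx N), IsCF 𝒮ℒ (k * ((idx N : ℤ) - (l : ℕ))) (a l)) ∧
      ∀ τ, f τ ^ idx N + ∑ l : Fin (idx N), a l τ * f τ ^ (l : ℕ) = 0

/-- Output shape of P4 (interpolation half of the structure theorem), with respect to the
normalised form `deltaN N = N ^ 11 * Δ (N ·)`. -/
def InterpHalf (N : ℕ) [NeZero N] (k : ℤ) : Prop :=
  ∀ f : CuspForm (Gamma0 N) k,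
    ∃ (wD : ℤ) (D : ℍ → ℂ) (c : Fin (idx N) → ℍ → ℂ),
      IsMF 𝒮ℒ wD D ∧ D ≠ 0 ∧
      (∀ m : Fin (idx N), IsMF 𝒮ℒ (wD + k - 12 * (m : ℕ)) (c m)) ∧
      ∀ τ, D τ * f τ = ∑ m : Fin (idx N), c m τ * deltaN N τ ^ (m : ℕ)

/-- **Structure glue**: the structure theorem from its two halves. -/
theorem structureThm_of (N : ℕ) [NeZero N] (k : ℤ) (hM : MonicHalf N k) (hI : InterpHalf N k) :
    StructureThm N k := by
  intro f
  obtain ⟨hμ, a, ha, hPf⟩ := hM f
  obtain ⟨wD, D, c, hD, hD0, hc, hDf⟩ := hI f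
  refine ⟨idx N, wD, D, fun m τ => ((N : ℂ) ^ 11) ^ (m : ℕ) * c m τ, a, hμ, hD, hD0, ?_, ha, ?_, hPf⟩
  · intro m
    exact isMF_const_mul _ (hc m)
  · intro τ
    rw [hDf τ]
    refine Finset.sum_congr rfl fun m _ => ?_
    rw [deltaN_eq_tN, mul_pow]
    ring

/-- **The structure theorem** (`Skel.structure_thm`), from the landed packages
P2 (`TN.lean`), P3b (`EsymmStructure.lean`) and P4 (`Interp93.lean`). -/
theorem structureThm (N : ℕ) [NeZero N] (k : ℤ) : StructureThm N k := by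
  intro f
  obtain ⟨a, ha, hPf⟩ := EsymmStructure.monic_half N k f
  obtain ⟨wD, D, c, hD, hD0, hc, hDf⟩ :=
    Interp93.interpolation_Gamma0 N k (TN.tN_isMF N) (TN.mem_Gamma0_of_tN_slash_eq N) f
  exact ⟨EsymmStructure.mu N, wD, D, c, a, EsymmStructure.mu_pos N, hD, hD0, hc, ha, hDf, hPf⟩

end Fermat.Agent.S23.StructureGlue
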